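import Mathlib

/-!
# Program S (S34), leaves VAL-1 / VAL-2 / VAL-3 : the abstract two-factor Dedekind-Kummer package

`R` a discrete valuation ring with uniformiser `ϖ` and residue field `κ`; `S = R[y]` a domain,
`S = R[Y]/(Ξ)` with `Ξ` monic and `Ξ ≡ F₁ F₂ mod ϖ`, the reductions `f₁, f₂` of `F₁, F₂` being
irreducible and coprime in `κ[Y]`.  Then

* `𝔐ᵢ = (ϖ, Fᵢ(y))` are maximal ideals of `S`, they are distinct, and every nonzero prime ideal of
  `S` is one of the two (`ssv_isMaximal₁`, `ssv_isMaximal₂`, `ssv_M_ne`, `ssv_prime_cases`);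
* `F₂(y) 𝔐₁ ⊆ ϖ S`, `F₁(y) 𝔐₂ ⊆ ϖ S`, `𝔐₁ ∩ 𝔐₂ = ϖ S` (`ssv_mul_mem₁`, `ssv_mul_mem₂`,
  `ssv_inf_eq`);
* the localisations of `S` at `𝔐₁`, `𝔐₂` are discrete valuation rings, `S` is a Dedekind domain
  (`ssv_dvr_at₁`, `ssv_dvr_at₂`, `ssv_isDedekindDomain`), in particular `S` is integrally closed:
  it is THE integral closure of `R` in its fraction field.

In the application (Program S, level `N = qM`): `R` = the Gauss ring of the level-`M` function
field, `y = φ(x)` (`j_q` for `x = j`), `Ξ` = the characteristic polynomial of `y`,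
`F₁ = Y - x^q`, `F₂ = Y^q - x` (Kronecker), `v₁, v₂` the two extensions of the Gauss valuation.

Mathlib only.  Prefix `ssv_` / `Ssv`.
-/

set_option autoImplicit false
set_option linter.unusedSectionVars false
set_option linter.style.haveILetI false
set_option linter.overlappingInstances false

noncomputable section

namespace Fermat.Agent.SS

open Polynomial IsLocalRing

section Ring

variable {R : Type*} [CommRing R] [IsDomain R] [IsDiscreteValuationRing R]
variable {S : Type*} [CommRing S] [IsDomain S] [Algebra R S]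

/-- The hypotheses of the two-factor Dedekind-Kummer package. -/
structure SsvData (ϖ : R) (y : S) (Ξ F₁ F₂ G : R[X]) : Prop where
  /-- `ϖ` is a uniformiser of `R` -/
  irr : Irreducible ϖ
  /-- `S = R[y]` -/
  surj : Function.Surjective (aeval (R := R) y)
  /-- `Ξ` is monic -/
  monic : Ξ.Monic
  /-- `Ξ(y) = 0` -/
  root : aeval y Ξ = 0
  /-- `Ξ` generates the kernel of `R[Y] → S` -/
  ker : ∀ g : R[X], aeval y g = 0 → Ξ ∣ g
  /-- `Ξ ≡ F₁ F₂ mod ϖ` -/
  fac : Ξ = F₁ * F₂ + C ϖ * G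
  /-- the reduction of `F₁` is irreducible -/
  irr₁ : Irreducible (F₁.map (residue R))
  /-- the reduction of `F₂` is irreducible -/
  irr₂ : Irreducible (F₂.map (residue R))
  /-- the reductions are coprime -/
  cop : IsCoprime (F₁.map (residue R)) (F₂.map (residue R))

/-- the ideal `(ϖ, F(y))` of `S` -/
def ssvM (ϖ : R) (y : S) (F : R[X]) : Ideal S :=
  Ideal.span {algebraMap R S ϖ, aeval y F}

theorem ssv_unif_mem (ϖ : R) (y : S) (F : R[X]) : algebraMap R S ϖ ∈ ssvM ϖ y F :=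
  Ideal.subset_span (by simp)

theorem ssv_aeval_mem (ϖ : R) (y : S) (F : R[X]) : aeval y F ∈ ssvM ϖ y F :=
  Ideal.subset_span (by simp)

/-- a polynomial with zero reduction is divisible by `ϖ` -/
theorem ssv_exists_of_map_eq_zero {ϖ : R} (hϖ : Irreducible ϖ) {g : R[X]}
    (hg : g.map (residue R) = 0) : ∃ h : R[X], g = C ϖ * h := by
  have h1 : C ϖ ∣ g := by
    rw [C_dvd_iff_dvd_coeff]
    intro i
    have h2 : residue R (g.coeff i) = 0 := by
      rw [← coeff_map, hg, coeff_zero]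
    rw [residue_eq_zero_iff, hϖ.maximalIdeal_eq, Ideal.mem_span_singleton] at h2
    exact h2
  exact h1

/-- lifting a congruence : if `ḡ = 0` then `g(y) = ϖ · k(y)` -/
theorem ssv_aeval_of_map_eq_zero {ϖ : R} (hϖ : Irreducible ϖ) (y : S) {g : R[X]}
    (hg : g.map (residue R) = 0) : ∃ k : R[X], aeval y g = algebraMap R S ϖ * aeval y k := by
  obtain ⟨h, rfl⟩ := ssv_exists_of_map_eq_zero hϖ hg
  exact ⟨h, by rw [map_mul, aeval_C]⟩

variable {ϖ : R} {y : S} {Ξ F₁ F₂ G : R[X]}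

theorem SsvData.symm (d : SsvData ϖ y Ξ F₁ F₂ G) : SsvData ϖ y Ξ F₂ F₁ G :=
  { irr := d.irr
    surj := d.surj
    monic := d.monic
    root := d.root
    ker := d.ker
    fac := by rw [d.fac, mul_comm F₁ F₂]
    irr₁ := d.irr₂
    irr₂ := d.irr₁
    cop := d.cop.symm }

/-- `Ξ̄ = f₁ f₂` -/
theorem SsvData.map_eq (d : SsvData ϖ y Ξ F₁ F₂ G) :
    Ξ.map (residue R) = F₁.map (residue R) * F₂.map (residue R) := by
  have h : residue R ϖ = 0 := by
    rw [residue_eq_zero_iff, d.irr.maximalIdeal_eq]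
    exact Ideal.mem_span_singleton_self ϖ
  rw [d.fac, Polynomial.map_add, Polynomial.map_mul, Polynomial.map_mul, map_C, h, C_0, zero_mul,
    add_zero]

/-- `F₁(y) F₂(y) = - ϖ G(y)` -/
theorem SsvData.prod_eq (d : SsvData ϖ y Ξ F₁ F₂ G) :
    aeval y F₁ * aeval y F₂ = - (algebraMap R S ϖ * aeval y G) := by
  have h := d.root
  rw [d.fac, map_add, map_mul, map_mul, aeval_C] at h
  exact eq_neg_of_add_eq_zero_left h

/-- `1 ∉ 𝔐₁` -/
theorem SsvData.one_notMem (d : SsvData ϖ y Ξ F₁ F₂ G) : (1 : S) ∉ ssvM ϖ y F₁ := by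
  intro h
  rw [ssvM, Ideal.mem_span_pair] at h
  obtain ⟨a, b, hab⟩ := h
  obtain ⟨a', rfl⟩ := d.surj a
  obtain ⟨b', rfl⟩ := d.surj b
  have h1 : aeval y (a' * C ϖ + b' * F₁ - 1) = 0 := by
    rw [map_sub, map_add, map_mul, map_mul, aeval_C, map_one, hab, sub_self]
  have h2 := d.ker _ h1
  have h3 : Ξ.map (residue R) ∣ (a' * C ϖ + b' * F₁ - 1).map (residue R) :=
    Polynomial.map_dvd _ h2
  have hϖ0 : residue R ϖ = 0 := by
    rw [residue_eq_zero_iff, d.irr.maximalIdeal_eq]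
    exact Ideal.mem_span_singleton_self ϖ
  rw [d.map_eq, Polynomial.map_sub, Polynomial.map_add, Polynomial.map_mul, Polynomial.map_mul,
    map_C, hϖ0, C_0, mul_zero, zero_add, Polynomial.map_one] at h3
  have h4 : F₁.map (residue R) ∣ b'.map (residue R) * F₁.map (residue R) - 1 :=
    (Dvd.intro _ rfl).trans h3
  have h5 : F₁.map (residue R) ∣ 1 := by
    have h6 := dvd_sub (Dvd.intro_left (b'.map (residue R)) rfl) h4
    rwa [sub_sub_cancel] at h6
  exact d.irr₁.not_isUnit (isUnit_of_dvd_one h5)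

/-- an element `g(y)` outside `𝔐₁` has reduction prime to `f₁` -/
theorem SsvData.not_dvd_of_notMem (d : SsvData ϖ y Ξ F₁ F₂ G) {g : R[X]}
    (hg : aeval y g ∉ ssvM ϖ y F₁) : ¬ F₁.map (residue R) ∣ g.map (residue R) := by
  rintro ⟨h, hh⟩
  obtain ⟨h', rfl⟩ := Polynomial.map_surjective (residue R) residue_surjective h
  have h1 : (g - F₁ * h').map (residue R) = 0 := by
    rw [Polynomial.map_sub, Polynomial.map_mul, hh, sub_self]
  obtain ⟨k, hk⟩ := ssv_aeval_of_map_eq_zero d.irr y h1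
  apply hg
  have h2 : aeval y g = aeval y h' * aeval y F₁ + aeval y k * algebraMap R S ϖ := by
    rw [map_sub, map_mul] at hk
    linear_combination hk
  rw [h2]
  exact Ideal.add_mem _ (Ideal.mul_mem_left _ _ (ssv_aeval_mem ϖ y F₁))
    (Ideal.mul_mem_left _ _ (ssv_unif_mem ϖ y F₁))

/-- Bezout : if `ā f₁ + b̄ ḡ = 1` then `1 ∈ (𝔐₁, g(y))` -/
theorem SsvData.one_mem_of_isCoprime (d : SsvData ϖ y Ξ F₁ F₂ G) {g : R[X]}
    (hc : IsCoprime (F₁.map (residue R)) (g.map (residue R))) (J : Ideal S)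
    (hJ : ssvM ϖ y F₁ ≤ J) (hg : aeval y g ∈ J) : (1 : S) ∈ J := by
  obtain ⟨a, b, hab⟩ := hc
  obtain ⟨a', rfl⟩ := Polynomial.map_surjective (residue R) residue_surjective a
  obtain ⟨b', rfl⟩ := Polynomial.map_surjective (residue R) residue_surjective b
  have h1 : (a' * F₁ + b' * g - 1).map (residue R) = 0 := by
    rw [Polynomial.map_sub, Polynomial.map_add, Polynomial.map_mul, Polynomial.map_mul,
      Polynomial.map_one, hab, sub_self]
  obtain ⟨k, hk⟩ := ssv_aeval_of_map_eq_zero d.irr y h1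
  have h2 : (1 : S) = aeval y a' * aeval y F₁ + aeval y b' * aeval y g
      - aeval y k * algebraMap R S ϖ := by
    rw [map_sub, map_add, map_mul, map_mul, map_one] at hk
    linear_combination -hk
  rw [h2]
  exact Ideal.sub_mem _ (Ideal.add_mem _ (Ideal.mul_mem_left _ _ (hJ (ssv_aeval_mem ϖ y F₁)))
    (Ideal.mul_mem_left _ _ hg)) (Ideal.mul_mem_left _ _ (hJ (ssv_unif_mem ϖ y F₁)))

/-- `𝔐₁ = (ϖ, F₁(y))` is a maximal ideal of `S` -/
theorem SsvData.isMaximal₁ (d : SsvData ϖ y Ξ F₁ F₂ G) : (ssvM ϖ y F₁).IsMaximal := by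
  rw [Ideal.isMaximal_iff]
  refine ⟨d.one_notMem, fun J x hJ hx hxJ => ?_⟩
  obtain ⟨g, rfl⟩ := d.surj x
  have h1 := d.not_dvd_of_notMem hx
  exact d.one_mem_of_isCoprime (d.irr₁.coprime_iff_not_dvd.mpr h1) J hJ hxJ

/-- `𝔐₂ = (ϖ, F₂(y))` is a maximal ideal of `S` -/
theorem SsvData.isMaximal₂ (d : SsvData ϖ y Ξ F₁ F₂ G) : (ssvM ϖ y F₂).IsMaximal :=
  d.symm.isMaximal₁

/-- `F₂(y) ∉ 𝔐₁` -/
theorem SsvData.aeval₂_notMem (d : SsvData ϖ y Ξ F₁ F₂ G) : aeval y F₂ ∉ ssvM ϖ y F₁ := fun h =>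
  d.one_notMem (d.one_mem_of_isCoprime d.cop _ le_rfl h)

/-- `F₁(y) ∉ 𝔐₂` -/
theorem SsvData.aeval₁_notMem (d : SsvData ϖ y Ξ F₁ F₂ G) : aeval y F₁ ∉ ssvM ϖ y F₂ :=
  d.symm.aeval₂_notMem

/-- `𝔐₁ ≠ 𝔐₂` -/
theorem SsvData.M_ne (d : SsvData ϖ y Ξ F₁ F₂ G) : ssvM ϖ y F₁ ≠ ssvM ϖ y F₂ := fun h =>
  d.aeval₂_notMem (h ▸ ssv_aeval_mem ϖ y F₂)

/-- `F₂(y) 𝔐₁ ⊆ ϖ S` -/
theorem SsvData.mul_mem₁ (d : SsvData ϖ y Ξ F₁ F₂ G) {x : S} (hx : x ∈ ssvM ϖ y F₁) :
    ∃ s : S, aeval y F₂ * x = algebraMap R S ϖ * s := by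
  rw [ssvM, Ideal.mem_span_pair] at hx
  obtain ⟨a, b, rfl⟩ := hx
  refine ⟨aeval y F₂ * a - b * aeval y G, ?_⟩
  have := d.prod_eq
  linear_combination b * this

/-- `F₁(y) 𝔐₂ ⊆ ϖ S` -/
theorem SsvData.mul_mem₂ (d : SsvData ϖ y Ξ F₁ F₂ G) {x : S} (hx : x ∈ ssvM ϖ y F₂) :
    ∃ s : S, aeval y F₁ * x = algebraMap R S ϖ * s :=
  d.symm.mul_mem₁ hx

/-- `𝔐₁ ∩ 𝔐₂ = ϖ S` -/
theorem SsvData.inf_eq (d : SsvData ϖ y Ξ F₁ F₂ G) :
    ssvM ϖ y F₁ ⊓ ssvM ϖ y F₂ = Ideal.span {algebraMap R S ϖ} := by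
  apply le_antisymm
  · rintro x ⟨hx1, hx2⟩
    obtain ⟨s1, hs1⟩ := d.mul_mem₁ hx1
    obtain ⟨s2, hs2⟩ := d.mul_mem₂ hx2
    obtain ⟨a, b, hab⟩ := d.cop
    obtain ⟨a', rfl⟩ := Polynomial.map_surjective (residue R) residue_surjective a
    obtain ⟨b', rfl⟩ := Polynomial.map_surjective (residue R) residue_surjective b
    have h1 : (a' * F₁ + b' * F₂ - 1).map (residue R) = 0 := by
      rw [Polynomial.map_sub, Polynomial.map_add, Polynomial.map_mul, Polynomial.map_mul,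
        Polynomial.map_one, hab, sub_self]
    obtain ⟨k, hk⟩ := ssv_aeval_of_map_eq_zero d.irr y h1
    rw [map_sub, map_add, map_mul, map_mul, map_one] at hk
    rw [Ideal.mem_span_singleton']
    refine ⟨aeval y a' * s2 + aeval y b' * s1 - aeval y k * x, ?_⟩
    linear_combination (-aeval y a') * hs2 - aeval y b' * hs1 + x * hk
  · rw [Ideal.span_le]
    rintro x hx
    rw [Set.mem_singleton_iff] at hx
    subst hx
    exact ⟨ssv_unif_mem ϖ y F₁, ssv_unif_mem ϖ y F₂⟩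

/-! ### Integrality, primes of `S` -/

/-- `y` is integral over `R` -/
theorem SsvData.isIntegral_y (d : SsvData ϖ y Ξ F₁ F₂ G) : IsIntegral R y :=
  ⟨Ξ, d.monic, by rw [← aeval_def]; exact d.root⟩

/-- `S` is integral over `R` -/
theorem SsvData.isIntegral (d : SsvData ϖ y Ξ F₁ F₂ G) (x : S) : IsIntegral R x := by
  obtain ⟨g, rfl⟩ := d.surj x
  have h1 : aeval y g ∈ Algebra.adjoin R {y} := aeval_mem_adjoin_singleton R y
  have h2 : Algebra.adjoin R {y} ≤ integralClosure R S :=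
    Algebra.adjoin_le (Set.singleton_subset_iff.mpr d.isIntegral_y)
  exact h2 h1

/-- `S` is Noetherian -/
theorem SsvData.isNoetherianRing (d : SsvData ϖ y Ξ F₁ F₂ G) : IsNoetherianRing S :=
  isNoetherianRing_of_surjective R[X] S (aeval (R := R) y).toRingHom d.surj

/-- `R → S` is injective -/
theorem SsvData.algebraMap_injective (d : SsvData ϖ y Ξ F₁ F₂ G) :
    Function.Injective (algebraMap R S) := by
  rw [injective_iff_map_eq_zero]
  intro r hr
  have h1 : aeval y (C r) = 0 := by rw [aeval_C, hr]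
  have h2 := d.ker _ h1
  by_contra hr0
  have h3 : Ξ.natDegree ≤ (C r).natDegree := natDegree_le_of_dvd h2 (by simpa using hr0)
  rw [natDegree_C, Nat.le_zero, d.monic.natDegree_eq_zero] at h3
  have h4 := d.map_eq
  rw [h3, Polynomial.map_one] at h4
  exact d.irr₁.not_isUnit (isUnit_of_dvd_one ⟨_, h4⟩)

/-- `ϖ ≠ 0` in `S` -/
theorem SsvData.unif_ne_zero (d : SsvData ϖ y Ξ F₁ F₂ G) : algebraMap R S ϖ ≠ 0 := by
  intro h
  exact d.irr.ne_zero (d.algebraMap_injective (by rw [h, map_zero]))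

/-- every nonzero prime of `S` contains `ϖ` -/
theorem SsvData.unif_mem_of_prime (d : SsvData ϖ y Ξ F₁ F₂ G) (P : Ideal S) [hP : P.IsPrime]
    (hP0 : P ≠ ⊥) : algebraMap R S ϖ ∈ P := by
  obtain ⟨x, hxP, hx0⟩ := Submodule.exists_mem_ne_zero_of_ne_bot hP0
  have h1 : P.comap (algebraMap R S) ≠ ⊥ :=
    Ideal.comap_ne_bot_of_integral_mem hx0 hxP (d.isIntegral x)
  have h2 : (P.comap (algebraMap R S)).IsMaximal :=
    Ideal.IsPrime.isMaximal (Ideal.comap_isPrime _ _) h1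
  have h3 : P.comap (algebraMap R S) = maximalIdeal R := IsLocalRing.eq_maximalIdeal h2
  have h4 : ϖ ∈ P.comap (algebraMap R S) := by
    rw [h3, d.irr.maximalIdeal_eq]
    exact Ideal.mem_span_singleton_self ϖ
  exact h4

/-- every nonzero prime of `S` is `𝔐₁` or `𝔐₂` -/
theorem SsvData.prime_cases (d : SsvData ϖ y Ξ F₁ F₂ G) (P : Ideal S) [hP : P.IsPrime]
    (hP0 : P ≠ ⊥) : P = ssvM ϖ y F₁ ∨ P = ssvM ϖ y F₂ := by
  have h1 := d.unif_mem_of_prime P hP0
  have h2 : aeval y F₁ * aeval y F₂ ∈ P := by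
    rw [d.prod_eq]
    exact P.neg_mem (P.mul_mem_right _ h1)
  rcases hP.mem_or_mem h2 with h | h
  · left
    have h3 : ssvM ϖ y F₁ ≤ P := by
      rw [ssvM, Ideal.span_le]
      rintro x (rfl | rfl)
      · exact h1
      · exact h
    exact (d.isMaximal₁.eq_of_le hP.ne_top h3).symm
  · right
    have h3 : ssvM ϖ y F₂ ≤ P := by
      rw [ssvM, Ideal.span_le]
      rintro x (rfl | rfl)
      · exact h1
      · exact h
    exact (d.isMaximal₂.eq_of_le hP.ne_top h3).symm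

/-! ### The localisations are discrete valuation rings; `S` is a Dedekind domain -/

/-- the localisation of `S` at `𝔐₁` is a discrete valuation ring -/
theorem SsvData.dvr_at₁ (d : SsvData ϖ y Ξ F₁ F₂ G) :
    haveI := d.isMaximal₁.isPrime
    IsDiscreteValuationRing (Localization.AtPrime (ssvM ϖ y F₁)) := by
  haveI := d.isMaximal₁.isPrime
  haveI := d.isNoetherianRing
  set T := Localization.AtPrime (ssvM ϖ y F₁) with hT
  haveI : IsNoetherianRing T := IsLocalization.isNoetherianRing (ssvM ϖ y F₁).primeCompl T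
    inferInstance
  have hinj : Function.Injective (algebraMap S T) :=
    IsLocalization.injective T (ssvM ϖ y F₁).primeCompl_le_nonZeroDivisors
  -- the maximal ideal is generated by `ϖ`
  have hmax : maximalIdeal T = Ideal.span {algebraMap S T (algebraMap R S ϖ)} := by
    rw [← IsLocalization.AtPrime.map_eq_maximalIdeal (ssvM ϖ y F₁) T]
    have hM : Ideal.map (algebraMap S T) (ssvM ϖ y F₁) =
        Ideal.span (algebraMap S T '' {algebraMap R S ϖ, aeval y F₁}) := Ideal.map_span _ _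
    rw [hM]
    apply le_antisymm
    · rw [Ideal.span_le]
      rintro x ⟨x', (rfl | rfl), rfl⟩
      · exact Ideal.mem_span_singleton_self _
      · have hu : IsUnit (algebraMap S T (aeval y F₂)) :=
          IsLocalization.map_units T (⟨aeval y F₂, d.aeval₂_notMem⟩ : (ssvM ϖ y F₁).primeCompl)
        obtain ⟨u, hu⟩ := hu
        have h1 : algebraMap S T (aeval y F₁) * (u : T) =
            - (algebraMap S T (algebraMap R S ϖ) * algebraMap S T (aeval y G)) := by
          rw [hu, ← map_mul, d.prod_eq, map_neg, map_mul]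
        have h2 : algebraMap S T (aeval y F₁) =
            (- (algebraMap S T (aeval y G)) * ((u⁻¹ : Tˣ) : T)) *
              algebraMap S T (algebraMap R S ϖ) := by
          calc algebraMap S T (aeval y F₁)
              = (algebraMap S T (aeval y F₁) * (u : T)) * ((u⁻¹ : Tˣ) : T) := by
                rw [mul_assoc, Units.mul_inv, mul_one]
            _ = _ := by rw [h1]; ring
        rw [h2]
        exact Ideal.mul_mem_left _ _ (Ideal.mem_span_singleton_self _)
    · rw [Ideal.span_le]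
      rintro x hx
      rw [Set.mem_singleton_iff] at hx
      subst hx
      exact Ideal.subset_span ⟨_, by simp, rfl⟩
  have hnf : ¬ IsField T := by
    rw [IsLocalRing.isField_iff_maximalIdeal_eq, hmax, Ideal.span_singleton_eq_bot]
    intro h
    exact d.unif_ne_zero (hinj (by rw [h, map_zero]))
  have hpr : (maximalIdeal T).IsPrincipal := ⟨⟨algebraMap S T (algebraMap R S ϖ), hmax⟩⟩
  have htfae := (IsDiscreteValuationRing.TFAE T hnf).out 0 4
  exact htfae.mpr hpr

/-- the localisation of `S` at `𝔐₂` is a discrete valuation ring -/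
theorem SsvData.dvr_at₂ (d : SsvData ϖ y Ξ F₁ F₂ G) :
    haveI := d.isMaximal₂.isPrime
    IsDiscreteValuationRing (Localization.AtPrime (ssvM ϖ y F₂)) :=
  d.symm.dvr_at₁

/-- `S` is a Dedekind domain -/
theorem SsvData.isDedekindDomain (d : SsvData ϖ y Ξ F₁ F₂ G) : IsDedekindDomain S := by
  haveI := d.isNoetherianRing
  haveI : IsDedekindDomainDvr S := ⟨fun P hP0 hP => by
    rcases d.prime_cases P hP0 with h | h
    · subst h; exact d.dvr_at₁
    · subst h; exact d.dvr_at₂⟩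
  infer_instance

/-- `S` is integrally closed -/
theorem SsvData.isIntegrallyClosed (d : SsvData ϖ y Ξ F₁ F₂ G) : IsIntegrallyClosed S :=
  haveI := d.isDedekindDomain
  inferInstance

/-- `𝔐₁ ≠ ⊥` -/
theorem SsvData.M_ne_bot (d : SsvData ϖ y Ξ F₁ F₂ G) : ssvM ϖ y F₁ ≠ ⊥ := fun h =>
  d.unif_ne_zero (by
    have := ssv_unif_mem ϖ y F₁
    rwa [h, Ideal.mem_bot] at this)

/-- `ϖ ∉ 𝔐₁²` -/
theorem SsvData.unif_notMem_sq (d : SsvData ϖ y Ξ F₁ F₂ G) :
    algebraMap R S ϖ ∉ ssvM ϖ y F₁ ^ 2 := by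
  intro h
  -- `F₂(y)² 𝔐₁² ⊆ ϖ² S`
  have key : ∀ x ∈ ssvM ϖ y F₁ ^ 2, ∃ s : S, aeval y F₂ ^ 2 * x = algebraMap R S ϖ ^ 2 * s := by
    intro x hx
    rw [pow_two] at hx
    refine Submodule.mul_induction_on hx ?_ ?_
    · intro a ha b hb
      obtain ⟨s, hs⟩ := d.mul_mem₁ ha
      obtain ⟨t, ht⟩ := d.mul_mem₁ hb
      exact ⟨s * t, by linear_combination (aeval y F₂ * b) * hs + (algebraMap R S ϖ * s) * ht⟩
    · rintro a b ⟨s, hs⟩ ⟨t, ht⟩
      exact ⟨s + t, by linear_combination hs + ht⟩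
  obtain ⟨s, hs⟩ := key _ h
  have h1 : aeval y F₂ ^ 2 = algebraMap R S ϖ * s := by
    have h2 : algebraMap R S ϖ * aeval y F₂ ^ 2 = algebraMap R S ϖ * (algebraMap R S ϖ * s) := by
      linear_combination hs
    exact mul_left_cancel₀ d.unif_ne_zero h2
  have h3 : aeval y F₂ ^ 2 ∈ ssvM ϖ y F₁ := by
    rw [h1]
    exact Ideal.mul_mem_right _ _ (ssv_unif_mem ϖ y F₁)
  exact d.aeval₂_notMem (d.isMaximal₁.isPrime.mem_of_pow_mem 2 h3)

end Ring

/-! ### The two valuations on the fraction field -/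

section Field

open IsDedekindDomain WithZero

variable {R : Type*} [CommRing R] [IsDomain R] [IsDiscreteValuationRing R]
variable {S : Type*} [CommRing S] [IsDomain S] [Algebra R S]
variable {ϖ : R} {y : S} {Ξ F₁ F₂ G : R[X]}
variable (K' : Type*) [Field K'] [Algebra S K'] [IsFractionRing S K']

/-- the prime `𝔐₁` as a point of the height-one spectrum -/
def SsvData.v₁ (d : SsvData ϖ y Ξ F₁ F₂ G) : HeightOneSpectrum S :=
  ⟨ssvM ϖ y F₁, d.isMaximal₁.isPrime, d.M_ne_bot⟩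

/-- the prime `𝔐₂` as a point of the height-one spectrum -/
def SsvData.v₂ (d : SsvData ϖ y Ξ F₁ F₂ G) : HeightOneSpectrum S :=
  d.symm.v₁

theorem SsvData.v_cases (d : SsvData ϖ y Ξ F₁ F₂ G) (v : HeightOneSpectrum S) :
    v = d.v₁ ∨ v = d.v₂ := by
  haveI := v.isPrime
  rcases d.prime_cases v.asIdeal v.ne_bot with h | h
  · left; exact HeightOneSpectrum.ext h
  · right; exact HeightOneSpectrum.ext h

theorem SsvData.v_ne (d : SsvData ϖ y Ξ F₁ F₂ G) : d.v₁ ≠ d.v₂ := fun h =>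
  d.M_ne (congrArg HeightOneSpectrum.asIdeal h)

variable [IsDedekindDomain S]

/-- `v₁(ϖ) = exp (-1)` : `ϖ` is a uniformiser at `𝔐₁` -/
theorem SsvData.intValuation_unif₁ (d : SsvData ϖ y Ξ F₁ F₂ G) :
    d.v₁.intValuation (algebraMap R S ϖ) = exp (-1 : ℤ) := by
  have hr := d.unif_ne_zero
  obtain ⟨m, hm⟩ : ∃ m : ℕ, d.v₁.intValuation (algebraMap R S ϖ) = exp (-(m : ℤ)) :=
    ⟨_, d.v₁.intValuation_if_neg hr⟩
  have h1 : d.v₁.intValuation (algebraMap R S ϖ) ≤ exp (-((1 : ℕ) : ℤ)) :=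
    (d.v₁.intValuation_le_pow_iff_mem _ 1).mpr (by rw [pow_one]; exact ssv_unif_mem ϖ y F₁)
  have h2 : ¬ d.v₁.intValuation (algebraMap R S ϖ) ≤ exp (-((2 : ℕ) : ℤ)) := fun h =>
    d.unif_notMem_sq ((d.v₁.intValuation_le_pow_iff_mem _ 2).mp h)
  rw [hm, exp_le_exp] at h1 h2
  have h3 : m = 1 := by omega
  rw [hm, h3]
  rfl

/-- `v₂(ϖ) = exp (-1)` : `ϖ` is a uniformiser at `𝔐₂` -/
theorem SsvData.intValuation_unif₂ (d : SsvData ϖ y Ξ F₁ F₂ G) :
    d.v₂.intValuation (algebraMap R S ϖ) = exp (-1 : ℤ) :=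
  d.symm.intValuation_unif₁

theorem SsvData.valuation_unif₁ (d : SsvData ϖ y Ξ F₁ F₂ G) :
    d.v₁.valuation K' (algebraMap S K' (algebraMap R S ϖ)) = exp (-1 : ℤ) := by
  rw [HeightOneSpectrum.valuation_of_algebraMap, d.intValuation_unif₁]

theorem SsvData.valuation_unif₂ (d : SsvData ϖ y Ξ F₁ F₂ G) :
    d.v₂.valuation K' (algebraMap S K' (algebraMap R S ϖ)) = exp (-1 : ℤ) := by
  rw [HeightOneSpectrum.valuation_of_algebraMap, d.intValuation_unif₂]

/-- `S = {x : v₁ x ≤ 1, v₂ x ≤ 1}` -/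
theorem SsvData.mem_range_iff (d : SsvData ϖ y Ξ F₁ F₂ G) (x : K') :
    x ∈ (algebraMap S K').range ↔ d.v₁.valuation K' x ≤ 1 ∧ d.v₂.valuation K' x ≤ 1 := by
  constructor
  · rintro ⟨s, rfl⟩
    exact ⟨HeightOneSpectrum.valuation_le_one _ s, HeightOneSpectrum.valuation_le_one _ s⟩
  · rintro ⟨h1, h2⟩
    refine HeightOneSpectrum.mem_integers_of_valuation_le_one K' x fun v => ?_
    rcases d.v_cases v with rfl | rfl
    · exact h1
    · exact h2

/-- `ϖ S = {x : v₁ x < 1, v₂ x < 1}` -/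
theorem SsvData.dvd_iff (d : SsvData ϖ y Ξ F₁ F₂ G) (x : K') :
    (∃ s : S, x = algebraMap S K' (algebraMap R S ϖ * s)) ↔
      d.v₁.valuation K' x < 1 ∧ d.v₂.valuation K' x < 1 := by
  have hexp : (exp (-1 : ℤ) : ℤᵐ⁰) < 1 := by
    rw [← exp_zero, exp_lt_exp]; norm_num
  constructor
  · rintro ⟨s, rfl⟩
    rw [map_mul, map_mul, map_mul, d.valuation_unif₁ K', d.valuation_unif₂ K']
    exact ⟨lt_of_le_of_lt (mul_le_of_le_one_right' (HeightOneSpectrum.valuation_le_one _ s)) hexp,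
      lt_of_le_of_lt (mul_le_of_le_one_right' (HeightOneSpectrum.valuation_le_one _ s)) hexp⟩
  · rintro ⟨h1, h2⟩
    have hϖ : algebraMap S K' (algebraMap R S ϖ) ≠ 0 := by
      rw [Ne, map_eq_zero_iff _ (IsFractionRing.injective S K')]
      exact d.unif_ne_zero
    have key : ∀ v : HeightOneSpectrum S, v.valuation K' (algebraMap S K' (algebraMap R S ϖ)) =
        exp (-1 : ℤ) → v.valuation K' x < 1 →
        v.valuation K' (x / algebraMap S K' (algebraMap R S ϖ)) ≤ 1 := by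
      intro v hv hx
      rw [map_div₀, hv, div_le_iff₀ (by exact exp_pos), one_mul]
      have h3 : (1 : ℤᵐ⁰) = exp (-1 : ℤ) * exp 1 := by
        rw [← exp_add]; norm_num
      rw [h3] at hx
      exact (lt_mul_exp_iff_le (exp_ne_zero)).mp hx
    obtain ⟨s, hs⟩ := (d.mem_range_iff K' _).mpr
      ⟨key _ (d.valuation_unif₁ K') h1, key _ (d.valuation_unif₂ K') h2⟩
    refine ⟨s, ?_⟩
    rw [map_mul, hs, mul_div_cancel₀ _ hϖ]

/-! ### Every valuation ring of `K'` dominating `R` is one of the two -/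

/-- multiplying a non-unit of a valuation ring by an element of the ring gives a non-unit -/
theorem ssv_mul_mem_nonunits {K : Type*} [Field K] (V : ValuationSubring K) {a b : K}
    (ha : a ∈ V) (hb : b ∈ V.nonunits) : a * b ∈ V.nonunits := by
  rw [ValuationSubring.mem_nonunits_iff] at hb ⊢
  rw [map_mul]
  exact lt_of_le_of_lt (mul_le_of_le_one_left' ((V.valuation_le_one_iff a).mpr ha)) hb

/-- a valuation ring of `K'` containing `S` in which `ϖ` and `F₁(y)` are non-units is the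
localisation of `S` at `𝔐₁` -/
theorem SsvData.valuationSubring_eq₁ (d : SsvData ϖ y Ξ F₁ F₂ G) (V : ValuationSubring K')
    (hS : ∀ s : S, algebraMap S K' s ∈ V)
    (hϖ : algebraMap S K' (algebraMap R S ϖ) ∈ V.nonunits)
    (hF : algebraMap S K' (aeval y F₁) ∈ V.nonunits) :
    V = (d.v₁.valuation K').valuationSubring := by
  have hM : ∀ m ∈ ssvM ϖ y F₁, algebraMap S K' m ∈ V.nonunits := by
    intro m hm
    rw [ssvM, Ideal.mem_span_pair] at hm
    obtain ⟨a, b, rfl⟩ := hm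
    rw [map_add, map_mul, map_mul]
    exact add_mem (ssv_mul_mem_nonunits V (hS a) hϖ) (ssv_mul_mem_nonunits V (hS b) hF)
  have hunit : ∀ s : S, s ∉ ssvM ϖ y F₁ → (algebraMap S K' s)⁻¹ ∈ V := by
    intro s hs
    obtain ⟨a, m, hm, ham⟩ := d.isMaximal₁.exists_inv hs
    have h1 : algebraMap S K' a * algebraMap S K' s = 1 - algebraMap S K' m := by
      rw [← map_mul, ← map_one (algebraMap S K'), ← map_sub, ← ham]
      congr 1; ring
    have h2 : V.valuation (1 - algebraMap S K' m) = 1 :=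
      Valuation.map_one_sub_of_lt _ ((V.mem_nonunits_iff).mp (hM m hm))
    rw [← h1, map_mul] at h2
    have ha1 : V.valuation (algebraMap S K' a) ≤ 1 := (V.valuation_le_one_iff _).mpr (hS a)
    have hs1 : V.valuation (algebraMap S K' s) ≤ 1 := (V.valuation_le_one_iff _).mpr (hS s)
    have hs2 : V.valuation (algebraMap S K' s) = 1 := by
      apply le_antisymm hs1
      calc (1 : V.ValueGroup) = V.valuation (algebraMap S K' a) * V.valuation (algebraMap S K' s) :=
            h2.symm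
        _ ≤ 1 * V.valuation (algebraMap S K' s) := mul_le_mul_left ha1 _
        _ = V.valuation (algebraMap S K' s) := one_mul _
    rw [← V.valuation_le_one_iff, map_inv₀, hs2, inv_one]
  have hle : (d.v₁.valuation K').valuationSubring ≤ V := by
    intro x hx
    obtain ⟨n, ⟨dd, hdd⟩, hnd⟩ := d.v₁.exists_primeCompl_mul_eq_of_integer x hx
    have hd0 : algebraMap S K' dd ≠ 0 := by
      rw [Ne, map_eq_zero_iff _ (IsFractionRing.injective S K')]
      rintro rfl
      exact hdd (Ideal.zero_mem _)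
    have hx' : x = algebraMap S K' n * (algebraMap S K' dd)⁻¹ := by
      rw [← hnd, mul_assoc, mul_inv_cancel₀ hd0, mul_one]
    rw [hx']
    exact V.mul_mem _ _ (hS n) (hunit dd hdd)
  have htop : V ≠ ⊤ := by
    rintro rfl
    have h1 := (ValuationSubring.mem_nonunits_iff _).mp hϖ
    have h2 : (algebraMap S K' (algebraMap R S ϖ))⁻¹ ∈ (⊤ : ValuationSubring K') :=
      ValuationSubring.mem_top _
    rw [← ValuationSubring.valuation_le_one_iff, map_inv₀] at h2
    have h0 : (⊤ : ValuationSubring K').valuation (algebraMap S K' (algebraMap R S ϖ)) ≠ 0 := by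
      rw [Valuation.ne_zero_iff, Ne, map_eq_zero_iff _ (IsFractionRing.injective S K')]
      exact d.unif_ne_zero
    rw [inv_le_one₀ (zero_lt_iff.mpr h0)] at h2
    exact absurd h1 (not_lt.mpr h2)
  rw [← HeightOneSpectrum.valuationSubringAtPrime_eq_valuationSubring] at hle ⊢
  exact (ValuationSubring.eq_of_le_of_ne_top _ hle htop).symm

/-- **(VAL-2)** every valuation ring of `K' = Frac S` containing (the image of) `R` in which `ϖ`
is a non-unit is the valuation ring of `v₁` or of `v₂`. -/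
theorem SsvData.valuationSubring_cases (d : SsvData ϖ y Ξ F₁ F₂ G) (V : ValuationSubring K')
    (hR : ∀ r : R, algebraMap S K' (algebraMap R S r) ∈ V)
    (hϖ : algebraMap S K' (algebraMap R S ϖ) ∈ V.nonunits) :
    V = (d.v₁.valuation K').valuationSubring ∨ V = (d.v₂.valuation K').valuationSubring := by
  -- `y ∈ V`
  have hy : algebraMap S K' y ∈ V := by
    let φ : R →+* ↥V := ((algebraMap S K').comp (algebraMap R S)).codRestrict V.toSubring hR
    have h1 : IsIntegral ↥V (algebraMap S K' y) := by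
      refine ⟨Ξ.map φ, d.monic.map φ, ?_⟩
      rw [eval₂_map]
      have h2 : (algebraMap ↥V K').comp φ = (algebraMap S K').comp (algebraMap R S) := by
        ext r; rfl
      rw [h2, ← hom_eval₂, ← aeval_def, d.root, map_zero]
    obtain ⟨z, hz⟩ := IsIntegrallyClosed.isIntegral_iff.mp h1
    rw [← hz]
    exact z.2
  -- `S ⊆ V`
  have hS : ∀ s : S, algebraMap S K' s ∈ V := by
    intro s
    obtain ⟨g, rfl⟩ := d.surj s
    rw [aeval_eq_sum_range, map_sum]
    refine sum_mem fun i _ => ?_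
    rw [Algebra.smul_def, map_mul, map_pow]
    exact V.mul_mem _ _ (hR _) (pow_mem hy i)
  have hG : algebraMap S K' (aeval y G) ∈ V := hS _
  have hprod : algebraMap S K' (aeval y F₁) * algebraMap S K' (aeval y F₂) ∈ V.nonunits := by
    rw [← map_mul, d.prod_eq, map_neg, map_mul, mul_comm]
    exact neg_mem (ssv_mul_mem_nonunits V hG hϖ)
  by_cases h1 : algebraMap S K' (aeval y F₁) ∈ V.nonunits
  · left
    exact d.valuationSubring_eq₁ K' V hS hϖ h1
  · right
    refine d.symm.valuationSubring_eq₁ K' V hS hϖ ?_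
    rw [ValuationSubring.mem_nonunits_iff] at h1 hprod ⊢
    have h2 : V.valuation (algebraMap S K' (aeval y F₁)) = 1 :=
      le_antisymm ((V.valuation_le_one_iff _).mpr (hS _)) (not_lt.mp h1)
    rwa [map_mul, h2, one_mul] at hprod

/-! ### Residue fields (VAL-3) -/

theorem SsvData.valuation_lt_one_iff₁ (d : SsvData ϖ y Ξ F₁ F₂ G) (s : S) :
    d.v₁.valuation K' (algebraMap S K' s) < 1 ↔ s ∈ ssvM ϖ y F₁ :=
  HeightOneSpectrum.valuation_lt_one_iff_mem _ _

theorem SsvData.valuation_lt_one_iff₂ (d : SsvData ϖ y Ξ F₁ F₂ G) (s : S) :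
    d.v₂.valuation K' (algebraMap S K' s) < 1 ↔ s ∈ ssvM ϖ y F₂ :=
  HeightOneSpectrum.valuation_lt_one_iff_mem _ _

/-- `v₁(F₂(y)) = 1` -/
theorem SsvData.valuation_aeval₂_eq_one (d : SsvData ϖ y Ξ F₁ F₂ G) :
    d.v₁.valuation K' (algebraMap S K' (aeval y F₂)) = 1 :=
  le_antisymm (HeightOneSpectrum.valuation_le_one _ _)
    (not_lt.mp fun h => d.aeval₂_notMem ((d.valuation_lt_one_iff₁ K' _).mp h))

/-- `v₂(F₁(y)) = 1` -/
theorem SsvData.valuation_aeval₁_eq_one (d : SsvData ϖ y Ξ F₁ F₂ G) :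
    d.v₂.valuation K' (algebraMap S K' (aeval y F₁)) = 1 :=
  d.symm.valuation_aeval₂_eq_one K'

/-- the residue field of `v₁` is `κ[Y]/(f₁)` : every `v₁`-integral `x` is congruent to `g(y)`
with `deg g < deg F₁`. -/
theorem SsvData.exists_sub_lt₁ (d : SsvData ϖ y Ξ F₁ F₂ G) (hF₁ : F₁.Monic) {x : K'}
    (hx : d.v₁.valuation K' x ≤ 1) :
    ∃ g : R[X], g.degree < F₁.degree ∧
      d.v₁.valuation K' (x - algebraMap S K' (aeval y g)) < 1 := by
  obtain ⟨a, ha⟩ := d.v₁.exists_valuation_sub_lt_of_integer hx 1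
  obtain ⟨g₀, rfl⟩ := d.surj a
  refine ⟨g₀ %ₘ F₁, degree_modByMonic_lt _ hF₁, ?_⟩
  have h1 : aeval y g₀ = aeval y (g₀ %ₘ F₁) + aeval y F₁ * aeval y (g₀ /ₘ F₁) := by
    conv_lhs => rw [← modByMonic_add_div g₀ F₁]
    rw [map_add, map_mul]
  have h2 : x - algebraMap S K' (aeval y (g₀ %ₘ F₁)) =
      -(algebraMap S K' (aeval y g₀) - x) +
        algebraMap S K' (aeval y F₁ * aeval y (g₀ /ₘ F₁)) := by
    rw [h1, map_add]; ring
  rw [h2]
  refine lt_of_le_of_lt (Valuation.map_add _ _ _) (max_lt ?_ ?_)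
  · rw [Valuation.map_neg]
    simpa using ha
  · rw [d.valuation_lt_one_iff₁ K']
    exact Ideal.mul_mem_right _ _ (ssv_aeval_mem ϖ y F₁)

/-- the residue field of `v₂` is `κ[Y]/(f₂)`. -/
theorem SsvData.exists_sub_lt₂ (d : SsvData ϖ y Ξ F₁ F₂ G) (hF₂ : F₂.Monic) {x : K'}
    (hx : d.v₂.valuation K' x ≤ 1) :
    ∃ g : R[X], g.degree < F₂.degree ∧
      d.v₂.valuation K' (x - algebraMap S K' (aeval y g)) < 1 :=
  d.symm.exists_sub_lt₁ K' hF₂ hx

/-- if `F₁` is monic of degree one, the residue field of `v₁` is the residue field of `R` :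
every `v₁`-integral `x` is congruent to a constant of `R`. -/
theorem SsvData.exists_const_sub_lt₁ (d : SsvData ϖ y Ξ F₁ F₂ G) (hF₁ : F₁.Monic)
    (hdeg : F₁.natDegree = 1) {x : K'} (hx : d.v₁.valuation K' x ≤ 1) :
    ∃ r : R, d.v₁.valuation K' (x - algebraMap S K' (algebraMap R S r)) < 1 := by
  obtain ⟨g, hg, hgx⟩ := d.exists_sub_lt₁ K' hF₁ hx
  have h1 : g.degree < 1 := by
    rw [degree_eq_natDegree hF₁.ne_zero, hdeg] at hg
    exact_mod_cast hg
  have h2 : g = C (g.coeff 0) := eq_C_of_degree_le_zero (by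
    by_cases hg0 : g = 0
    · rw [hg0, degree_zero]; exact bot_le
    · rw [degree_eq_natDegree hg0] at h1 ⊢
      have : g.natDegree < 1 := by exact_mod_cast h1
      have : g.natDegree = 0 := by omega
      rw [this]; rfl)
  refine ⟨g.coeff 0, ?_⟩
  rw [h2, aeval_C] at hgx
  exact hgx

/-! ### Invariance of `v₁` under automorphisms preserving `𝔐₁` (for (K2)) -/

/-- an automorphism `σ` of `K'` inducing an automorphism `τ` of `S` with `τ 𝔐₁ ⊆ 𝔐₁` preserves
the valuation ring of `v₁`. -/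
theorem SsvData.valuation_map_le₁ (d : SsvData ϖ y Ξ F₁ F₂ G) (σ : K' →+* K') (τ : S →+* S)
    (hστ : ∀ s : S, σ (algebraMap S K' s) = algebraMap S K' (τ s))
    (hτ : ∀ s ∈ ssvM ϖ y F₁, τ s ∈ ssvM ϖ y F₁) {x : K'} (hx : d.v₁.valuation K' x ≤ 1) :
    d.v₁.valuation K' (σ x) ≤ 1 := by
  obtain ⟨n, ⟨dd, hdd⟩, hnd⟩ := d.v₁.exists_primeCompl_mul_eq_of_integer x hx
  have hτd : τ dd ∉ ssvM ϖ y F₁ := by
    intro h
    obtain ⟨a, m, hm, ham⟩ := d.isMaximal₁.exists_inv hdd
    apply d.one_notMem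
    have h1 : (1 : S) = τ a * τ dd + τ m := by rw [← map_mul, ← map_add, ham, map_one]
    rw [h1]
    exact Ideal.add_mem _ (Ideal.mul_mem_left _ _ h) (hτ m hm)
  have h1 : σ x * algebraMap S K' (τ dd) = algebraMap S K' (τ n) := by
    rw [← hστ, ← hστ, ← map_mul, hnd]
  have h2 : d.v₁.valuation K' (algebraMap S K' (τ dd)) = 1 :=
    le_antisymm (HeightOneSpectrum.valuation_le_one _ _)
      (not_lt.mp fun h => hτd ((d.valuation_lt_one_iff₁ K' _).mp h))
  have h3 := congrArg (d.v₁.valuation K') h1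
  rw [map_mul, h2, mul_one] at h3
  rw [h3]
  exact HeightOneSpectrum.valuation_le_one _ _

/-- ... and its maximal ideal. -/
theorem SsvData.valuation_map_lt₁ (d : SsvData ϖ y Ξ F₁ F₂ G) (σ : K' →+* K') (τ : S →+* S)
    (hστ : ∀ s : S, σ (algebraMap S K' s) = algebraMap S K' (τ s))
    (hτ : ∀ s ∈ ssvM ϖ y F₁, τ s ∈ ssvM ϖ y F₁) {x : K'} (hx : d.v₁.valuation K' x < 1) :
    d.v₁.valuation K' (σ x) < 1 := by
  obtain ⟨n, ⟨dd, hdd⟩, hnd⟩ := d.v₁.exists_primeCompl_mul_eq_of_integer x hx.le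
  have hτd : τ dd ∉ ssvM ϖ y F₁ := by
    intro h
    obtain ⟨a, m, hm, ham⟩ := d.isMaximal₁.exists_inv hdd
    apply d.one_notMem
    have h1 : (1 : S) = τ a * τ dd + τ m := by rw [← map_mul, ← map_add, ham, map_one]
    rw [h1]
    exact Ideal.add_mem _ (Ideal.mul_mem_left _ _ h) (hτ m hm)
  have hd1 : d.v₁.valuation K' (algebraMap S K' dd) = 1 :=
    le_antisymm (HeightOneSpectrum.valuation_le_one _ _)
      (not_lt.mp fun h => hdd ((d.valuation_lt_one_iff₁ K' _).mp h))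
  have hn : n ∈ ssvM ϖ y F₁ := by
    rw [← d.valuation_lt_one_iff₁ K', ← hnd, map_mul, hd1, mul_one]
    exact hx
  have h1 : σ x * algebraMap S K' (τ dd) = algebraMap S K' (τ n) := by
    rw [← hστ, ← hστ, ← map_mul, hnd]
  have h2 : d.v₁.valuation K' (algebraMap S K' (τ dd)) = 1 :=
    le_antisymm (HeightOneSpectrum.valuation_le_one _ _)
      (not_lt.mp fun h => hτd ((d.valuation_lt_one_iff₁ K' _).mp h))
  have h3 := congrArg (d.v₁.valuation K') h1
  rw [map_mul, h2, mul_one] at h3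
  rw [h3, d.valuation_lt_one_iff₁ K']
  exact hτ n hn

/-! ### `S` is the integral closure of `R` in `K'` -/

/-- **(VAL-1)** `S = R[y]` is the integral closure of `R` in `K'`. -/
theorem SsvData.mem_range_of_isIntegral (d : SsvData ϖ y Ξ F₁ F₂ G) [Algebra R K']
    [IsScalarTower R S K'] {x : K'} (hx : IsIntegral R x) : x ∈ (algebraMap S K').range := by
  haveI := d.isIntegrallyClosed
  have h1 : IsIntegral S x := hx.tower_top
  obtain ⟨z, hz⟩ := IsIntegrallyClosed.isIntegral_iff.mp h1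
  exact ⟨z, hz⟩

end Field

end Fermat.Agent.SS
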