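import Mathlib
import Fermat.Agent.S18.T.Spec
import Fermat.Agent.SS.Val.Kummer2

/-!
# Program S (S34), row SS-VAL : the two extensions of the Gauss valuation, AMBIENT-FIELD STYLE

Part I (`SsvAmb`) : the package of `Kummer2.lean` for a subring `R` of a field `F` (a discrete
valuation ring with uniformiser `ϖ`) and an element `y ∈ F` with `F = Frac R[y]`.

Part II (`ssv_two`) : the S18/T setting (`A` a DVR with uniformiser `ϖ`, `L = Frac A`, `F` a field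
over `L`, `t ∈ F` a chart coordinate).  `R ⊂ F` is a subring with
`A[t]_(ϖ) ⊆ R ⊆ P_(ϖ) = s18tIntLoc A t (C ϖ)` which is a discrete valuation ring with uniformiser
`ϖ` (in the application: the Gauss ring of the level-`M` function field inside the level-`qM`
function field `F`).  Conclusion (`SsvTwo`) : two valuation rings `V₁ ≠ V₂` of `F` with
`P_(ϖ) = V₁ ∩ V₂`, `ϖ P_(ϖ) = 𝔪_{V₁} ∩ 𝔪_{V₂}` (i.e. `S18DvdGauss hϖ t x ↔ x ∈ 𝔪_{V₁} ∧ x ∈ 𝔪_{V₂}`),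
`ϖ` a uniformiser of both, `F₁(y) ∈ 𝔪_{V₁}`, `F₂(y) ∈ 𝔪_{V₂}`, `F₂(y) ∈ V₁ˣ`, `F₁(y) ∈ V₂ˣ`, every
valuation ring of `F` containing `A[t]_(ϖ)` in which `ϖ` is a non-unit is `V₁` or `V₂`, and the
residue fields are generated by `R` and `y`.
-/

set_option autoImplicit false
set_option linter.unusedSectionVars false
set_option linter.style.haveILetI false
set_option linter.overlappingInstances false

noncomputable section

namespace Fermat.Agent.SS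

open Polynomial IsLocalRing IsDedekindDomain WithZero Fermat.Agent.S18

/-! ## Part I : a subring of a field -/

section Ambient

variable {F : Type*} [Field F] (R : Subring F) [IsDiscreteValuationRing ↥R]

/-- the generator `y` of `R[y]` -/
def ssvGen (y : F) : ↥(Algebra.adjoin ↥R {y}) :=
  ⟨y, Algebra.subset_adjoin (Set.mem_singleton y)⟩

/-- The hypotheses of the two-factor package for a subring `R ⊂ F` and `y ∈ F`. -/
structure SsvAmb (ϖ : ↥R) (y : F) (Ξ F₁ F₂ G : (↥R)[X]) : Prop where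
  /-- `ϖ` is a uniformiser of `R` -/
  irr : Irreducible ϖ
  /-- `Ξ` is monic -/
  monic : Ξ.Monic
  /-- `Ξ(y) = 0` -/
  root : aeval y Ξ = 0
  /-- `Ξ` generates the kernel of `R[Y] → F` -/
  ker : ∀ g : (↥R)[X], aeval y g = 0 → Ξ ∣ g
  /-- `Ξ ≡ F₁ F₂ mod ϖ` -/
  fac : Ξ = F₁ * F₂ + C ϖ * G
  /-- the reduction of `F₁` is irreducible -/
  irr₁ : Irreducible (F₁.map (residue ↥R))
  /-- the reduction of `F₂` is irreducible -/
  irr₂ : Irreducible (F₂.map (residue ↥R))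
  /-- the reductions are coprime -/
  cop : IsCoprime (F₁.map (residue ↥R)) (F₂.map (residue ↥R))
  /-- `F = Frac R[y]` -/
  gen : ∀ x : F, ∃ a b : (↥R)[X], aeval y b ≠ 0 ∧ x * aeval y b = aeval y a

variable {R} {ϖ : ↥R} {y : F} {Ξ F₁ F₂ G : (↥R)[X]}

theorem ssv_coe_aeval_gen (g : (↥R)[X]) :
    ((aeval (ssvGen R y) g : ↥(Algebra.adjoin ↥R {y})) : F) = aeval y g :=
  aeval_subalgebra_coe g _ (ssvGen R y)

theorem SsvAmb.data (h : SsvAmb R ϖ y Ξ F₁ F₂ G) : SsvData ϖ (ssvGen R y) Ξ F₁ F₂ G where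
  irr := h.irr
  surj := by
    rintro ⟨x, hx⟩
    rw [Algebra.adjoin_singleton_eq_range_aeval] at hx
    obtain ⟨g, rfl⟩ := hx
    exact ⟨g, Subtype.ext (ssv_coe_aeval_gen g)⟩
  monic := h.monic
  root := Subtype.ext (by rw [ssv_coe_aeval_gen]; exact h.root)
  ker := fun g hg => h.ker g (by rw [← ssv_coe_aeval_gen, hg]; rfl)
  fac := h.fac
  irr₁ := h.irr₁
  irr₂ := h.irr₂
  cop := h.cop

theorem SsvAmb.isFractionRing (h : SsvAmb R ϖ y Ξ F₁ F₂ G) :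
    IsFractionRing ↥(Algebra.adjoin ↥R {y}) F := by
  haveI : FaithfulSMul ↥(Algebra.adjoin ↥R {y}) F :=
    (faithfulSMul_iff_algebraMap_injective _ _).mpr Subtype.val_injective
  refine IsFractionRing.of_field _ _ fun z => ?_
  obtain ⟨a, b, hb, hab⟩ := h.gen z
  refine ⟨aeval (ssvGen R y) a, aeval (ssvGen R y) b, ?_⟩
  show z = ((aeval (ssvGen R y) a : ↥(Algebra.adjoin ↥R {y})) : F) /
    ((aeval (ssvGen R y) b : ↥(Algebra.adjoin ↥R {y})) : F)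
  rw [ssv_coe_aeval_gen, ssv_coe_aeval_gen, ← hab, mul_div_cancel_right₀ _ hb]

theorem SsvAmb.symm (h : SsvAmb R ϖ y Ξ F₁ F₂ G) : SsvAmb R ϖ y Ξ F₂ F₁ G :=
  { irr := h.irr
    monic := h.monic
    root := h.root
    ker := h.ker
    fac := by rw [h.fac, mul_comm F₁ F₂]
    irr₁ := h.irr₂
    irr₂ := h.irr₁
    cop := h.cop.symm
    gen := h.gen }

/-- membership in the maximal ideal of the valuation ring of a valuation -/
theorem ssv_mem_nonunits_iff {K : Type*} [Field K] {Γ : Type*} [LinearOrderedCommGroupWithZero Γ]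
    (v : Valuation K Γ) (x : K) : x ∈ v.valuationSubring.nonunits ↔ v x < 1 := by
  rw [ValuationSubring.mem_nonunits_iff]
  exact (Valuation.isEquiv_iff_val_lt_one.mp (Valuation.isEquiv_valuation_valuationSubring v)).symm

/-- the valuation ring `V₁` (the localisation of `R[y]` at `(ϖ, F₁(y))`) -/
def SsvAmb.V₁ (h : SsvAmb R ϖ y Ξ F₁ F₂ G) : ValuationSubring F :=
  haveI := h.data.isDedekindDomain
  haveI := h.isFractionRing
  (h.data.v₁.valuation F).valuationSubring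

/-- the valuation ring `V₂` (the localisation of `R[y]` at `(ϖ, F₂(y))`) -/
def SsvAmb.V₂ (h : SsvAmb R ϖ y Ξ F₁ F₂ G) : ValuationSubring F :=
  h.symm.V₁

theorem SsvAmb.mem_V₁_iff (h : SsvAmb R ϖ y Ξ F₁ F₂ G) (x : F) :
    haveI := h.data.isDedekindDomain
    haveI := h.isFractionRing
    x ∈ h.V₁ ↔ h.data.v₁.valuation F x ≤ 1 :=
  Iff.rfl

theorem SsvAmb.mem_V₂_iff (h : SsvAmb R ϖ y Ξ F₁ F₂ G) (x : F) :
    haveI := h.data.isDedekindDomain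
    haveI := h.isFractionRing
    x ∈ h.V₂ ↔ h.data.v₂.valuation F x ≤ 1 :=
  Iff.rfl

theorem SsvAmb.mem_nonunits_V₁_iff (h : SsvAmb R ϖ y Ξ F₁ F₂ G) (x : F) :
    haveI := h.data.isDedekindDomain
    haveI := h.isFractionRing
    x ∈ h.V₁.nonunits ↔ h.data.v₁.valuation F x < 1 :=
  ssv_mem_nonunits_iff _ x

theorem SsvAmb.mem_nonunits_V₂_iff (h : SsvAmb R ϖ y Ξ F₁ F₂ G) (x : F) :
    haveI := h.data.isDedekindDomain
    haveI := h.isFractionRing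
    x ∈ h.V₂.nonunits ↔ h.data.v₂.valuation F x < 1 :=
  ssv_mem_nonunits_iff _ x

/-- `R[y] = V₁ ∩ V₂` -/
theorem SsvAmb.mem_adjoin_iff (h : SsvAmb R ϖ y Ξ F₁ F₂ G) (x : F) :
    x ∈ Algebra.adjoin ↥R {y} ↔ x ∈ h.V₁ ∧ x ∈ h.V₂ := by
  haveI := h.data.isDedekindDomain
  haveI := h.isFractionRing
  rw [h.mem_V₁_iff, h.mem_V₂_iff, ← h.data.mem_range_iff F x]
  constructor
  · intro hx
    exact ⟨⟨x, hx⟩, rfl⟩
  · rintro ⟨z, rfl⟩
    exact z.2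

/-- `ϖ R[y] = 𝔪_{V₁} ∩ 𝔪_{V₂}` -/
theorem SsvAmb.dvd_iff (h : SsvAmb R ϖ y Ξ F₁ F₂ G) (x : F) :
    (∃ z ∈ Algebra.adjoin ↥R {y}, x = (ϖ : F) * z) ↔ x ∈ h.V₁.nonunits ∧ x ∈ h.V₂.nonunits := by
  haveI := h.data.isDedekindDomain
  haveI := h.isFractionRing
  rw [h.mem_nonunits_V₁_iff, h.mem_nonunits_V₂_iff, ← h.data.dvd_iff F x]
  constructor
  · rintro ⟨z, hz, rfl⟩
    exact ⟨⟨z, hz⟩, rfl⟩
  · rintro ⟨z, rfl⟩
    exact ⟨z, z.2, rfl⟩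

/-- `V₁ ≠ V₂` -/
theorem SsvAmb.V_ne (h : SsvAmb R ϖ y Ξ F₁ F₂ G) : h.V₁ ≠ h.V₂ := by
  haveI := h.data.isDedekindDomain
  haveI := h.isFractionRing
  intro hV
  -- `F₂(y)` is a unit of `V₁` and a non-unit of `V₂`
  have h1 : aeval y F₂ ∈ h.V₂.nonunits := by
    rw [h.mem_nonunits_V₂_iff, ← ssv_coe_aeval_gen]
    exact (h.data.valuation_lt_one_iff₂ F _).mpr (ssv_aeval_mem _ _ _)
  rw [← hV, h.mem_nonunits_V₁_iff, ← ssv_coe_aeval_gen] at h1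
  exact absurd (h.data.valuation_aeval₂_eq_one F) (ne_of_lt h1)

/-- `F₁(y) ∈ 𝔪_{V₁}` -/
theorem SsvAmb.aeval₁_mem (h : SsvAmb R ϖ y Ξ F₁ F₂ G) : aeval y F₁ ∈ h.V₁.nonunits := by
  haveI := h.data.isDedekindDomain
  haveI := h.isFractionRing
  rw [h.mem_nonunits_V₁_iff, ← ssv_coe_aeval_gen]
  exact (h.data.valuation_lt_one_iff₁ F _).mpr (ssv_aeval_mem _ _ _)

/-- `F₂(y) ∈ 𝔪_{V₂}` -/
theorem SsvAmb.aeval₂_mem (h : SsvAmb R ϖ y Ξ F₁ F₂ G) : aeval y F₂ ∈ h.V₂.nonunits :=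
  h.symm.aeval₁_mem

/-- `ϖ ∈ 𝔪_{V₁}` -/
theorem SsvAmb.unif_mem₁ (h : SsvAmb R ϖ y Ξ F₁ F₂ G) : (ϖ : F) ∈ h.V₁.nonunits := by
  haveI := h.data.isDedekindDomain
  haveI := h.isFractionRing
  rw [h.mem_nonunits_V₁_iff]
  exact (h.data.valuation_lt_one_iff₁ F _).mpr (ssv_unif_mem _ _ _)

/-- `ϖ ∈ 𝔪_{V₂}` -/
theorem SsvAmb.unif_mem₂ (h : SsvAmb R ϖ y Ξ F₁ F₂ G) : (ϖ : F) ∈ h.V₂.nonunits :=
  h.symm.unif_mem₁

/-- `F₂(y)` is a unit of `V₁` -/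
theorem SsvAmb.aeval₂_unit (h : SsvAmb R ϖ y Ξ F₁ F₂ G) :
    aeval y F₂ ∈ h.V₁ ∧ aeval y F₂ ∉ h.V₁.nonunits := by
  haveI := h.data.isDedekindDomain
  haveI := h.isFractionRing
  rw [h.mem_nonunits_V₁_iff, h.mem_V₁_iff, ← ssv_coe_aeval_gen]
  have := h.data.valuation_aeval₂_eq_one F
  exact ⟨this.le, not_lt.mpr this.ge⟩

/-- `F₁(y)` is a unit of `V₂` -/
theorem SsvAmb.aeval₁_unit (h : SsvAmb R ϖ y Ξ F₁ F₂ G) :
    aeval y F₁ ∈ h.V₂ ∧ aeval y F₁ ∉ h.V₂.nonunits :=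
  h.symm.aeval₂_unit

/-- `ϖ` is a uniformiser of `V₁` : it divides every non-unit. -/
theorem SsvAmb.unif_dvd₁ (h : SsvAmb R ϖ y Ξ F₁ F₂ G) {x : F} (hx : x ∈ h.V₁.nonunits) :
    x / (ϖ : F) ∈ h.V₁ := by
  haveI := h.data.isDedekindDomain
  haveI := h.isFractionRing
  rw [h.mem_nonunits_V₁_iff] at hx
  rw [h.mem_V₁_iff, map_div₀]
  have h1 : h.data.v₁.valuation F ((ϖ : ↥R) : F) = exp (-1 : ℤ) := h.data.valuation_unif₁ F
  rw [h1, div_le_iff₀ (by exact exp_pos), one_mul]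
  have h3 : (1 : ℤᵐ⁰) = exp (-1 : ℤ) * exp 1 := by
    rw [← exp_add]; norm_num
  rw [h3] at hx
  exact (lt_mul_exp_iff_le (exp_ne_zero)).mp hx

/-- `ϖ` is a uniformiser of `V₂`. -/
theorem SsvAmb.unif_dvd₂ (h : SsvAmb R ϖ y Ξ F₁ F₂ G) {x : F} (hx : x ∈ h.V₂.nonunits) :
    x / (ϖ : F) ∈ h.V₂ :=
  h.symm.unif_dvd₁ hx

/-- every valuation ring of `F` containing `R` in which `ϖ` is a non-unit is `V₁` or `V₂` -/
theorem SsvAmb.cases (h : SsvAmb R ϖ y Ξ F₁ F₂ G) (V : ValuationSubring F)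
    (hR : ∀ r : ↥R, (r : F) ∈ V) (hϖ : (ϖ : F) ∈ V.nonunits) : V = h.V₁ ∨ V = h.V₂ := by
  haveI := h.data.isDedekindDomain
  haveI := h.isFractionRing
  exact h.data.valuationSubring_cases F V hR hϖ

/-- `R[y]` is integrally closed in `F` -/
theorem SsvAmb.mem_adjoin_of_isIntegral (h : SsvAmb R ϖ y Ξ F₁ F₂ G) {x : F}
    (hx : IsIntegral ↥R x) : x ∈ Algebra.adjoin ↥R {y} := by
  haveI := h.data.isDedekindDomain
  haveI := h.isFractionRing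
  obtain ⟨z, rfl⟩ := h.data.mem_range_of_isIntegral F hx
  exact z.2

/-- every element of `R[y]` is integral over `R` -/
theorem SsvAmb.isIntegral_of_mem_adjoin (h : SsvAmb R ϖ y Ξ F₁ F₂ G) {x : F}
    (hx : x ∈ Algebra.adjoin ↥R {y}) : IsIntegral ↥R x := by
  have h1 : IsIntegral ↥R y := ⟨Ξ, h.monic, by rw [← aeval_def]; exact h.root⟩
  have h2 : Algebra.adjoin ↥R {y} ≤ integralClosure ↥R F :=
    Algebra.adjoin_le (Set.singleton_subset_iff.mpr h1)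
  exact h2 hx

/-- the residue field of `V₁` is generated by `R` and `y` : `κ(V₁) = κ(R)[Y]/(f₁)` -/
theorem SsvAmb.exists_sub_mem₁ (h : SsvAmb R ϖ y Ξ F₁ F₂ G) (hF₁ : F₁.Monic) {x : F}
    (hx : x ∈ h.V₁) :
    ∃ g : (↥R)[X], g.degree < F₁.degree ∧ x - aeval y g ∈ h.V₁.nonunits := by
  haveI := h.data.isDedekindDomain
  haveI := h.isFractionRing
  obtain ⟨g, hg, hgx⟩ := h.data.exists_sub_lt₁ F hF₁ ((h.mem_V₁_iff x).mp hx)
  refine ⟨g, hg, ?_⟩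
  rw [h.mem_nonunits_V₁_iff, ← ssv_coe_aeval_gen]
  exact hgx

/-- the residue field of `V₂` is generated by `R` and `y` : `κ(V₂) = κ(R)[Y]/(f₂)` -/
theorem SsvAmb.exists_sub_mem₂ (h : SsvAmb R ϖ y Ξ F₁ F₂ G) (hF₂ : F₂.Monic) {x : F}
    (hx : x ∈ h.V₂) :
    ∃ g : (↥R)[X], g.degree < F₂.degree ∧ x - aeval y g ∈ h.V₂.nonunits :=
  h.symm.exists_sub_mem₁ hF₂ hx

/-- if `F₁` is monic of degree one then `κ(V₁) = κ(R)` -/
theorem SsvAmb.exists_const_sub_mem₁ (h : SsvAmb R ϖ y Ξ F₁ F₂ G) (hF₁ : F₁.Monic)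
    (hdeg : F₁.natDegree = 1) {x : F} (hx : x ∈ h.V₁) :
    ∃ r : ↥R, x - (r : F) ∈ h.V₁.nonunits := by
  haveI := h.data.isDedekindDomain
  haveI := h.isFractionRing
  obtain ⟨r, hr⟩ := h.data.exists_const_sub_lt₁ F hF₁ hdeg ((h.mem_V₁_iff x).mp hx)
  refine ⟨r, ?_⟩
  rw [h.mem_nonunits_V₁_iff]
  exact hr

/-- uniqueness : a valuation ring containing `R` in which `ϖ` and `F₁(y)` are non-units is `V₁` -/
theorem SsvAmb.eq_V₁ (h : SsvAmb R ϖ y Ξ F₁ F₂ G) (V : ValuationSubring F)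
    (hR : ∀ r : ↥R, (r : F) ∈ V) (hϖ : (ϖ : F) ∈ V.nonunits)
    (hF : aeval y F₁ ∈ V.nonunits) : V = h.V₁ := by
  rcases h.cases V hR hϖ with h1 | h1
  · exact h1
  · exfalso
    rw [h1] at hF
    exact h.aeval₁_unit.2 hF

/-- uniqueness : a valuation ring containing `R` in which `ϖ` and `F₂(y)` are non-units is `V₂` -/
theorem SsvAmb.eq_V₂ (h : SsvAmb R ϖ y Ξ F₁ F₂ G) (V : ValuationSubring F)
    (hR : ∀ r : ↥R, (r : F) ∈ V) (hϖ : (ϖ : F) ∈ V.nonunits)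
    (hF : aeval y F₂ ∈ V.nonunits) : V = h.V₂ :=
  h.symm.eq_V₁ V hR hϖ hF

/-- invariance : a ring endomorphism `σ` of `F` with `σ R ⊆ R`, `σ ϖ ∈ 𝔪_{V₁}`,
`σ F₁(y) ∈ 𝔪_{V₁}` satisfies `σ⁻¹ V₁ = V₁`. -/
theorem SsvAmb.comap_V₁ (h : SsvAmb R ϖ y Ξ F₁ F₂ G) (σ : F →+* F)
    (hσR : ∀ r : ↥R, σ (r : F) ∈ R) (hσϖ : σ (ϖ : F) ∈ h.V₁.nonunits)
    (hσF : σ (aeval y F₁) ∈ h.V₁.nonunits) : h.V₁.comap σ = h.V₁ := by
  have hnon : ∀ x : F, σ x ∈ h.V₁.nonunits → x ∈ (h.V₁.comap σ).nonunits := by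
    intro x hx
    rw [ValuationSubring.mem_nonunits_iff_exists_mem_maximalIdeal] at hx ⊢
    obtain ⟨hx1, hx2⟩ := hx
    refine ⟨hx1, ?_⟩
    rw [IsLocalRing.mem_maximalIdeal, mem_nonunits_iff] at hx2 ⊢
    intro hu
    apply hx2
    obtain ⟨u, hu⟩ := hu
    refine ⟨⟨⟨σ x, hx1⟩, ⟨σ (u⁻¹ : (↥(h.V₁.comap σ))ˣ).1.1, (u⁻¹ : (↥(h.V₁.comap σ))ˣ).1.2⟩,
      ?_, ?_⟩, rfl⟩
    · apply Subtype.ext
      have := congrArg (fun z : ↥(h.V₁.comap σ) => σ (z : F)) u.mul_inv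
      simpa [hu] using this
    · apply Subtype.ext
      have := congrArg (fun z : ↥(h.V₁.comap σ) => σ (z : F)) u.inv_mul
      simpa [hu] using this
  refine h.eq_V₁ _ (fun r => ?_) (hnon _ hσϖ) (hnon _ hσF)
  have h1 : σ (r : F) ∈ h.V₁ := by
    have h2 : σ (r : F) ∈ Algebra.adjoin ↥R {y} :=
      Subalgebra.algebraMap_mem (Algebra.adjoin ↥R {y}) (⟨σ (r : F), hσR r⟩ : ↥R)
    exact ((h.mem_adjoin_iff _).mp h2).1
  exact h1

end Ambient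

/-! ## Part II : the S18/T setting -/

section S18T

universe u

variable {A : Type*} [CommRing A] [IsDomain A] [IsDiscreteValuationRing A] [CharZero A]
variable {L : Type*} [Field L] [Algebra A L] [IsFractionRing A L]
variable {F : Type u} [Field F] [Algebra A F] [Algebra L F] [IsScalarTower A L F]
variable {ϖ : A}

/-- THE CONCLUSION OF (VAL) : the Gauss valuation of `L(t)` has exactly two extensions `V₁, V₂`
to `F`, both unramified; `u₁ ∈ 𝔪_{V₁} ∩ V₂ˣ`, `u₂ ∈ 𝔪_{V₂} ∩ V₁ˣ`. -/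
structure SsvTwo (hϖ : Irreducible ϖ) (t : F) (u₁ u₂ : F) (V₁ V₂ : ValuationSubring F) :
    Prop where
  /-- the two valuation rings are distinct -/
  ne : V₁ ≠ V₂
  /-- `P_(ϖ) = V₁ ∩ V₂` -/
  mem_iff : ∀ x : F, x ∈ s18tIntLoc A t (C ϖ) (s18t_prime_C hϖ) ↔ x ∈ V₁ ∧ x ∈ V₂
  /-- `ϖ P_(ϖ) = 𝔪_{V₁} ∩ 𝔪_{V₂}` -/
  dvd_iff : ∀ x : F, S18DvdGauss hϖ t x ↔ x ∈ V₁.nonunits ∧ x ∈ V₂.nonunits
  /-- `ϖ` is a uniformiser of `V₁` -/
  unif₁ : S18IsUnif V₁ (algebraMap A F ϖ)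
  /-- `ϖ` is a uniformiser of `V₂` -/
  unif₂ : S18IsUnif V₂ (algebraMap A F ϖ)
  /-- `u₁ ∈ 𝔪_{V₁}` -/
  mem₁ : u₁ ∈ V₁.nonunits
  /-- `u₂ ∈ 𝔪_{V₂}` -/
  mem₂ : u₂ ∈ V₂.nonunits
  /-- `u₁ ∈ V₂ˣ` -/
  unit₁ : V₂.valuation u₁ = 1
  /-- `u₂ ∈ V₁ˣ` -/
  unit₂ : V₁.valuation u₂ = 1
  /-- every extension of the Gauss valuation is one of the two -/
  cases : ∀ V : ValuationSubring F, s18tLoc A t (C ϖ) (s18t_prime_C hϖ) ≤ V.toSubring →
    algebraMap A F ϖ ∈ V.nonunits → V = V₁ ∨ V = V₂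

variable (hϖ : Irreducible ϖ) (t : F) (R : Subring F) [IsDiscreteValuationRing ↥R]
variable (hR₁ : s18tLoc A t (C ϖ) (s18t_prime_C hϖ) ≤ R)
variable (hR₂ : ∀ x ∈ R, x ∈ s18tIntLoc A t (C ϖ) (s18t_prime_C hϖ))

include hR₁ in
/-- integral over `A[t]_(ϖ)` ⇒ integral over `R` -/
theorem ssv_isIntegral_of_loc {x : F}
    (hx : IsIntegral ↥(s18tLoc A t (C ϖ) (s18t_prime_C hϖ)) x) : IsIntegral ↥R x := by
  obtain ⟨p, hp, hpx⟩ := hx
  refine ⟨p.map (Subring.inclusion hR₁), hp.map _, ?_⟩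
  rw [eval₂_map]
  exact hpx

include hR₁ hR₂ in
/-- integral over `R` ⇒ integral over `A[t]_(ϖ)` -/
theorem ssv_isIntegral_loc_of {x : F} (hx : IsIntegral ↥R x) :
    IsIntegral ↥(s18tLoc A t (C ϖ) (s18t_prime_C hϖ)) x := by
  letI : Algebra ↥(s18tLoc A t (C ϖ) (s18t_prime_C hϖ)) ↥R := (Subring.inclusion hR₁).toAlgebra
  haveI : IsScalarTower ↥(s18tLoc A t (C ϖ) (s18t_prime_C hϖ)) ↥R F :=
    IsScalarTower.of_algebraMap_eq fun _ => rfl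
  haveI : Algebra.IsIntegral ↥(s18tLoc A t (C ϖ) (s18t_prime_C hϖ)) ↥R := ⟨fun r => by
    have h1 : IsIntegral ↥(s18tLoc A t (C ϖ) (s18t_prime_C hϖ)) (algebraMap ↥R F r) := hR₂ r r.2
    exact (isIntegral_algebraMap_iff (FaithfulSMul.algebraMap_injective ↥R F)).mp h1⟩
  exact isIntegral_trans x hx

variable {R} {ϖR : ↥R} {y : F} {Ξ F₁ F₂ G : (↥R)[X]}

include hR₁ hR₂ in
/-- `P_(ϖ) = R[y]` -/
theorem ssv_intLoc_iff (h : SsvAmb R ϖR y Ξ F₁ F₂ G) (x : F) :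
    x ∈ s18tIntLoc A t (C ϖ) (s18t_prime_C hϖ) ↔ x ∈ Algebra.adjoin ↥R {y} :=
  ⟨fun hx => h.mem_adjoin_of_isIntegral (ssv_isIntegral_of_loc hϖ t R hR₁ hx),
    fun hx => ssv_isIntegral_loc_of hϖ t R hR₁ hR₂ (h.isIntegral_of_mem_adjoin hx)⟩

include hR₁ hR₂ in
/-- **(SS-VAL)** the two extensions of the Gauss valuation. -/
theorem ssv_two (h : SsvAmb R ϖR y Ξ F₁ F₂ G) (hϖR : (ϖR : F) = algebraMap A F ϖ) :
    SsvTwo hϖ t (aeval y F₁) (aeval y F₂) h.V₁ h.V₂ := by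
  have hϖ0 : algebraMap A F ϖ ≠ 0 := by
    rw [← hϖR]
    intro h0
    exact h.irr.ne_zero (Subtype.ext h0)
  have hunif : ∀ V : ValuationSubring F, algebraMap A F ϖ ∈ V.nonunits →
      (∀ x ∈ V.nonunits, x / algebraMap A F ϖ ∈ V) → S18IsUnif V (algebraMap A F ϖ) := by
    intro V h1 h2
    refine ⟨(V.mem_nonunits_iff).mp h1, fun x hx => ?_⟩
    have h3 := (V.valuation_le_one_iff _).mpr (h2 x ((V.mem_nonunits_iff).mpr hx))
    rw [map_div₀] at h3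
    have h4 : V.valuation (algebraMap A F ϖ) ≠ 0 := (Valuation.ne_zero_iff _).mpr hϖ0
    exact (div_le_one₀ (zero_lt_iff.mpr h4)).mp h3
  refine
    { ne := h.V_ne
      mem_iff := fun x => by rw [ssv_intLoc_iff hϖ t hR₁ hR₂ h, h.mem_adjoin_iff]
      dvd_iff := fun x => by
        rw [← h.dvd_iff, hϖR]
        constructor
        · rintro ⟨z, hz, rfl⟩
          exact ⟨z, (ssv_intLoc_iff hϖ t hR₁ hR₂ h z).mp hz, rfl⟩
        · rintro ⟨z, hz, rfl⟩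
          exact ⟨z, (ssv_intLoc_iff hϖ t hR₁ hR₂ h z).mpr hz, rfl⟩
      unif₁ := hunif _ (hϖR ▸ h.unif_mem₁) fun x hx => hϖR ▸ h.unif_dvd₁ hx
      unif₂ := hunif _ (hϖR ▸ h.unif_mem₂) fun x hx => hϖR ▸ h.unif_dvd₂ hx
      mem₁ := h.aeval₁_mem
      mem₂ := h.aeval₂_mem
      unit₁ := ?_
      unit₂ := ?_
      cases := fun V hV hVϖ => ?_ }
  · exact le_antisymm ((h.V₂.valuation_le_one_iff _).mpr h.aeval₁_unit.1)
      (not_lt.mp fun hlt => h.aeval₁_unit.2 ((h.V₂.mem_nonunits_iff).mpr hlt))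
  · exact le_antisymm ((h.V₁.valuation_le_one_iff _).mpr h.aeval₂_unit.1)
      (not_lt.mp fun hlt => h.aeval₂_unit.2 ((h.V₁.mem_nonunits_iff).mpr hlt))
  · refine h.cases V (fun r => ?_) (hϖR ▸ hVϖ)
    -- `r` is integral over `A[t]_(ϖ) ⊆ V`, and `V` is integrally closed
    have h1 : IsIntegral ↥(s18tLoc A t (C ϖ) (s18t_prime_C hϖ)) (r : F) := hR₂ r r.2
    obtain ⟨p, hp, hpx⟩ := h1
    have h2 : IsIntegral ↥V (r : F) := by
      refine ⟨p.map (Subring.inclusion hV), hp.map _, ?_⟩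
      rw [eval₂_map]
      exact hpx
    obtain ⟨z, hz⟩ := IsIntegrallyClosed.isIntegral_iff.mp h2
    rw [← hz]
    exact z.2

end S18T

end Fermat.Agent.SS
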