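import Mathlib
import Fermat.Agent.S18.V.Spec
import Fermat.Agent.G.Conj.Deg

/-!
# Program S (S34), row SS-VAL, modular instance, part (b1) : degrees over an arbitrary field of
characteristic `0`

* `ssvmd_finrank_j` : `[F_K(N) : K(j)] = [SL₂(ℤ) : Γ₀(N)]` for EVERY field `K` of characteristic `0`
  (`≤` is S18 `s18v_finrank_le`; `≥` : S24 `finrank_jBar` over `ℚ̄`, spanning goes up `ℚ → ℚ̄`,
  independence goes up `ℚ → K`);
* `ssvmd_finrank` : `[F_K(N ℓ) : F_K(N)] = ℓ + 1` for a prime `ℓ ∤ N`.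
-/

set_option autoImplicit false
set_option linter.unusedSectionVars false
set_option linter.unusedVariables false
set_option linter.style.haveILetI false
set_option synthInstance.maxHeartbeats 400000

noncomputable section

namespace Fermat.Agent.SS

open Polynomial ModularCurve AlgebraicCurve IntermediateField Fermat.Agent.S18 Fermat.Agent.S24 Fermat.Agent.G
open scoped MatrixGroups

/-- `j` as an element of `F_K(N)` -/
def ssvmdJ (K : Type*) [Field K] (N : ℕ) [NeZero N] : modularFunctionFieldFullC K N :=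
  ⟨jqModC K, jqModC_mem_full K N⟩

/-- the lower bound for the degree over `K` (a definition, so that for `K = ℚ` the instances are
the generic ones of intermediate fields, as for S18 `S18VbDeg`). -/
def SsvmdGe (K : Type*) [Field K] (N : ℕ) [NeZero N] (n : ℕ) : Prop :=
  n ≤ Module.finrank K⟮(⟨jqModC K, jqModC_mem_full K N⟩ : modularFunctionFieldFullC K N)⟯
    (modularFunctionFieldFullC K N)

/-- `[F_ℚ(N) : ℚ(j)] ≥ ψ(N)` : spanning goes up along `ℚ ⊆ ℚ̄`. -/
theorem ssvmd_ge_rat (N : ℕ) [NeZero N] :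
    SsvmdGe ℚ N (Nat.card (SL(2, ℤ) ⧸ CongruenceSubgroup.Gamma0 N)) := by
  have hdeg := s18vb_deg_rat N
  unfold S18VbDeg at hdeg
  unfold SsvmdGe
  obtain ⟨hfd, -⟩ := hdeg
  haveI := hfd
  have hF : ∀ x ∈ modularFunctionFieldFullC ℚ N,
      s18vbEmb ℚ QBar x ∈ modularFunctionFieldBar N := fun x hx =>
    coeffEmb_mem_laurentBaseChange _ hx
  obtain ⟨h1, h2⟩ := s18vb_finrank_le_of_span (modularFunctionFieldFullC ℚ N)
    (modularFunctionFieldBar N) hF (jqModC ℚ) (jqModC_mem_full ℚ N)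
    (modularFunctionFieldFullC ℚ N : Set (LaurentSeries ℚ)) (fun x hx => hx) rfl
  have h3 := finrank_jBar N
  have e : (⟨s18vbEmb ℚ QBar (jqModC ℚ), hF _ (jqModC_mem_full ℚ N)⟩ :
      modularFunctionFieldBar N) = jBar N := rfl
  rw [e, h3] at h2
  exact h2

/-- from `ℚ` to any field of characteristic `0` : independence goes up. -/
theorem ssvmd_ge_of_rat (K : Type*) [Field K] [CharZero K] (N : ℕ) [NeZero N] (n : ℕ)
    (h : SsvmdGe ℚ N n) : SsvmdGe K N n := by
  unfold SsvmdGe at h ⊢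
  obtain ⟨hfd, -⟩ := s18v_finrank_le K N
  have e : (⟨s18vbEmb ℚ K (jqModC ℚ), s18vb_emb_mem_full N K _ (jqModC_mem_full ℚ N)⟩ :
      modularFunctionFieldFullC K N) = ⟨jqModC K, jqModC_mem_full K N⟩ :=
    Subtype.ext (coeffMap_jqModC _)
  haveI : FiniteDimensional
      K⟮(⟨s18vbEmb ℚ K (jqModC ℚ), s18vb_emb_mem_full N K _ (jqModC_mem_full ℚ N)⟩ :
        modularFunctionFieldFullC K N)⟯ (modularFunctionFieldFullC K N) := by
    rw [e]; exact hfd
  obtain ⟨h1, h2⟩ := s18vb_finrank_le_of_indep (modularFunctionFieldFullC ℚ N)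
    (modularFunctionFieldFullC K N) (s18vb_emb_mem_full N K) (jqModC ℚ) (jqModC_mem_full ℚ N)
  rw [e] at h2
  exact h.trans h2

/-- **`[F_K(N) : K(j)] = ψ(N)`** for every field `K` of characteristic `0`. -/
theorem ssvmd_finrank_j (K : Type*) [Field K] [CharZero K] (N : ℕ) [NeZero N] :
    FiniteDimensional K⟮ssvmdJ K N⟯ (modularFunctionFieldFullC K N) ∧
      Module.finrank K⟮ssvmdJ K N⟯ (modularFunctionFieldFullC K N) =
        Nat.card (SL(2, ℤ) ⧸ CongruenceSubgroup.Gamma0 N) := by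
  obtain ⟨hfd, hle⟩ := s18v_finrank_le K N
  exact ⟨hfd, le_antisymm hle (ssvmd_ge_of_rat K N _ (ssvmd_ge_rat N))⟩


/-- `[F_K(N) : K(j)] = ψ(N)` (Dedekind `ψ`). -/
theorem ssvmd_finrank_psi (K : Type*) [Field K] [CharZero K] (N : ℕ) [NeZero N] :
    Module.finrank K⟮ssvmdJ K N⟯ (modularFunctionFieldFullC K N) = dedekindPsi N := by
  rw [(ssvmd_finrank_j K N).2, ← index_Gamma0]
  rfl

/-- the inclusion `F_K(N) → F_K(N ℓ)` -/
def ssvmdIncl (K : Type*) [Field K] (N ℓ : ℕ) [NeZero N] [NeZero ℓ] :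
    modularFunctionFieldFullC K N →ₐ[K] modularFunctionFieldFullC K (N * ℓ) :=
  IntermediateField.inclusion (full_degeneracyC_le K (dvd_mul_right N ℓ))

theorem ssvmdIncl_coe (K : Type*) [Field K] (N ℓ : ℕ) [NeZero N] [NeZero ℓ]
    (x : modularFunctionFieldFullC K N) :
    ((ssvmdIncl K N ℓ x : modularFunctionFieldFullC K (N * ℓ)) : LaurentSeries K) = x :=
  IntermediateField.coe_inclusion _ x

/-- **(DEG)** `[F_K(N ℓ) : F_K(N)] = ℓ + 1` for a prime `ℓ ∤ N`, over every field of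
characteristic `0`. -/
theorem ssvmd_finrank (K : Type*) [Field K] [CharZero K] (N : ℕ) [NeZero N] {ℓ : ℕ}
    [Fact ℓ.Prime] (hℓN : ¬ ℓ ∣ N) :
    haveI : NeZero ℓ := ⟨(Fact.out : ℓ.Prime).ne_zero⟩
    letI := algebraAlong (ssvmdIncl K N ℓ)
    Module.finrank (modularFunctionFieldFullC K N) (modularFunctionFieldFullC K (N * ℓ)) =
      ℓ + 1 := by
  haveI : NeZero ℓ := ⟨(Fact.out : ℓ.Prime).ne_zero⟩
  have hℓ : ℓ.Prime := Fact.out
  have htower := gcjd_finrank_tower (ssvmdIncl K N ℓ) (ssvmdJ K N) (ssvmdJ K (N * ℓ))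
    (Subtype.ext (ssvmdIncl_coe K N ℓ _))
  rw [ssvmd_finrank_psi K N, ssvmd_finrank_psi K (N * ℓ),
    gcjd_dedekindPsi_mul_prime N hℓ hℓN] at htower
  have hpos : 0 < dedekindPsi N := by
    rw [← ssvmd_finrank_psi K N]
    haveI := (ssvmd_finrank_j K N).1
    exact Module.finrank_pos
  exact Nat.eq_of_mul_eq_mul_left hpos htower

end Fermat.Agent.SS
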