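import Mathlib
import Fermat.Agent.S18.V.Spec
import Fermat.Agent.S18.V.Coord
import Fermat.Agent.SS.Val.Gauss2

/-!
# Program S (S34), row SS-VAL, modular instance, part (b2) : the Gauss ring of the lower level inside
the upper level

* `ssvmg_dvr` : the Gauss ring `s18vO A₀ F` of an intermediate field `L₀ ⊆ F ⊆ L₀((q))` generated by
  integral series is a discrete valuation ring with uniformiser `ϖ`;
* `ssvmgR F₀ F h` : for `F₀ ≤ F` the image of `s18vO A₀ F₀` in `F`, a subring of `F`; it is a discrete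
  valuation ring with uniformiser `ϖ` (`ssvmgR_dvr`), it contains `A₀[t]_(ϖ)` and is integral over
  it when `t ∈ F₀` is a good coordinate of `F₀` (`ssvmgR_loc_le`, `ssvmgR_le_intLoc`);
* `ssvmgRed` : the reduction map `ssvmgR → k₀((q))`, with kernel `ϖ · ssvmgR`.
-/

set_option autoImplicit false
set_option linter.unusedSectionVars false
set_option linter.unusedVariables false
set_option linter.style.haveILetI false
set_option synthInstance.maxHeartbeats 400000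

noncomputable section

namespace Fermat.Agent.SS

open Polynomial ModularCurve IntermediateField IsLocalRing Fermat.Agent.S18

/-- a domain in which every nonzero element is `p^n · unit` for a fixed nonzero non-unit `p` is a
discrete valuation ring with uniformiser `p`. -/
theorem ssvmg_dvr_of_factorization {O : Type*} [CommRing O] [IsDomain O] (p : O) (hp0 : p ≠ 0)
    (hp : ¬ IsUnit p) (h : ∀ x : O, x ≠ 0 → ∃ n : ℕ, ∃ u : Oˣ, x = p ^ n * u) :
    IsDiscreteValuationRing O ∧ Irreducible p := by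
  have hirr : Irreducible p := by
    refine ⟨hp, fun a b hab => ?_⟩
    have ha : a ≠ 0 := by rintro rfl; rw [zero_mul] at hab; exact hp0 hab
    have hb : b ≠ 0 := by rintro rfl; rw [mul_zero] at hab; exact hp0 hab
    obtain ⟨m, u, hu⟩ := h a ha
    obtain ⟨n, w, hw⟩ := h b hb
    have h1 : p = p ^ (m + n) * ((u * w : Oˣ) : O) := by
      conv_lhs => rw [hab, hu, hw]
      rw [pow_add, Units.val_mul]; ring
    rcases Nat.lt_or_ge (m + n) 1 with h2 | h2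
    · exfalso
      have h0 : m + n = 0 := by omega
      rw [h0, pow_zero, one_mul] at h1
      exact hp (h1 ▸ (u * w).isUnit)
    rcases Nat.lt_or_ge 1 (m + n) with h3 | h3
    · exfalso
      obtain ⟨k, hk⟩ : ∃ k, m + n = k + 2 := ⟨m + n - 2, by omega⟩
      rw [hk] at h1
      have h4 : p * 1 = p * (p ^ (k + 1) * ((u * w : Oˣ) : O)) := by
        rw [mul_one]
        calc p = _ := h1
          _ = _ := by ring
      have h5 := mul_left_cancel₀ hp0 h4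
      apply hp
      refine IsUnit.of_mul_eq_one (p ^ k * ((u * w : Oˣ) : O)) ?_
      rw [h5]; ring
    · have h4 : m + n = 1 := by omega
      rcases Nat.eq_zero_or_pos m with hm | hm
      · left
        rw [hu, hm, pow_zero, one_mul]
        exact u.isUnit
      · right
        have hn : n = 0 := by omega
        rw [hw, hn, pow_zero, one_mul]
        exact w.isUnit
  refine ⟨IsDiscreteValuationRing.ofHasUnitMulPowIrreducibleFactorization
    ⟨p, hirr, fun {x} hx => ?_⟩, hirr⟩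
  obtain ⟨n, u, hu⟩ := h x hx
  exact ⟨n, u, hu.symm⟩

section Gauss

variable {A₀ : Type*} [CommRing A₀] [IsDomain A₀] [IsDiscreteValuationRing A₀] [CharZero A₀]
variable {L₀ : Type*} [Field L₀] [Algebra A₀ L₀] [IsFractionRing A₀ L₀]
variable {ϖ : A₀}
variable (F : IntermediateField L₀ (LaurentSeries L₀))

/-- the uniformiser as an element of the Gauss ring -/
def ssvmgUnif (ϖ : A₀) : ↥(s18vO A₀ F) := ⟨algebraMap A₀ F ϖ, s18vg_algebraMap_mem F ϖ⟩

theorem ssvmg_incl_ne_zero_of_res {b : LaurentSeries A₀} (hb : s18vRes A₀ b ≠ 0) :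
    s18vIncl A₀ L₀ b ≠ 0 := by
  intro h
  apply hb
  have : b = 0 := s18vg_incl_injective (by rw [h, map_zero])
  rw [this, map_zero]

/-- every nonzero element of the Gauss ring is `ϖ^n · unit` -/
theorem ssvmg_factorization (hϖ : Irreducible ϖ) (x : ↥(s18vO A₀ F)) (hx : x ≠ 0) :
    ∃ n : ℕ, ∃ u : (↥(s18vO A₀ F))ˣ, x = ssvmgUnif F ϖ ^ n * u := by
  obtain ⟨a, b, ha, hb, hb0, hxab⟩ := x.2
  have hbne : s18vIncl A₀ L₀ b ≠ 0 := ssvmg_incl_ne_zero_of_res hb0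
  have ha0 : a ≠ 0 := by
    rintro rfl
    rw [map_zero] at hxab
    apply hx
    apply Subtype.ext
    apply Subtype.ext
    exact (mul_eq_zero.mp hxab).resolve_right hbne
  obtain ⟨n, a', ha', hra⟩ := s18vg_exists_primitive hϖ a ha0
  have ha'F : s18vIncl A₀ L₀ a' ∈ F :=
    s18vg_mem_of_C_mul F _ (pow_ne_zero n hϖ.ne_zero) a' (ha' ▸ ha)
  have ha'ne : s18vIncl A₀ L₀ a' ≠ 0 := ssvmg_incl_ne_zero_of_res hra
  -- the unit `u = a'/b`
  let u₁ : F := ⟨s18vIncl A₀ L₀ a' * (s18vIncl A₀ L₀ b)⁻¹, mul_mem ha'F (inv_mem hb)⟩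
  let u₂ : F := ⟨s18vIncl A₀ L₀ b * (s18vIncl A₀ L₀ a')⁻¹, mul_mem hb (inv_mem ha'F)⟩
  have hu₁ : u₁ ∈ s18vO A₀ F := ⟨a', b, ha'F, hb, hb0, by
    show s18vIncl A₀ L₀ a' * (s18vIncl A₀ L₀ b)⁻¹ * s18vIncl A₀ L₀ b = s18vIncl A₀ L₀ a'
    rw [mul_assoc, inv_mul_cancel₀ hbne, mul_one]⟩
  have hu₂ : u₂ ∈ s18vO A₀ F := ⟨b, a', hb, ha'F, hra, by
    show s18vIncl A₀ L₀ b * (s18vIncl A₀ L₀ a')⁻¹ * s18vIncl A₀ L₀ a' = s18vIncl A₀ L₀ b
    rw [mul_assoc, inv_mul_cancel₀ ha'ne, mul_one]⟩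
  have h12 : u₁ * u₂ = 1 := by
    apply Subtype.ext
    show s18vIncl A₀ L₀ a' * (s18vIncl A₀ L₀ b)⁻¹ * (s18vIncl A₀ L₀ b * (s18vIncl A₀ L₀ a')⁻¹) = 1
    field_simp
  let u : (↥(s18vO A₀ F))ˣ :=
    ⟨⟨u₁, hu₁⟩, ⟨u₂, hu₂⟩, Subtype.ext h12, Subtype.ext (by rw [mul_comm] at h12; exact h12)⟩
  refine ⟨n, u, ?_⟩
  apply Subtype.ext
  apply Subtype.ext
  show (x : LaurentSeries L₀) = _
  have h1 : (x : LaurentSeries L₀) = s18vIncl A₀ L₀ a * (s18vIncl A₀ L₀ b)⁻¹ := by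
    rw [← hxab, mul_assoc, mul_inv_cancel₀ hbne, mul_one]
  have h2 : (((ssvmgUnif F ϖ ^ n * (u : ↥(s18vO A₀ F)) : ↥(s18vO A₀ F)) : F) :
      LaurentSeries L₀) = ((algebraMap A₀ F ϖ : F) : LaurentSeries L₀) ^ n *
        (s18vIncl A₀ L₀ a' * (s18vIncl A₀ L₀ b)⁻¹) := by
    push_cast
    rfl
  rw [h2, h1, ha', map_mul, s18vg_coe_unif, ← map_pow, ← map_pow]
  ring

/-- `ϖ` is not a unit of the Gauss ring -/
theorem ssvmg_unif_not_isUnit (hϖ : Irreducible ϖ) : ¬ IsUnit (ssvmgUnif F ϖ) := by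
  rintro ⟨u, hu⟩
  apply s18v_unif_not_unit hϖ F
  have h1 : (algebraMap A₀ F ϖ) * ((u⁻¹ : (↥(s18vO A₀ F))ˣ) : ↥(s18vO A₀ F)) = 1 := by
    have := u.mul_inv
    rw [hu] at this
    exact congrArg Subtype.val this
  have h2 : (algebraMap A₀ F ϖ)⁻¹ = ((u⁻¹ : (↥(s18vO A₀ F))ˣ) : ↥(s18vO A₀ F)) :=
    (eq_inv_of_mul_eq_one_right h1).symm
  rw [h2]
  exact Subtype.prop _

theorem ssvmg_unif_ne_zero (hϖ : Irreducible ϖ) : ssvmgUnif F ϖ ≠ 0 := by
  intro h
  have h1 : algebraMap A₀ F ϖ = 0 := congrArg Subtype.val h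
  exact hϖ.ne_zero (s18vg_algebraMap_injective F (by rw [h1, map_zero]))

/-- **the Gauss ring is a discrete valuation ring with uniformiser `ϖ`** -/
theorem ssvmg_dvr (hϖ : Irreducible ϖ) :
    IsDiscreteValuationRing ↥(s18vO A₀ F) ∧ Irreducible (ssvmgUnif F ϖ) :=
  ssvmg_dvr_of_factorization (ssvmgUnif F ϖ) (ssvmg_unif_ne_zero F hϖ)
    (ssvmg_unif_not_isUnit F hϖ) (ssvmg_factorization F hϖ)

end Gauss

/-! ### The Gauss ring of a subfield `F₀ ≤ F`, as a subring of `F` -/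

section Sub

variable (A₀ : Type*) [CommRing A₀] [IsDomain A₀] [IsDiscreteValuationRing A₀] [CharZero A₀]
variable {L₀ : Type*} [Field L₀] [Algebra A₀ L₀] [IsFractionRing A₀ L₀]
variable {F₀ F : IntermediateField L₀ (LaurentSeries L₀)} (h : F₀ ≤ F)

/-- the Gauss ring of `F₀` as a subring of `F` -/
def ssvmgR : Subring ↥F := (s18vO A₀ F₀).map (IntermediateField.inclusion h).toRingHom

theorem mem_ssvmgR {x : ↥F} :
    x ∈ ssvmgR A₀ h ↔ ∃ x₀ : ↥F₀, x₀ ∈ s18vO A₀ F₀ ∧ IntermediateField.inclusion h x₀ = x := by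
  unfold ssvmgR
  rw [Subring.mem_map]
  rfl

/-- the identification of the Gauss ring of `F₀` with its image in `F` -/
def ssvmgEquiv : ↥(s18vO A₀ F₀) ≃+* ↥(ssvmgR A₀ h) :=
  (s18vO A₀ F₀).equivMapOfInjective (IntermediateField.inclusion h).toRingHom
    (IntermediateField.inclusion_injective h)

theorem ssvmgEquiv_coe (x : ↥(s18vO A₀ F₀)) :
    ((ssvmgEquiv A₀ h x : ↥(ssvmgR A₀ h)) : ↥F) = IntermediateField.inclusion h (x : ↥F₀) := rfl

theorem ssvmgEquiv_coe_coe (x : ↥(s18vO A₀ F₀)) :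
    (((ssvmgEquiv A₀ h x : ↥(ssvmgR A₀ h)) : ↥F) : LaurentSeries L₀) = ((x : ↥F₀) : LaurentSeries L₀) :=
  rfl

theorem ssvmgEquiv_symm_coe_coe (r : ↥(ssvmgR A₀ h)) :
    ((((ssvmgEquiv A₀ h).symm r : ↥(s18vO A₀ F₀)) : ↥F₀) : LaurentSeries L₀) =
      ((r : ↥F) : LaurentSeries L₀) := by
  conv_rhs => rw [← (ssvmgEquiv A₀ h).apply_symm_apply r]
  rfl

instance ssvmgR_dvr : IsDiscreteValuationRing ↥(ssvmgR A₀ h) := by
  obtain ⟨ϖ, hϖ⟩ := IsDiscreteValuationRing.exists_irreducible A₀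
  haveI := (ssvmg_dvr F₀ hϖ).1
  exact IsDiscreteValuationRing.RingEquivClass.isDiscreteValuationRing (ssvmgEquiv A₀ h)

variable {A₀}

/-- the uniformiser of `ssvmgR` -/
def ssvmgRUnif (ϖ : A₀) : ↥(ssvmgR A₀ h) := ssvmgEquiv A₀ h (ssvmgUnif F₀ ϖ)

theorem ssvmgRUnif_coe (ϖ : A₀) : ((ssvmgRUnif h ϖ : ↥(ssvmgR A₀ h)) : ↥F) = algebraMap A₀ F ϖ := by
  apply Subtype.ext
  rw [ssvmgRUnif, ssvmgEquiv_coe_coe]
  show ((algebraMap A₀ F₀ ϖ : F₀) : LaurentSeries L₀) = _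
  rw [s18v_coe_algebraMap, s18v_coe_algebraMap]

theorem ssvmgRUnif_irreducible {ϖ : A₀} (hϖ : Irreducible ϖ) : Irreducible (ssvmgRUnif h ϖ) :=
  (MulEquiv.irreducible_iff (ssvmgEquiv A₀ h)).mpr (ssvmg_dvr F₀ hϖ).2

/-- the reduction map `ssvmgR → k₀((q))` -/
def ssvmgRed : ↥(ssvmgR A₀ h) →+* LaurentSeries (ResidueField A₀) :=
  (s18vcRed F₀).comp (ssvmgEquiv A₀ h).symm.toRingHom

/-- an integral series of `F₀` as an element of `ssvmgR` -/
def ssvmgOf (a : LaurentSeries A₀) (ha : s18vIncl A₀ L₀ a ∈ F₀) : ↥(ssvmgR A₀ h) :=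
  ssvmgEquiv A₀ h ⟨⟨s18vIncl A₀ L₀ a, ha⟩, a, 1, ha, by rw [map_one]; exact one_mem _,
    by rw [map_one]; exact one_ne_zero, by rw [map_one, mul_one]⟩

theorem ssvmgOf_coe (a : LaurentSeries A₀) (ha : s18vIncl A₀ L₀ a ∈ F₀) :
    (((ssvmgOf h a ha : ↥(ssvmgR A₀ h)) : ↥F) : LaurentSeries L₀) = s18vIncl A₀ L₀ a := rfl

theorem ssvmgRed_of (a : LaurentSeries A₀) (ha : s18vIncl A₀ L₀ a ∈ F₀) :
    ssvmgRed h (ssvmgOf h a ha) = s18vRes A₀ a := by
  unfold ssvmgRed ssvmgOf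
  rw [RingHom.comp_apply]
  show s18vcRed F₀ ((ssvmgEquiv A₀ h).symm (ssvmgEquiv A₀ h _)) = _
  rw [RingEquiv.symm_apply_apply]
  exact s18vcRed_incl F₀ _ a rfl

/-- every element of `ssvmgR` whose series is integral is of the form `ssvmgOf` -/
theorem ssvmg_eq_of (r : ↥(ssvmgR A₀ h)) (a : LaurentSeries A₀)
    (hra : ((r : ↥F) : LaurentSeries L₀) = s18vIncl A₀ L₀ a) :
    ∃ ha : s18vIncl A₀ L₀ a ∈ F₀, r = ssvmgOf h a ha := by
  obtain ⟨x₀, hx₀, hx₀r⟩ := (mem_ssvmgR A₀ h).mp r.2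
  have h1 : (x₀ : LaurentSeries L₀) = s18vIncl A₀ L₀ a := by
    rw [← hra, ← hx₀r]
    rfl
  have ha : s18vIncl A₀ L₀ a ∈ F₀ := h1 ▸ x₀.2
  refine ⟨ha, ?_⟩
  apply Subtype.ext
  apply Subtype.ext
  rw [hra]
  rfl

/-- the kernel of the reduction is `ϖ · ssvmgR` -/
theorem ssvmgRed_eq_zero_iff {ϖ : A₀} (hϖ : Irreducible ϖ) (r : ↥(ssvmgR A₀ h)) :
    ssvmgRed h r = 0 ↔ ssvmgRUnif h ϖ ∣ r := by
  set x := (ssvmgEquiv A₀ h).symm r with hx
  have hr : r = ssvmgEquiv A₀ h x := by rw [hx, RingEquiv.apply_symm_apply]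
  obtain ⟨a, b, ha, hb, hb0, hxab⟩ := x.2
  have h1 : ssvmgRed h r = s18vRes A₀ a / s18vRes A₀ b := s18vcRed_eq F₀ x a b hb0 hxab
  rw [h1, div_eq_zero_iff, or_iff_left hb0,
    ← s18v_dvd_iff hϖ F₀ (x : ↥F₀) a b ha hb hb0 hxab]
  constructor
  · rintro ⟨y, hy, hxy⟩
    refine ⟨ssvmgEquiv A₀ h ⟨y, hy⟩, ?_⟩
    rw [hr, ssvmgRUnif, ← map_mul]
    congr 1
    apply Subtype.ext
    exact hxy
  · rintro ⟨s, hs⟩
    refine ⟨(((ssvmgEquiv A₀ h).symm s : ↥(s18vO A₀ F₀)) : ↥F₀), Subtype.prop _, ?_⟩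
    have h2 : x = ssvmgUnif F₀ ϖ * (ssvmgEquiv A₀ h).symm s := by
      rw [hx, hs, map_mul, ssvmgRUnif, RingEquiv.symm_apply_apply]
    rw [h2]
    rfl

theorem ssvmgRed_isLocalHom : IsLocalHom (ssvmgRed (A₀ := A₀) h) := by
  obtain ⟨ϖ, hϖ⟩ := IsDiscreteValuationRing.exists_irreducible A₀
  refine ⟨fun r hr => ?_⟩
  by_contra hnu
  have h1 : r ∈ maximalIdeal ↥(ssvmgR A₀ h) := (mem_maximalIdeal r).mpr hnu
  rw [(ssvmgRUnif_irreducible h hϖ).maximalIdeal_eq, Ideal.mem_span_singleton] at h1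
  rw [(ssvmgRed_eq_zero_iff h hϖ r).mpr h1] at hr
  exact not_isUnit_zero hr

/-- the residue field of `ssvmgR` embeds into `k₀((q))` -/
def ssvmgResEmb : ResidueField ↥(ssvmgR A₀ h) →+* LaurentSeries (ResidueField A₀) :=
  haveI := ssvmgRed_isLocalHom (A₀ := A₀) h
  ResidueField.lift (ssvmgRed h)

theorem ssvmgResEmb_residue (r : ↥(ssvmgR A₀ h)) :
    ssvmgResEmb h (residue ↥(ssvmgR A₀ h) r) = ssvmgRed h r := by
  haveI := ssvmgRed_isLocalHom (A₀ := A₀) h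
  exact ResidueField.lift_residue_apply (ssvmgRed h) r

theorem ssvmgResEmb_injective : Function.Injective (ssvmgResEmb (A₀ := A₀) h) :=
  (ssvmgResEmb h).injective

end Sub

/-! ### The Gauss ring of `F₀` and the Gauss ring `A₀[t]_(ϖ)` of `L₀(t)` inside `F` -/

section Loc

variable {A₀ : Type*} [CommRing A₀] [IsDomain A₀] [IsDiscreteValuationRing A₀] [CharZero A₀]
variable {L₀ : Type*} [Field L₀] [Algebra A₀ L₀] [IsFractionRing A₀ L₀]
variable {ϖ : A₀}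
variable {F₀ F : IntermediateField L₀ (LaurentSeries L₀)} (h : F₀ ≤ F)

theorem ssvmg_incl_aeval (t₀ : ↥F₀) (p : A₀[X]) :
    IntermediateField.inclusion h (aeval t₀ p) = aeval (IntermediateField.inclusion h t₀) p :=
  (Polynomial.aeval_algHom_apply ((IntermediateField.inclusion h).restrictScalars A₀) t₀ p).symm

/-- `A₀[t]_(ϖ) ⊆ ssvmgR` for an integral `t ∈ F₀` with a pole modulo `ϖ` -/
theorem ssvmgR_loc_le (hϖ : Irreducible ϖ) (t₀ : ↥F₀) (τ : LaurentSeries A₀)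
    (ht : S18VPole F₀ t₀ τ) :
    s18tLoc A₀ (IntermediateField.inclusion h t₀) (C ϖ) (s18t_prime_C hϖ) ≤ ssvmgR A₀ h := by
  intro x hx
  obtain ⟨a, b, hb, hxab⟩ := hx
  have hb0 : aeval t₀ b ≠ 0 := s18vg_aeval_ne_zero F₀ hϖ t₀ τ ht b hb
  rw [mem_ssvmgR]
  refine ⟨aeval t₀ a / aeval t₀ b,
    s18v_loc_le hϖ F₀ t₀ τ ht _ ⟨a, b, hb, div_mul_cancel₀ _ hb0⟩, ?_⟩
  have hb0' : IntermediateField.inclusion h (aeval t₀ b) ≠ 0 := by
    rwa [Ne, map_eq_zero_iff _ (IntermediateField.inclusion_injective h)]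
  rw [map_div₀, div_eq_iff hb0', ssvmg_incl_aeval, ssvmg_incl_aeval, hxab]

/-- `ssvmgR` is integral over `A₀[t]_(ϖ)` for a good coordinate `t` of `F₀` -/
theorem ssvmgR_le_intLoc (hϖ : Irreducible ϖ) (t₀ : ↥F₀) (hc : S18Coord hϖ F₀ t₀) (x : ↥F)
    (hx : x ∈ ssvmgR A₀ h) :
    x ∈ s18tIntLoc A₀ (IntermediateField.inclusion h t₀) (C ϖ) (s18t_prime_C hϖ) := by
  obtain ⟨x₀, hx₀, rfl⟩ := (mem_ssvmgR A₀ h).mp hx
  rw [← hc.intLoc_eq, mem_s18tIntLoc] at hx₀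
  rw [mem_s18tIntLoc]
  let ψ : ↥(s18tLoc A₀ t₀ (C ϖ) (s18t_prime_C hϖ)) →+*
      ↥(s18tLoc A₀ (IntermediateField.inclusion h t₀) (C ϖ) (s18t_prime_C hϖ)) :=
    { toFun := fun u => ⟨IntermediateField.inclusion h (u : ↥F₀), by
        obtain ⟨a, b, hb, hab⟩ := u.2
        refine ⟨a, b, hb, ?_⟩
        rw [← ssvmg_incl_aeval, ← ssvmg_incl_aeval, ← map_mul, hab]⟩
      map_one' := Subtype.ext (map_one _)
      map_mul' := fun u v => Subtype.ext (map_mul _ _ _)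
      map_zero' := Subtype.ext (map_zero _)
      map_add' := fun u v => Subtype.ext (map_add _ _ _) }
  obtain ⟨P, hP, hPx⟩ := hx₀
  refine ⟨P.map ψ, hP.map ψ, ?_⟩
  rw [eval₂_map]
  have h1 : eval₂ ((IntermediateField.inclusion h).toRingHom.comp
      (algebraMap ↥(s18tLoc A₀ t₀ (C ϖ) (s18t_prime_C hϖ)) ↥F₀))
      ((IntermediateField.inclusion h).toRingHom x₀) P = 0 := by
    rw [← Polynomial.hom_eval₂, hPx, map_zero]
  exact h1

/-- `F₀` is the fraction field of its Gauss ring -/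
theorem ssvmgR_frac (hϖ : Irreducible ϖ) (hF₀ : S18VGen A₀ F₀) (c : ↥F₀) :
    ∃ a b : ↥(ssvmgR A₀ h), b ≠ 0 ∧ IntermediateField.inclusion h c * (b : ↥F) = (a : ↥F) := by
  rcases s18v_mem_or_inv_mem hϖ F₀ hF₀ c with hc | hc
  · refine ⟨ssvmgEquiv A₀ h ⟨c, hc⟩, 1, one_ne_zero, ?_⟩
    rw [ssvmgEquiv_coe]
    simp
  · by_cases hc0 : c = 0
    · refine ⟨0, 1, one_ne_zero, ?_⟩
      rw [hc0]
      simp
    · refine ⟨1, ssvmgEquiv A₀ h ⟨c⁻¹, hc⟩, ?_, ?_⟩
      · intro h0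
        have h1 := (ssvmgEquiv A₀ h).injective (h0.trans (map_zero _).symm)
        exact inv_ne_zero hc0 (congrArg Subtype.val h1)
      · rw [ssvmgEquiv_coe]
        show IntermediateField.inclusion h c * IntermediateField.inclusion h c⁻¹ = ((1 : ↥(ssvmgR A₀ h)) : ↥F)
        rw [← map_mul, mul_inv_cancel₀ hc0, map_one]
        rfl

end Loc

/-! ### Generic lemmas : kernel and generation from the minimal polynomial -/

section Generic

variable {K F : Type*} [Field K] [Field F] (R : Subring F) (ι : K →+* F)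

/-- a monic lift to `R[Y]` of the minimal polynomial `ΞK` of `y` over `K ⊇ R` generates the kernel
of `R[Y] → F`, `Y ↦ y` -/
theorem ssvmg_ker_of_minpoly (ψ : ↥R →+* K) (hψ : ∀ r : ↥R, ι (ψ r) = (r : F)) (y : F)
    (ΞK : K[X]) (hroot : eval₂ ι y ΞK = 0) (hmin : ∀ g : K[X], eval₂ ι y g = 0 → ΞK ∣ g)
    (Ξ : (↥R)[X]) (hmonic : Ξ.Monic) (hΞ : Ξ.map ψ = ΞK) :
    aeval y Ξ = 0 ∧ ∀ g : (↥R)[X], aeval y g = 0 → Ξ ∣ g := by
  have hψinj : Function.Injective ψ := by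
    intro a b hab
    apply Subtype.ext
    rw [← hψ a, ← hψ b, hab]
  have hcomp : ι.comp ψ = R.subtype := RingHom.ext hψ
  have haeval : ∀ g : (↥R)[X], aeval y g = eval₂ ι y (g.map ψ) := by
    intro g
    rw [aeval_def, eval₂_map, hcomp]
    rfl
  refine ⟨by rw [haeval, hΞ, hroot], fun g hg => ?_⟩
  have h1 : g %ₘ Ξ + Ξ * (g /ₘ Ξ) = g := modByMonic_add_div g Ξ
  have h2 : aeval y (g %ₘ Ξ) = 0 := by
    have h3 := congrArg (aeval y) h1
    rw [map_add, map_mul, hg, haeval Ξ, hΞ, hroot, zero_mul, add_zero] at h3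
    exact h3
  have h4 : (g %ₘ Ξ).map ψ = 0 := by
    have h5 : ΞK ∣ (g %ₘ Ξ).map ψ := hmin _ (by rw [← haeval, h2])
    refine Polynomial.eq_zero_of_dvd_of_degree_lt h5 ?_
    rw [degree_map_eq_of_injective hψinj, ← hΞ, degree_map_eq_of_injective hψinj]
    exact degree_modByMonic_lt g hmonic
  have h6 : g %ₘ Ξ = 0 := by
    apply Polynomial.map_injective ψ hψinj
    rw [h4, Polynomial.map_zero]
  rw [h6, zero_add] at h1
  exact ⟨_, h1.symm⟩

/-- common denominators : every polynomial over `K = Frac R` is `d⁻¹ ·` a polynomial over `R` -/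
theorem ssvmg_exists_denom
    (hfrac : ∀ c : K, ∃ a b : ↥R, b ≠ 0 ∧ ι c * (b : F) = (a : F)) (p : K[X]) :
    ∃ (d : ↥R) (P : (↥R)[X]), d ≠ 0 ∧ P.map R.subtype = C (d : F) * p.map ι := by
  induction p using Polynomial.induction_on' with
  | add p p' hp hp' =>
    obtain ⟨d, P, hd, hP⟩ := hp
    obtain ⟨d', P', hd', hP'⟩ := hp'
    refine ⟨d * d', P * C d' + P' * C d, mul_ne_zero hd hd', ?_⟩
    rw [Polynomial.map_add, Polynomial.map_mul, Polynomial.map_mul, hP, hP', Polynomial.map_add,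
      map_C, map_C]
    push_cast
    simp only [Subring.coe_subtype, C_mul]
    ring
  | monomial n c =>
    obtain ⟨a, b, hb, hab⟩ := hfrac c
    refine ⟨b, monomial n a, hb, ?_⟩
    rw [map_monomial, map_monomial, C_mul_monomial, Subring.coe_subtype, ← hab, mul_comm]

/-- generation : if every element of `F` is a polynomial in `y` over `K = Frac R`, then every
element of `F` is a quotient of polynomials in `y` over `R` -/
theorem ssvmg_gen_of_adjoin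
    (hfrac : ∀ c : K, ∃ a b : ↥R, b ≠ 0 ∧ ι c * (b : F) = (a : F))
    (y : F) (hgen : ∀ x : F, ∃ p : K[X], eval₂ ι y p = x) (x : F) :
    ∃ a b : (↥R)[X], aeval y b ≠ 0 ∧ x * aeval y b = aeval y a := by
  obtain ⟨p, hp⟩ := hgen x
  obtain ⟨d, P, hd, hP⟩ := ssvmg_exists_denom R ι hfrac p
  have hd' : (d : F) ≠ 0 := fun h0 => hd (Subtype.ext h0)
  refine ⟨P, C d, ?_, ?_⟩
  · rw [aeval_C]
    exact hd'
  · rw [aeval_C]
    have h1 : aeval y P = eval y (P.map R.subtype) := by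
      rw [eval_map, aeval_def]
      rfl
    rw [h1, hP, eval_mul, eval_C, eval_map, hp, mul_comm]
    rfl

/-- the congruence : if the reductions agree, the difference is divisible by the uniformiser -/
theorem ssvmg_fac_of_red {R' S : Type*} [CommRing R'] [CommRing S] (red : R' →+* S) (ϖ : R')
    (hker : ∀ r : R', red r = 0 ↔ ϖ ∣ r) (Ξ F₁ F₂ : R'[X])
    (hred : Ξ.map red = F₁.map red * F₂.map red) : ∃ G : R'[X], Ξ = F₁ * F₂ + C ϖ * G := by
  have hD : (Ξ - F₁ * F₂).map red = 0 := by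
    rw [Polynomial.map_sub, Polynomial.map_mul, hred, sub_self]
  have hdvd : C ϖ ∣ Ξ - F₁ * F₂ := by
    rw [C_dvd_iff_dvd_coeff]
    intro n
    rw [← hker, ← coeff_map, hD, coeff_zero]
  obtain ⟨G, hG⟩ := hdvd
  exact ⟨G, by rw [← hG]; ring⟩

end Generic

/-! ### `X - a^q` and `X^q - a` over a field embedded in `k((q))`, `a ↦` a series of order `-1` -/

section Orders

variable {κ k : Type*} [Field κ] [Field k] (φ : κ →+* LaurentSeries k)

theorem ssvmg_not_pow {q : ℕ} (hq : 2 ≤ q) {a : κ} (ha : (φ a).order = -1) (b : κ) :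
    b ^ q ≠ a := by
  intro hb
  have h1 := congrArg (fun x => (φ x).order) hb
  simp only [map_pow] at h1
  rw [HahnSeries.order_pow, ha, nsmul_eq_mul] at h1
  have h2 : (q : ℤ) ∣ 1 := ⟨-(φ b).order, by linarith⟩
  have h3 := Int.eq_one_of_dvd_one (by positivity) h2
  have : q = 1 := by exact_mod_cast h3
  omega

theorem ssvmg_pow_ne {q : ℕ} (hq : 2 ≤ q) {a : κ} (ha : (φ a).order = -1) :
    (a ^ q) ^ q - a ≠ 0 := by
  intro hb
  have h0 := sub_eq_zero.mp hb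
  have h1 := congrArg (fun x => (φ x).order) h0
  simp only [map_pow] at h1
  rw [HahnSeries.order_pow, HahnSeries.order_pow, ha, nsmul_eq_mul, nsmul_eq_mul] at h1
  have hq' : (2 : ℤ) ≤ q := by exact_mod_cast hq
  nlinarith

theorem ssvmg_irreducible₂ {q : ℕ} (hq : q.Prime) {a : κ} (ha : (φ a).order = -1) :
    Irreducible (X ^ q - C a : κ[X]) :=
  X_pow_sub_C_irreducible_of_prime hq fun b => ssvmg_not_pow φ hq.two_le ha b

theorem ssvmg_isCoprime {q : ℕ} (hq : q.Prime) {a : κ} (ha : (φ a).order = -1) :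
    IsCoprime (X - C (a ^ q) : κ[X]) (X ^ q - C a) := by
  rw [(irreducible_X_sub_C _).coprime_iff_not_dvd, dvd_iff_isRoot, IsRoot.def, eval_sub, eval_pow,
    eval_X, eval_C]
  exact ssvmg_pow_ne φ hq.two_le ha

end Orders

/-! ### The two-factor package for `R[y]`, abstractly -/

section AmbAbstract

variable {A₀ : Type*} [CommRing A₀] [IsDomain A₀] [IsDiscreteValuationRing A₀] [CharZero A₀]
variable {L₀ : Type*} [Field L₀] [Algebra A₀ L₀] [IsFractionRing A₀ L₀]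
variable {ϖ : A₀}
variable {F₀ F : IntermediateField L₀ (LaurentSeries L₀)} (h : F₀ ≤ F)

/-- the inverse of the identification, composed with the inclusion -/
def ssvmgPsi : ↥(ssvmgR A₀ h) →+* ↥F₀ :=
  (s18vO A₀ F₀).subtype.comp (ssvmgEquiv A₀ h).symm.toRingHom

theorem ssvmgPsi_spec (r : ↥(ssvmgR A₀ h)) :
    (IntermediateField.inclusion h).toRingHom (ssvmgPsi h r) = (r : ↥F) := by
  have h1 := ssvmgEquiv_coe A₀ h ((ssvmgEquiv A₀ h).symm r)
  rw [RingEquiv.apply_symm_apply] at h1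
  exact h1.symm

set_option maxHeartbeats 1000000 in
/-- **the two-factor package, abstractly** : `y ∈ F` with minimal polynomial `ΞK` over `F₀`,
generating `F`; `ΞK` has integral coefficients (`Ξ₀`) and `Ξ₀ ≡ (Y - τ^q)(Y^q - τ)` modulo `ϖ` for
an integral `τ ∈ F₀` whose reduction has a simple pole. -/
theorem ssvmg_amb (hϖ : Irreducible ϖ) (hF₀ : S18VGen A₀ F₀) {q : ℕ} (hq : q.Prime)
    (τ : LaurentSeries A₀) (hτF : s18vIncl A₀ L₀ τ ∈ F₀) (hτ : (s18vRes A₀ τ).order = -1)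
    (y : ↥F) (ΞK : (↥F₀)[X])
    (hroot : eval₂ (IntermediateField.inclusion h).toRingHom y ΞK = 0)
    (hmin : ∀ g : (↥F₀)[X], eval₂ (IntermediateField.inclusion h).toRingHom y g = 0 → ΞK ∣ g)
    (hgen : ∀ x : ↥F, ∃ p : (↥F₀)[X], eval₂ (IntermediateField.inclusion h).toRingHom y p = x)
    (Ξ₀ : (LaurentSeries A₀)[X]) (hmonic : Ξ₀.Monic)
    (hΞ₀ : Ξ₀.map (s18vIncl A₀ L₀) = ΞK.map F₀.val.toRingHom)
    (hred : Ξ₀.map (s18vRes A₀) =
      (X - C (s18vRes A₀ τ ^ q)) * (X ^ q - C (s18vRes A₀ τ))) :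
    ∃ Ξ G : (↥(ssvmgR A₀ h))[X],
      SsvAmb (ssvmgR A₀ h) (ssvmgRUnif h ϖ) y Ξ (X - C (ssvmgOf h τ hτF ^ q))
        (X ^ q - C (ssvmgOf h τ hτF)) G := by
  have hcoeff : ∀ n : ℕ, ((ΞK.coeff n : ↥F₀) : LaurentSeries L₀) = s18vIncl A₀ L₀ (Ξ₀.coeff n) := by
    intro n
    have h1 := congrArg (fun p => p.coeff n) hΞ₀
    simp only [coeff_map] at h1
    exact h1.symm
  have hKmonic : ΞK.Monic := by
    have h1 : (ΞK.map F₀.val.toRingHom).Monic := hΞ₀ ▸ hmonic.map _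
    exact monic_of_injective F₀.val.toRingHom.injective h1
  have hlifts : ΞK.map (IntermediateField.inclusion h).toRingHom ∈
      lifts (ssvmgR A₀ h).subtype := by
    rw [lifts_iff_coeff_lifts]
    intro n
    rw [coeff_map]
    have hmem : s18vIncl A₀ L₀ (Ξ₀.coeff n) ∈ F₀ := hcoeff n ▸ Subtype.prop _
    refine ⟨ssvmgOf h (Ξ₀.coeff n) hmem, ?_⟩
    apply Subtype.ext
    show s18vIncl A₀ L₀ (Ξ₀.coeff n) = _
    rw [← hcoeff n]
    rfl
  obtain ⟨Ξ, hΞ, -, hΞmonic⟩ := lifts_and_natDegree_eq_and_monic hlifts (hKmonic.map _)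
  have hΞψ : Ξ.map (ssvmgPsi h) = ΞK := by
    apply Polynomial.map_injective (IntermediateField.inclusion h).toRingHom
      (IntermediateField.inclusion h).toRingHom.injective
    rw [Polynomial.map_map, ← hΞ]
    congr 1
    exact RingHom.ext (ssvmgPsi_spec h)
  obtain ⟨hroot', hker⟩ := ssvmg_ker_of_minpoly (ssvmgR A₀ h)
    (IntermediateField.inclusion h).toRingHom (ssvmgPsi h) (ssvmgPsi_spec h) y ΞK hroot hmin Ξ
    hΞmonic hΞψ
  -- the reduction of `Ξ`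
  have hΞred : Ξ.map (ssvmgRed h) = Ξ₀.map (s18vRes A₀) := by
    ext n : 1
    rw [coeff_map, coeff_map]
    have h1 : (((Ξ.coeff n : ↥(ssvmgR A₀ h)) : ↥F) : LaurentSeries L₀) =
        s18vIncl A₀ L₀ (Ξ₀.coeff n) := by
      have h2 := congrArg (fun p => p.coeff n) hΞ
      simp only [coeff_map] at h2
      rw [← hcoeff n]
      exact congrArg Subtype.val h2
    obtain ⟨ha, hr⟩ := ssvmg_eq_of h (Ξ.coeff n) (Ξ₀.coeff n) h1
    rw [hr, ssvmgRed_of]
  have hτred : ssvmgRed h (ssvmgOf h τ hτF) = s18vRes A₀ τ := ssvmgRed_of h τ hτF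
  have hJq : ssvmgRed h (ssvmgOf h τ hτF ^ q) = s18vRes A₀ τ ^ q := by rw [map_pow, hτred]
  obtain ⟨G, hG⟩ := ssvmg_fac_of_red (ssvmgRed h) (ssvmgRUnif h ϖ)
    (ssvmgRed_eq_zero_iff h hϖ) Ξ (X - C (ssvmgOf h τ hτF ^ q)) (X ^ q - C (ssvmgOf h τ hτF)) (by
      rw [hΞred, hred, Polynomial.map_sub, Polynomial.map_sub, Polynomial.map_pow, map_X, map_C,
        map_C, hJq, hτred])
  -- the residue field
  have hφ : (ssvmgResEmb h (residue ↥(ssvmgR A₀ h) (ssvmgOf h τ hτF))).order = -1 := by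
    rw [ssvmgResEmb_residue, hτred, hτ]
  have hmap₁ : (X - C (ssvmgOf h τ hτF ^ q) : (↥(ssvmgR A₀ h))[X]).map
      (residue ↥(ssvmgR A₀ h)) = X - C (residue ↥(ssvmgR A₀ h) (ssvmgOf h τ hτF) ^ q) := by
    rw [Polynomial.map_sub, map_X, map_C, map_pow]
  have hmap₂ : (X ^ q - C (ssvmgOf h τ hτF) : (↥(ssvmgR A₀ h))[X]).map
      (residue ↥(ssvmgR A₀ h)) = X ^ q - C (residue ↥(ssvmgR A₀ h) (ssvmgOf h τ hτF)) := by
    rw [Polynomial.map_sub, Polynomial.map_pow, map_X, map_C]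
  exact ⟨Ξ, G,
    { irr := ssvmgRUnif_irreducible h hϖ
      monic := hΞmonic
      root := hroot'
      ker := hker
      fac := hG
      irr₁ := by rw [hmap₁]; exact irreducible_X_sub_C _
      irr₂ := by rw [hmap₂]; exact ssvmg_irreducible₂ (ssvmgResEmb h) hq hφ
      cop := by rw [hmap₁, hmap₂]; exact ssvmg_isCoprime (ssvmgResEmb h) hq hφ
      gen := ssvmg_gen_of_adjoin (ssvmgR A₀ h) (IntermediateField.inclusion h).toRingHom
        (fun c => ssvmgR_frac h hϖ hF₀ c) y hgen }⟩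

end AmbAbstract

end Fermat.Agent.SS
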