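import Mathlib
import Fermat.Agent.G.Conj.Series
import Fermat.Agent.SS.Node.CharPoly
import Fermat.Agent.S18.Core.DescentBasic

/-!
# Program S (S34), row SS-VAL, modular instance, part (a) : the `ℚ̄`-level

For a prime `ℓ ∤ N` the minimal polynomial of `y = β j = j(q^ℓ)` over `α F_ℚ̄(N)` inside `F_ℚ̄(N ℓ)`
has degree `ℓ + 1`, and its image in `ℚ̄((q))[Y]` is `(Y - j(q^ℓ)) · Ψ`, `Ψ(q^ℓ) = ∏_b (Y - j(ζ^b q))`
(the `ℓ + 1` embeddings `σ_i = degLift (N ℓ) (r i)` of G/Conj take distinct values on `y`).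
-/

set_option autoImplicit false
set_option linter.unusedSectionVars false
set_option linter.unusedVariables false
set_option linter.style.haveILetI false

noncomputable section

namespace Fermat.Agent.SS

open Polynomial ModularCurve AlgebraicCurve Fermat.Agent.S24 Fermat.Agent.G UpperHalfPlane
open scoped MatrixGroups Real

local notation "Qb" => AlgebraicClosure ℚ

/-- the minimal polynomial of an element on which `[L : K]` embeddings are pairwise distinct -/
theorem ssvmb_minpoly_map_eq_prod {K L Ω : Type*} [Field K] [Field L] [Field Ω] [Algebra K L]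
    [Algebra K Ω] [FiniteDimensional K L] {ι : Type*} [Fintype ι] (σ : ι → (L →ₐ[K] Ω)) (y : L)
    (hinj : Function.Injective fun i => σ i y) (hcard : Fintype.card ι = Module.finrank K L) :
    (minpoly K y).map (algebraMap K Ω) = ∏ i, (X - C (σ i y)) ∧
      (minpoly K y).natDegree = Module.finrank K L := by
  classical
  have hint : IsIntegral K y := IsIntegral.of_finite K y
  have hmonic := minpoly.monic hint
  set P := (minpoly K y).map (algebraMap K Ω) with hP
  have hPmonic : P.Monic := hmonic.map _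
  have hPdeg : P.natDegree = (minpoly K y).natDegree := hmonic.natDegree_map _
  have hle : (minpoly K y).natDegree ≤ Module.finrank K L := minpoly.natDegree_le y
  have hroot : ∀ i, P.IsRoot (σ i y) := by
    intro i
    rw [IsRoot.def, hP, eval_map, ← aeval_def, aeval_algHom_apply, minpoly.aeval, map_zero]
  let s : Multiset Ω := Finset.univ.val.map fun i => σ i y
  have hnodup : s.Nodup := Multiset.Nodup.map hinj Finset.univ.nodup
  have hsle : s ≤ P.roots := by
    rw [Multiset.le_iff_subset hnodup]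
    intro a ha
    obtain ⟨i, -, rfl⟩ := Multiset.mem_map.mp ha
    exact (mem_roots hPmonic.ne_zero).mpr (hroot i)
  have hdvd := (Multiset.prod_X_sub_C_dvd_iff_le_roots hPmonic.ne_zero s).mpr hsle
  have hDmonic : (s.map fun a => X - C a).prod.Monic :=
    monic_multiset_prod_of_monic _ _ fun a _ => monic_X_sub_C a
  have hDdeg : (s.map fun a => X - C a).prod.natDegree = Module.finrank K L := by
    rw [natDegree_multiset_prod_X_sub_C_eq_card, Multiset.card_map, ← hcard]
    rfl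
  have hPD : P = (s.map fun a => X - C a).prod :=
    eq_of_monic_of_dvd_of_natDegree_le hDmonic hPmonic hdvd (by rw [hDdeg, hPdeg]; exact hle)
  refine ⟨?_, ?_⟩
  · rw [hPD, Finset.prod_eq_multiset_prod, Multiset.map_map]
    rfl
  · rw [← hPdeg, hPD, hDdeg]

/-- `j` as an element of `F_ℚ̄(N)` -/
def ssvmbJ (N : ℕ) [NeZero N] : modularFunctionFieldBar N :=
  ⟨jqModC Qb, Fermat.Agent.S18.s18db_full_le_bar N (jqModC_mem_full Qb N)⟩

theorem ssvmbJ_coe (N : ℕ) [NeZero N] : ((ssvmbJ N : modularFunctionFieldBar N) : LaurentSeries Qb) =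
    jqModC Qb := rfl

/-- the coefficient of `q^(-1)` of `j` -/
theorem ssvmb_coeff_jqModC (K : Type*) [Field K] : (jqModC K).coeff (-1 : ℤ) = 1 :=
  coeff_jqModC_neg_one K

/-- **(a)** the minimal polynomial of `β j` over `α F_ℚ̄(N)`. -/
theorem ssvmb_minpoly (N : ℕ) [NeZero N] {ℓ : ℕ} [Fact ℓ.Prime] (hℓN : ¬ ℓ ∣ N) :
    haveI : NeZero ℓ := ⟨(Fact.out : ℓ.Prime).ne_zero⟩
    letI := algebraAlong (heckeAlphaBar Qb N ℓ)
    ∃ ζ₀ : Qbˣ, IsPrimitiveRoot ζ₀ ℓ ∧
      (minpoly (modularFunctionFieldBar N) (heckeBetaBar Qb N ℓ (ssvmbJ N))).natDegree = ℓ + 1 ∧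
      (minpoly (modularFunctionFieldBar N) (heckeBetaBar Qb N ℓ (ssvmbJ N))).map
          ((qExpand Qb (N * ℓ)).comp (gcjsVal N)) =
        (X - C (qExpand Qb (N * ℓ * ℓ) (jqModC Qb))) *
          ∏ b ∈ Finset.range ℓ, (X - C (qExpand Qb N (gcjfRot (ζ₀ ^ b) (jqModC Qb)))) := by
  haveI : NeZero ℓ := ⟨(Fact.out : ℓ.Prime).ne_zero⟩
  have hℓ : ℓ.Prime := Fact.out
  obtain ⟨ζ₀, hprim, hζ₀⟩ := gcjs_exists_zeta ℓ
  obtain ⟨ξ, γ', hγ', hξ, hmat, hξnot, hξdvd⟩ :=
    gcj_exists_reps N ℓ hℓ.one_lt ((Nat.Prime.coprime_iff_not_dvd hℓ).2 hℓN)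
  refine ⟨ζ₀, hprim, ?_⟩
  letI algKL : Algebra (modularFunctionFieldBar N) (modularFunctionFieldBar (N * ℓ)) :=
    algebraAlong (heckeAlphaBar Qb N ℓ)
  letI algKΩ : Algebra (modularFunctionFieldBar N) (LaurentSeries Qb) :=
    ((qExpand Qb (N * ℓ)).comp (gcjsVal N)).toAlgebra
  let r : Option (Fin ℓ) → SL(2, ℤ) := fun i => i.elim 1 (fun b => ξ b)
  have hr : ∀ i, r i ∈ CongruenceSubgroup.Gamma0 N := by
    intro i
    cases i with
    | none => exact one_mem _
    | some b => exact hξ b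
  let σ : Option (Fin ℓ) →
      (modularFunctionFieldBar (N * ℓ) →ₐ[modularFunctionFieldBar N] LaurentSeries Qb) := fun i =>
    { degLift (N * ℓ) (r i) with
      commutes' := fun f => gcjs_degLift_alpha N ℓ (r i) (hr i) f }
  have hσ : ∀ i y, σ i y = degLift (N * ℓ) (r i) y := fun i y => rfl
  have hfinrank := gcjd_finrank N hℓN
  haveI : FiniteDimensional (modularFunctionFieldBar N) (modularFunctionFieldBar (N * ℓ)) :=
    Module.finite_of_finrank_pos (by rw [hfinrank]; omega)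
  have h0 : σ none (heckeBetaBar Qb N ℓ (ssvmbJ N)) = qExpand Qb (N * ℓ * ℓ) (jqModC Qb) :=
    gcjs_degLift_beta_one N ℓ (ssvmbJ N)
  have h1 : ∀ b : Fin ℓ, σ (some b) (heckeBetaBar Qb N ℓ (ssvmbJ N)) =
      qExpand Qb N (gcjfRot (ζ₀ ^ (b : ℕ)) (jqModC Qb)) := fun b =>
    gcjs_degLift_beta N ℓ ζ₀ hζ₀ (ξ b) γ' hγ' b (hmat b) (ssvmbJ N)
  -- the coefficient of `q^(-N)`
  have hc0 : (qExpand Qb (N * ℓ * ℓ) (jqModC Qb)).coeff (-(N : ℤ)) = 0 := by
    apply qExpand_coeff_of_not_dvd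
    rintro ⟨c, hc⟩
    have hN0 : (N : ℤ) ≠ 0 := by exact_mod_cast NeZero.ne N
    have h2 : (N : ℤ) * ((ℓ : ℤ) * ℓ * c + 1) = 0 := by push_cast at hc; linarith
    rcases mul_eq_zero.mp h2 with h3 | h3
    · exact hN0 h3
    · have h4 : (ℓ : ℤ) ∣ 1 := ⟨-(ℓ * c), by linarith⟩
      have h5 := Int.eq_one_of_dvd_one (by positivity) h4
      have : ℓ = 1 := by exact_mod_cast h5
      exact hℓ.one_lt.ne' this
  have hc1 : ∀ b : ℕ, (qExpand Qb N (gcjfRot (ζ₀ ^ b) (jqModC Qb))).coeff (-(N : ℤ)) =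
      (((ζ₀ ^ b)⁻¹ : Qbˣ) : Qb) := by
    intro b
    have h2 : -(N : ℤ) = (N : ℤ) * (-1) := by ring
    rw [h2, qExpand_coeff_mul, gcjfRot_coeff, ssvmb_coeff_jqModC, mul_one, zpow_neg, zpow_one]
  have hinj : Function.Injective fun i => σ i (heckeBetaBar Qb N ℓ (ssvmbJ N)) := by
    intro i i' hii
    simp only at hii
    cases i with
    | none =>
      cases i' with
      | none => rfl
      | some b =>
        exfalso
        rw [h0, h1] at hii
        have := congrArg (fun s => HahnSeries.coeff s (-(N : ℤ))) hii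
        simp only [hc0, hc1] at this
        exact Units.ne_zero _ this.symm
    | some b =>
      cases i' with
      | none =>
        exfalso
        rw [h0, h1] at hii
        have := congrArg (fun s => HahnSeries.coeff s (-(N : ℤ))) hii
        simp only [hc0, hc1] at this
        exact Units.ne_zero _ this
      | some b' =>
        rw [h1, h1] at hii
        have := congrArg (fun s => HahnSeries.coeff s (-(N : ℤ))) hii
        simp only [hc1] at this
        have h3 : ζ₀ ^ (b : ℕ) = ζ₀ ^ (b' : ℕ) := by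
          have h4 : (ζ₀ ^ (b : ℕ))⁻¹ = (ζ₀ ^ (b' : ℕ))⁻¹ := Units.ext this
          exact inv_injective h4
        have h5 := hprim.pow_inj b.2 b'.2 h3
        exact congrArg some (Fin.ext h5)
  obtain ⟨hmap, hdeg⟩ := ssvmb_minpoly_map_eq_prod σ (heckeBetaBar Qb N ℓ (ssvmbJ N)) hinj
    (by rw [Fintype.card_option, Fintype.card_fin, hfinrank])
  refine ⟨by rw [hdeg, hfinrank], ?_⟩
  have hmap' : (minpoly (modularFunctionFieldBar N) (heckeBetaBar Qb N ℓ (ssvmbJ N))).map
      ((qExpand Qb (N * ℓ)).comp (gcjsVal N)) =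
      ∏ i, (X - C (σ i (heckeBetaBar Qb N ℓ (ssvmbJ N)))) := hmap
  rw [hmap', Fintype.prod_option, h0, Finset.prod_congr rfl (fun b _ => by rw [h1 b]),
    Fin.prod_univ_eq_prod_range
      (fun i => (X - C (qExpand Qb N (gcjfRot (ζ₀ ^ i) (jqModC Qb))) : (LaurentSeries Qb)[X])) ℓ]

end Fermat.Agent.SS
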