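import Mathlib
import Fermat.Agent.SS.Val.ModBar
import Fermat.Agent.G.Conj.Main
import Fermat.Agent.S18.A.Const

/-!
# Program S (S34), row SS-VAL, modular instance, part (a') : integrality and reduction of the
minimal polynomial of `j(q^ℓ)` over `F_ℚ̄(N)`

For a valuation subring `𝔸` of `ℚ̄` above the prime `ℓ ∤ N`: the image in `ℚ̄((q))[Y]` of the minimal
polynomial of `β j = j(q^ℓ)` over `α F_ℚ̄(N)` comes from a polynomial `P ∈ 𝔸((q))[Y]` whose reduction
modulo the maximal ideal of `𝔸` is the Kronecker polynomial `(Y - j̄^ℓ)(Y^ℓ - j̄)`.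
-/

set_option autoImplicit false
set_option linter.unusedSectionVars false
set_option linter.unusedVariables false
set_option linter.style.haveILetI false

noncomputable section

namespace Fermat.Agent.SS

open Polynomial ModularCurve AlgebraicCurve IsLocalRing Fermat.Agent.S24 Fermat.Agent.G
  Fermat.Agent.S18
open scoped MatrixGroups

local notation "Qb" => AlgebraicClosure ℚ

theorem ssvmr_coeffMap_subtype_injective (𝔸 : ValuationSubring Qb) :
    Function.Injective (coeffMap 𝔸.subtype) := by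
  intro x y hxy
  ext k
  have := congrArg (fun s => HahnSeries.coeff s k) hxy
  simpa using this

/-- **(a')** integrality and reduction of the minimal polynomial of `β j` over `α F_ℚ̄(N)`. -/
theorem ssvmr_minpoly (N : ℕ) [NeZero N] {ℓ : ℕ} [Fact ℓ.Prime] (hℓN : ¬ ℓ ∣ N)
    (𝔸 : ValuationSubring Qb) (hA : 𝔸.LiesOverPrime ℓ) :
    haveI : NeZero ℓ := ⟨(Fact.out : ℓ.Prime).ne_zero⟩
    letI := algebraAlong (heckeAlphaBar Qb N ℓ)
    ∃ P : (LaurentSeries ↥𝔸)[X],
      (minpoly (modularFunctionFieldBar N) (heckeBetaBar Qb N ℓ (ssvmbJ N))).natDegree = ℓ + 1 ∧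
      (minpoly (modularFunctionFieldBar N) (heckeBetaBar Qb N ℓ (ssvmbJ N))).map (gcjsVal N) =
        P.map (coeffMap 𝔸.subtype) ∧
      P.map (coeffMap (residue ↥𝔸)) =
        (X - C (jqModC (ResidueField ↥𝔸) ^ ℓ)) * (X ^ ℓ - C (jqModC (ResidueField ↥𝔸))) := by
  have hℓ0 : ℓ ≠ 0 := (Fact.out : ℓ.Prime).ne_zero
  haveI : NeZero ℓ := ⟨hℓ0⟩
  letI := algebraAlong (heckeAlphaBar Qb N ℓ)
  obtain ⟨ζ₀, hζ₀, hdeg, hmap⟩ := ssvmb_minpoly N hℓN
  obtain ⟨ζ, hζ, hζmap⟩ := gcjm_exists_unit 𝔸 hℓ0 ζ₀ hζ₀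
  haveI : CharP (ResidueField ↥𝔸) ℓ := s18ac_charP 𝔸 hA
  obtain ⟨Ψ, hΨmonic, hΨdeg, hΨ⟩ := ssnc_exists_descend hζ (jqModC ↥𝔸)
  refine ⟨(X - C (qExpand ↥𝔸 ℓ (jqModC ↥𝔸))) * Ψ, hdeg, ?_, ?_⟩
  · -- compare after `q ↦ q^(N ℓ)`
    apply Polynomial.map_injective (qExpand Qb (N * ℓ)) (qExpand_injective (N * ℓ))
    rw [Polynomial.map_map, hmap, Polynomial.map_mul, Polynomial.map_mul, Polynomial.map_sub,
      Polynomial.map_sub, map_X, map_X, map_C, map_C, coeffMap_qExpand, coeffMap_jqModC,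
      qExpand_qExpand]
    congr 1
    -- the product
    have hcomm : (qExpand Qb (N * ℓ)).comp (coeffMap 𝔸.subtype) =
        ((qExpand Qb N).comp (coeffMap 𝔸.subtype)).comp (qExpand ↥𝔸 ℓ) := by
      ext1 f
      simp only [RingHom.comp_apply]
      rw [coeffMap_qExpand, qExpand_qExpand]
    rw [Polynomial.map_map, hcomm, ← Polynomial.map_map, hΨ, ssncPoly, Polynomial.map_prod]
    refine Finset.prod_congr rfl fun b _ => ?_
    rw [Polynomial.map_sub, map_X, map_C, RingHom.comp_apply, gcjfRot_coeffMap, map_pow, hζmap,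
      coeffMap_jqModC]
  · have hπ : residue ↥𝔸 (ζ : ↥𝔸) = 1 := by
      apply gcjf_eq_one_of_pow_eq_one ℓ
      rw [← map_pow, ← Units.val_pow_eq_pow_val, hζ.pow_eq_one, Units.val_one, map_one]
    have h1 := ssnc_full_map_coeffMap (residue ↥𝔸) ℓ hπ (jqModC ↥𝔸) Ψ hΨ
    rw [h1, coeffMap_jqModC, coeffMap_jqModC]
    have h2 := gcjf_pow_char (ResidueField ↥𝔸) ℓ (jqModC (ResidueField ↥𝔸))
    rw [coeffMap_jqModC] at h2
    rw [h2]

end Fermat.Agent.SS
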