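import Mathlib
import Fermat.Agent.SS.Val.Gauss2
import Fermat.Agent.SS.Val.ModRed
import Fermat.Agent.SS.Val.ModDeg
import Fermat.Agent.SS.Val.ModGauss
import Fermat.Agent.S18.Core.Defs
import Fermat.Agent.S18.Core.Descend
import Fermat.Agent.S18.Core.DescentBasic

/-!
# Program S (S34), row SS-VAL : THE MODULAR INSTANCE

`E ⊂ ℚ̄` a number field, `𝔸` a valuation subring of `ℚ̄` above the prime `q`, `A₀ = 𝔸 ∩ E` (a DVR,
uniformiser `ϖ`), `q ∤ M`.  `F₀ = F_E(M) ⊂ F = F_E(M q) ⊂ E((q))`, `y = j(q^q) ∈ F`,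
`R = ssvmgR A₀ h ⊂ F` the Gauss ring of `F₀` inside `F`, `jR ∈ R` the element `j`.

* `ssvmm_amb` : `SsvAmb R ϖ y Ξ (Y - jR^q) (Y^q - jR) G` for suitable `Ξ, G ∈ R[Y]`
  (KRONECKER : the minimal polynomial of `j(q^q)` over `F_E(M)` is `≡ (Y - j^q)(Y^q - j) mod ϖ`);
* `ssvmm_loc_le`, `ssvmm_le_intLoc` : `A₀[j]_(ϖ) ⊆ R`, and `R` is integral over it;
* `ssvmm_two` : **the two extensions of the Gauss valuation of `E(j)` to `F_E(M q)`**
  (`SsvTwo` for `t = j`, `u₁ = j(q^q) - j^q`, `u₂ = j(q^q)^q - j`).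
-/

set_option autoImplicit false
set_option linter.unusedSectionVars false
set_option linter.unusedVariables false
set_option linter.style.haveILetI false
set_option synthInstance.maxHeartbeats 400000

noncomputable section

namespace Fermat.Agent.SS

open Polynomial ModularCurve AlgebraicCurve IsLocalRing IntermediateField Fermat.Agent.S24
  Fermat.Agent.G Fermat.Agent.S18

local notation "Qb" => AlgebraicClosure ℚ

/-! ### Setup -/

section Setup

variable (K : Type*) [Field K] (N ℓ : ℕ) [NeZero N] [NeZero ℓ]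

/-- `j(q^ℓ)` as an element of `F_K(N ℓ)` -/
def ssvmmY : modularFunctionFieldFullC K (N * ℓ) :=
  ⟨qExpand K ℓ (jqModC K), jqModCd_mem_full K (N * ℓ) (dvd_mul_left ℓ N)⟩

theorem ssvmmY_coe : ((ssvmmY K N ℓ : modularFunctionFieldFullC K (N * ℓ)) : LaurentSeries K) =
    qExpand K ℓ (jqModC K) := rfl

end Setup

section Up

variable (E : IntermediateField ℚ Qb) (N : ℕ) [NeZero N]

/-- the push-up `F_E(N) → F_ℚ̄(N)` -/
def ssvmmUp : modularFunctionFieldFullC E N →+* modularFunctionFieldBar N where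
  toFun x := ⟨s18dUp E x, s18db_up_mem E N x x.2⟩
  map_one' := Subtype.ext (map_one _)
  map_mul' x y := Subtype.ext (map_mul _ _ _)
  map_zero' := Subtype.ext (map_zero _)
  map_add' x y := Subtype.ext (map_add _ _ _)

theorem ssvmmUp_coe (x : modularFunctionFieldFullC E N) :
    ((ssvmmUp E N x : modularFunctionFieldBar N) : LaurentSeries Qb) =
      s18dUp E (x : LaurentSeries E) := rfl

end Up

/-! ### Step 1 : the minimal polynomial over `F_E(M)` pushes up to the one over `F_ℚ̄(M)` -/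

section Minpoly

variable {q : ℕ} [Fact q.Prime] (E : IntermediateField ℚ Qb) (M : ℕ) [NeZero M]

theorem ssvmm_minpoly_up (hqM : ¬ q ∣ M) :
    haveI : NeZero q := ⟨(Fact.out : q.Prime).ne_zero⟩
    letI := algebraAlong (ssvmdIncl E M q)
    letI := algebraAlong (heckeAlphaBar Qb M q)
    (minpoly (modularFunctionFieldFullC E M) (ssvmmY E M q)).map (ssvmmUp E M) =
      minpoly (modularFunctionFieldBar M) (heckeBetaBar Qb M q (ssvmbJ M)) ∧
    (minpoly (modularFunctionFieldFullC E M) (ssvmmY E M q)).natDegree = q + 1 := by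
  haveI : NeZero q := ⟨(Fact.out : q.Prime).ne_zero⟩
  letI algE := algebraAlong (ssvmdIncl E M q)
  letI modE : Module (modularFunctionFieldFullC E M) (modularFunctionFieldFullC E (M * q)) :=
    algE.toModule
  have hfr : Module.finrank (modularFunctionFieldFullC E M) (modularFunctionFieldFullC E (M * q)) =
      q + 1 := ssvmd_finrank E M hqM
  haveI hfd : FiniteDimensional (modularFunctionFieldFullC E M)
      (modularFunctionFieldFullC E (M * q)) :=
    Module.finite_of_finrank_pos (by rw [hfr]; omega)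
  have hint : IsIntegral (modularFunctionFieldFullC E M) (ssvmmY E M q) := IsIntegral.of_finite _ _
  have hmonic := minpoly.monic hint
  have hle : (minpoly (modularFunctionFieldFullC E M) (ssvmmY E M q)).natDegree ≤ q + 1 := by
    rw [← hfr]
    exact minpoly.natDegree_le _
  letI algB := algebraAlong (heckeAlphaBar Qb M q)
  letI modB : Module (modularFunctionFieldBar M) (modularFunctionFieldBar (M * q)) :=
    algB.toModule
  obtain ⟨ζ₀, -, hdeg, -⟩ := ssvmb_minpoly M hqM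
  -- compatibilities
  have hα : ∀ x : modularFunctionFieldFullC E M,
      ssvmmUp E (M * q) (algebraMap (modularFunctionFieldFullC E M)
        (modularFunctionFieldFullC E (M * q)) x) =
      algebraMap (modularFunctionFieldBar M) (modularFunctionFieldBar (M * q)) (ssvmmUp E M x) :=
    fun x => Subtype.ext rfl
  have hβ : ssvmmUp E (M * q) (ssvmmY E M q) = heckeBetaBar Qb M q (ssvmbJ M) := by
    apply Subtype.ext
    show s18dUp E (qExpand E q (jqModC E)) = qExpand Qb q (jqModC Qb)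
    rw [coeffMap_qExpand, coeffMap_jqModC]
  -- the pushed-up polynomial kills `β j`
  have hroot : aeval (heckeBetaBar Qb M q (ssvmbJ M))
      ((minpoly (modularFunctionFieldFullC E M) (ssvmmY E M q)).map (ssvmmUp E M)) = 0 := by
    rw [aeval_def, eval₂_map, ← hβ]
    have h1 : (algebraMap (modularFunctionFieldBar M) (modularFunctionFieldBar (M * q))).comp
        (ssvmmUp E M) = (ssvmmUp E (M * q)).comp
          (algebraMap (modularFunctionFieldFullC E M) (modularFunctionFieldFullC E (M * q))) :=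
      RingHom.ext fun x => (hα x).symm
    rw [h1, ← Polynomial.hom_eval₂, ← aeval_def, minpoly.aeval, map_zero]
  have hdvd := minpoly.dvd (modularFunctionFieldBar M) _ hroot
  have hintB : IsIntegral (modularFunctionFieldBar M) (heckeBetaBar Qb M q (ssvmbJ M)) := by
    by_contra hni
    rw [minpoly.eq_zero hni, natDegree_zero] at hdeg
    omega
  have heq := eq_of_monic_of_dvd_of_natDegree_le (minpoly.monic hintB) (hmonic.map (ssvmmUp E M))
    hdvd (by rw [hmonic.natDegree_map, hdeg]; exact hle)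
  refine ⟨heq, ?_⟩
  rw [← hmonic.natDegree_map (ssvmmUp E M), heq, hdeg]

end Minpoly

/-! ### Steps 2–4 : the Kronecker congruence over `A₀ = 𝔸 ∩ E` -/

/-- the Kronecker polynomial `(Y - j^q)(Y^q - j)` is compatible with coefficient maps -/
theorem ssvmm_kron_map {R S : Type*} [CommRing R] [CommRing S] (f : R →+* S) (q : ℕ) :
    ((X - C (jqModC R ^ q)) * (X ^ q - C (jqModC R)) : (LaurentSeries R)[X]).map (coeffMap f) =
      (X - C (jqModC S ^ q)) * (X ^ q - C (jqModC S)) := by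
  simp only [Polynomial.map_mul, Polynomial.map_sub, Polynomial.map_pow, map_X, map_C, map_pow,
    coeffMap_jqModC]

section Lift

variable {q : ℕ} [Fact q.Prime] (𝔸 : ValuationSubring Qb) (E : IntermediateField ℚ Qb)
variable (M : ℕ) [NeZero M]

/-- **the Kronecker congruence** : the minimal polynomial of `j(q^q)` over `F_E(M)` has
coefficients in `A₀((q))`, and reduces to `(Y - j̄^q)(Y^q - j̄)`. -/
theorem ssvmm_exists_lift (hA : 𝔸.LiesOverPrime q) (hqM : ¬ q ∣ M) :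
    haveI : NeZero q := ⟨(Fact.out : q.Prime).ne_zero⟩
    letI := algebraAlong (ssvmdIncl E M q)
    ∃ Ξ : (LaurentSeries ↥(s18dVal 𝔸 E))[X], Ξ.Monic ∧
      Ξ.map (s18vIncl ↥(s18dVal 𝔸 E) E) =
        (minpoly (modularFunctionFieldFullC E M) (ssvmmY E M q)).map
          (modularFunctionFieldFullC E M).val.toRingHom ∧
      Ξ.map (s18vRes ↥(s18dVal 𝔸 E)) =
        (X - C (jqModC (ResidueField ↥(s18dVal 𝔸 E)) ^ q)) *
          (X ^ q - C (jqModC (ResidueField ↥(s18dVal 𝔸 E)))) := by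
  haveI : NeZero q := ⟨(Fact.out : q.Prime).ne_zero⟩
  letI algE := algebraAlong (ssvmdIncl E M q)
  obtain ⟨hup, hdegE⟩ := ssvmm_minpoly_up E M hqM
  obtain ⟨P, hdeg, hP, hPred⟩ := ssvmr_minpoly M hqM 𝔸 hA
  have hintE : IsIntegral (modularFunctionFieldFullC E M) (ssvmmY E M q) := by
    by_contra hni
    rw [minpoly.eq_zero hni, natDegree_zero] at hdegE
    omega
  have hmonicE := minpoly.monic hintE
  -- the key identity in `ℚ̄((q))[Y]`
  have hkey : ((minpoly (modularFunctionFieldFullC E M) (ssvmmY E M q)).map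
      (modularFunctionFieldFullC E M).val.toRingHom).map (s18dUp E) =
      P.map (coeffMap 𝔸.subtype) := by
    rw [Polynomial.map_map]
    have h1 : (s18dUp E).comp (modularFunctionFieldFullC E M).val.toRingHom =
        (gcjsVal M).comp (ssvmmUp E M) := rfl
    rw [h1, ← Polynomial.map_map, hup, hP]
  -- the coefficients descend
  have hlifts : (minpoly (modularFunctionFieldFullC E M) (ssvmmY E M q)).map
      (modularFunctionFieldFullC E M).val.toRingHom ∈ lifts (s18vIncl ↥(s18dVal 𝔸 E) E) := by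
    rw [lifts_iff_coeff_lifts]
    intro n
    have h1 := congrArg (fun p => p.coeff n) hkey
    simp only [coeff_map] at h1
    obtain ⟨v, -, hv⟩ := s18dd_exists_coeff (A := 𝔸) (E := E) (P.coeff n) _ h1
    refine ⟨v, ?_⟩
    rw [coeff_map]
    exact hv
  obtain ⟨Ξ, hΞ, -, hΞmonic⟩ := lifts_and_natDegree_eq_and_monic hlifts (hmonicE.map _)
  have hΞP : Ξ.map (coeffMap (s18dIncl 𝔸 E)) = P := by
    apply Polynomial.map_injective _ (ssvmr_coeffMap_subtype_injective 𝔸)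
    rw [← hkey, ← hΞ, Polynomial.map_map, Polynomial.map_map]
    congr 1
  refine ⟨Ξ, hΞmonic, hΞ, ?_⟩
  rw [← ssvmm_kron_map (residue ↥(s18dVal 𝔸 E)) q]
  ext n : 1
  rw [coeff_map, coeff_map]
  refine (s18db_res_eq_iff 𝔸 E _ _).mpr ?_
  show coeffMap (residue ↥𝔸) (coeffMap (s18dIncl 𝔸 E) (Ξ.coeff n)) =
    coeffMap (residue ↥𝔸) (coeffMap (s18dIncl 𝔸 E) _)
  rw [← coeff_map, ← coeff_map, ← coeff_map, ← coeff_map, hΞP, hPred, ssvmm_kron_map,
    ssvmm_kron_map]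

end Lift

/-! ### Step 5 : the two-factor package for `R[y]` -/

section Amb

theorem ssvmm_le (K : Type*) [Field K] (N ℓ : ℕ) [NeZero N] [NeZero ℓ] :
    modularFunctionFieldFullC K N ≤ modularFunctionFieldFullC K (N * ℓ) :=
  full_degeneracyC_le K (dvd_mul_right N ℓ)

variable (𝔸 : ValuationSubring Qb) (E : IntermediateField ℚ Qb)
  [IsDiscreteValuationRing ↥(s18dVal 𝔸 E)] [CharZero ↥(s18dVal 𝔸 E)]
variable (M ℓ : ℕ) [NeZero M] [NeZero ℓ]

/-- the Gauss ring of `F_E(M)` inside `F_E(M ℓ)` -/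
abbrev ssvmmR : Subring ↥(modularFunctionFieldFullC E (M * ℓ)) :=
  ssvmgR ↥(s18dVal 𝔸 E) (ssvmm_le E M ℓ)

theorem ssvmm_incl_jqModC_mem :
    s18vIncl ↥(s18dVal 𝔸 E) E (jqModC ↥(s18dVal 𝔸 E)) ∈ modularFunctionFieldFullC E M := by
  rw [coeffMap_jqModC]
  exact jqModC_mem_full E M

/-- `j` as an element of `R` -/
def ssvmmJ : ↥(ssvmmR 𝔸 E M ℓ) :=
  ssvmgOf (ssvmm_le E M ℓ) (jqModC ↥(s18dVal 𝔸 E)) (ssvmm_incl_jqModC_mem 𝔸 E M)

theorem ssvmmJ_coe : ((ssvmmJ 𝔸 E M ℓ : ↥(ssvmmR 𝔸 E M ℓ)) : ↥(modularFunctionFieldFullC E (M * ℓ))) =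
    ssvmdJ E (M * ℓ) := by
  apply Subtype.ext
  show s18vIncl ↥(s18dVal 𝔸 E) E (jqModC ↥(s18dVal 𝔸 E)) = jqModC E
  rw [coeffMap_jqModC]

theorem ssvmmJ_red : ssvmgRed (ssvmm_le E M ℓ) (ssvmmJ 𝔸 E M ℓ) =
    jqModC (ResidueField ↥(s18dVal 𝔸 E)) := by
  rw [ssvmmJ, ssvmgRed_of, coeffMap_jqModC]

end Amb

section AmbMain

variable {q : ℕ} [Fact q.Prime] (𝔸 : ValuationSubring Qb) (E : IntermediateField ℚ Qb)
  [IsDiscreteValuationRing ↥(s18dVal 𝔸 E)] [CharZero ↥(s18dVal 𝔸 E)]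
variable (M : ℕ) [NeZero M]

/-- the minimal polynomial of `j(q^q)` over `F_E(M)` : root, minimality, generation, in the
algebra-free form used by `ssvmg_amb`. -/
theorem ssvmm_minpoly_spec (hqM : ¬ q ∣ M) :
    haveI : NeZero q := ⟨(Fact.out : q.Prime).ne_zero⟩
    letI := algebraAlong (ssvmdIncl E M q)
    eval₂ (IntermediateField.inclusion (ssvmm_le E M q)).toRingHom (ssvmmY E M q)
        (minpoly (modularFunctionFieldFullC E M) (ssvmmY E M q)) = 0 ∧
      (∀ g : (↥(modularFunctionFieldFullC E M))[X],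
        eval₂ (IntermediateField.inclusion (ssvmm_le E M q)).toRingHom (ssvmmY E M q) g = 0 →
          minpoly (modularFunctionFieldFullC E M) (ssvmmY E M q) ∣ g) ∧
      ∀ x : ↥(modularFunctionFieldFullC E (M * q)), ∃ p : (↥(modularFunctionFieldFullC E M))[X],
        eval₂ (IntermediateField.inclusion (ssvmm_le E M q)).toRingHom (ssvmmY E M q) p = x := by
  have hq : q.Prime := Fact.out
  haveI : NeZero q := ⟨hq.ne_zero⟩
  letI algE := algebraAlong (ssvmdIncl E M q)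
  letI modE : Module (modularFunctionFieldFullC E M) (modularFunctionFieldFullC E (M * q)) :=
    algE.toModule
  obtain ⟨-, hdegE⟩ := ssvmm_minpoly_up E M hqM
  have hfr : Module.finrank (modularFunctionFieldFullC E M) (modularFunctionFieldFullC E (M * q)) =
      q + 1 := ssvmd_finrank E M hqM
  haveI hfd : FiniteDimensional (modularFunctionFieldFullC E M)
      (modularFunctionFieldFullC E (M * q)) :=
    Module.finite_of_finrank_pos (by rw [hfr]; omega)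
  have hintE : IsIntegral (modularFunctionFieldFullC E M) (ssvmmY E M q) := IsIntegral.of_finite _ _
  have htop : IntermediateField.adjoin (modularFunctionFieldFullC E M) {ssvmmY E M q} = ⊤ :=
    (Field.primitive_element_iff_minpoly_natDegree_eq _ _).mpr (by rw [hdegE, hfr])
  refine ⟨?_, ?_, ?_⟩
  · exact minpoly.aeval (modularFunctionFieldFullC E M) (ssvmmY E M q)
  · intro g hg
    exact minpoly.dvd (modularFunctionFieldFullC E M) (ssvmmY E M q) hg
  · intro x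
    have hx : x ∈ IntermediateField.adjoin (modularFunctionFieldFullC E M) {ssvmmY E M q} :=
      htop ▸ IntermediateField.mem_top
    have hx' : x ∈ (IntermediateField.adjoin (modularFunctionFieldFullC E M)
        {ssvmmY E M q}).toSubalgebra := hx
    rw [IntermediateField.adjoin_simple_toSubalgebra_of_isAlgebraic hintE.isAlgebraic,
      Algebra.adjoin_singleton_eq_range_aeval] at hx'
    obtain ⟨p, hp⟩ := hx'
    exact ⟨p, hp⟩

set_option maxHeartbeats 2000000 in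
/-- **(SS-VAL, modular instance)** the two-factor package for `R[j(q^q)]`. -/
theorem ssvmm_amb (hA : 𝔸.LiesOverPrime q) (hqM : ¬ q ∣ M) {ϖ : ↥(s18dVal 𝔸 E)}
    (hϖ : Irreducible ϖ) :
    haveI : NeZero q := ⟨(Fact.out : q.Prime).ne_zero⟩
    ∃ Ξ G : (↥(ssvmmR 𝔸 E M q))[X],
      SsvAmb (ssvmmR 𝔸 E M q) (ssvmgRUnif (ssvmm_le E M q) ϖ) (ssvmmY E M q) Ξ
        (X - C (ssvmmJ 𝔸 E M q ^ q)) (X ^ q - C (ssvmmJ 𝔸 E M q)) G := by
  have hq : q.Prime := Fact.out
  haveI : NeZero q := ⟨hq.ne_zero⟩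
  obtain ⟨Ξ₀, hΞ₀monic, hΞ₀, hΞ₀red⟩ := ssvmm_exists_lift 𝔸 E M hA hqM
  obtain ⟨hroot, hmin, hgen⟩ := ssvmm_minpoly_spec E M hqM
  have hτ : (s18vRes ↥(s18dVal 𝔸 E) (jqModC ↥(s18dVal 𝔸 E))).order = -1 := by
    rw [coeffMap_jqModC]
    exact s18db_order_jqModC
  have hred : Ξ₀.map (s18vRes ↥(s18dVal 𝔸 E)) =
      (X - C (s18vRes ↥(s18dVal 𝔸 E) (jqModC ↥(s18dVal 𝔸 E)) ^ q)) *
        (X ^ q - C (s18vRes ↥(s18dVal 𝔸 E) (jqModC ↥(s18dVal 𝔸 E)))) := by
    rw [coeffMap_jqModC]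
    exact hΞ₀red
  exact ssvmg_amb (ssvmm_le E M q) hϖ (s18v_gen_full M) hq (jqModC ↥(s18dVal 𝔸 E))
    (ssvmm_incl_jqModC_mem 𝔸 E M) hτ (ssvmmY E M q) _ hroot hmin hgen Ξ₀ hΞ₀monic hΞ₀ hred

/-- `A₀[j]_(ϖ) ⊆ R` -/
theorem ssvmm_loc_le {ϖ : ↥(s18dVal 𝔸 E)} (hϖ : Irreducible ϖ) :
    haveI : NeZero q := ⟨(Fact.out : q.Prime).ne_zero⟩
    s18tLoc ↥(s18dVal 𝔸 E) (ssvmdJ E (M * q)) (C ϖ) (s18t_prime_C hϖ) ≤ ssvmmR 𝔸 E M q := by
  haveI : NeZero q := ⟨(Fact.out : q.Prime).ne_zero⟩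
  exact ssvmgR_loc_le (ssvmm_le E M q) hϖ (ssvmdJ E M) (jqModC ↥(s18dVal 𝔸 E)) (s18v_pole_j M)

/-- `R` is integral over `A₀[j]_(ϖ)` -/
theorem ssvmm_le_intLoc (hA : 𝔸.LiesOverPrime q) (hqM : ¬ q ∣ M) {ϖ : ↥(s18dVal 𝔸 E)}
    (hϖ : Irreducible ϖ) :
    haveI : NeZero q := ⟨(Fact.out : q.Prime).ne_zero⟩
    ∀ x ∈ ssvmmR 𝔸 E M q,
      x ∈ s18tIntLoc ↥(s18dVal 𝔸 E) (ssvmdJ E (M * q)) (C ϖ) (s18t_prime_C hϖ) := by
  haveI : NeZero q := ⟨(Fact.out : q.Prime).ne_zero⟩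
  exact ssvmgR_le_intLoc (ssvmm_le E M q) hϖ (ssvmdJ E M)
    (s18v_coord_j' hϖ (s18d_natCast_mem 𝔸 E hA) M hqM)

set_option maxHeartbeats 2000000 in
/-- **(SS-VAL)** THE TWO EXTENSIONS OF THE GAUSS VALUATION of `E(j)` to `F_E(M q)` : with
`u₁ = j(q^q) - j^q` and `u₂ = j(q^q)^q - j`. -/
theorem ssvmm_two (hA : 𝔸.LiesOverPrime q) (hqM : ¬ q ∣ M) {ϖ : ↥(s18dVal 𝔸 E)}
    (hϖ : Irreducible ϖ) :
    haveI : NeZero q := ⟨(Fact.out : q.Prime).ne_zero⟩
    ∃ V₁ V₂ : ValuationSubring ↥(modularFunctionFieldFullC E (M * q)),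
      SsvTwo hϖ (ssvmdJ E (M * q)) (ssvmmY E M q - ssvmdJ E (M * q) ^ q)
        (ssvmmY E M q ^ q - ssvmdJ E (M * q)) V₁ V₂ := by
  haveI : NeZero q := ⟨(Fact.out : q.Prime).ne_zero⟩
  obtain ⟨Ξ, G, hamb⟩ := ssvmm_amb 𝔸 E M hA hqM hϖ
  have h2 := ssv_two hϖ (ssvmdJ E (M * q)) (ssvmm_loc_le 𝔸 E M hϖ) (ssvmm_le_intLoc 𝔸 E M hA hqM hϖ)
    hamb (ssvmgRUnif_coe (ssvmm_le E M q) ϖ)
  have e₁ : aeval (ssvmmY E M q) (X - C (ssvmmJ 𝔸 E M q ^ q) : (↥(ssvmmR 𝔸 E M q))[X]) =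
      ssvmmY E M q - ssvmdJ E (M * q) ^ q := by
    rw [map_sub, aeval_X, aeval_C, map_pow]
    congr 2
    exact ssvmmJ_coe 𝔸 E M q
  have e₂ : aeval (ssvmmY E M q) (X ^ q - C (ssvmmJ 𝔸 E M q) : (↥(ssvmmR 𝔸 E M q))[X]) =
      ssvmmY E M q ^ q - ssvmdJ E (M * q) := by
    rw [map_sub, map_pow, aeval_X, aeval_C]
    congr 1
    exact ssvmmJ_coe 𝔸 E M q
  rw [e₁, e₂] at h2
  exact ⟨_, _, h2⟩

set_option maxHeartbeats 2000000 in
/-- **(SS-VAL), general chart coordinate** : for EVERY good coordinate `t₀` of `F_E(M)` (integral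
with a pole modulo `ϖ`, `S18Coord`; e.g. `j` for all `q`, the Hauptmodul `h_a` for `q ∈ {2,3}`) the
two valuation rings `V₁, V₂` of the two-factor package are THE extensions of the Gauss valuation of
`E(t₀)` to `F_E(M q)`. -/
theorem ssvmm_two_coord (hA : 𝔸.LiesOverPrime q) (hqM : ¬ q ∣ M) {ϖ : ↥(s18dVal 𝔸 E)}
    (hϖ : Irreducible ϖ) (t₀ : ↥(modularFunctionFieldFullC E M))
    (τ : LaurentSeries ↥(s18dVal 𝔸 E)) (ht : S18VPole (modularFunctionFieldFullC E M) t₀ τ)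
    (hc : S18Coord hϖ (modularFunctionFieldFullC E M) t₀) :
    haveI : NeZero q := ⟨(Fact.out : q.Prime).ne_zero⟩
    ∃ (Ξ G : (↥(ssvmmR 𝔸 E M q))[X])
      (h : SsvAmb (ssvmmR 𝔸 E M q) (ssvmgRUnif (ssvmm_le E M q) ϖ) (ssvmmY E M q) Ξ
        (X - C (ssvmmJ 𝔸 E M q ^ q)) (X ^ q - C (ssvmmJ 𝔸 E M q)) G),
      SsvTwo hϖ (IntermediateField.inclusion (ssvmm_le E M q) t₀)
        (ssvmmY E M q - ssvmdJ E (M * q) ^ q) (ssvmmY E M q ^ q - ssvmdJ E (M * q)) h.V₁ h.V₂ := by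
  haveI : NeZero q := ⟨(Fact.out : q.Prime).ne_zero⟩
  obtain ⟨Ξ, G, hamb⟩ := ssvmm_amb 𝔸 E M hA hqM hϖ
  have h2 := ssv_two hϖ (IntermediateField.inclusion (ssvmm_le E M q) t₀)
    (ssvmgR_loc_le (ssvmm_le E M q) hϖ t₀ τ ht)
    (ssvmgR_le_intLoc (ssvmm_le E M q) hϖ t₀ hc) hamb (ssvmgRUnif_coe (ssvmm_le E M q) ϖ)
  have e₁ : aeval (ssvmmY E M q) (X - C (ssvmmJ 𝔸 E M q ^ q) : (↥(ssvmmR 𝔸 E M q))[X]) =
      ssvmmY E M q - ssvmdJ E (M * q) ^ q := by
    rw [map_sub, aeval_X, aeval_C, map_pow]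
    congr 2
    exact ssvmmJ_coe 𝔸 E M q
  have e₂ : aeval (ssvmmY E M q) (X ^ q - C (ssvmmJ 𝔸 E M q) : (↥(ssvmmR 𝔸 E M q))[X]) =
      ssvmmY E M q ^ q - ssvmdJ E (M * q) := by
    rw [map_sub, map_pow, aeval_X, aeval_C]
    congr 1
    exact ssvmmJ_coe 𝔸 E M q
  rw [e₁, e₂] at h2
  exact ⟨Ξ, G, hamb, h2⟩

end AmbMain

end Fermat.Agent.SS
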