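import Mathlib
import Fermat.Agent.SS.Val.ModMain

/-!
# Program S (S34), row SS-GERM, leaf (G-e) : the second valuation ring `V₂` is the pull-back of the
Gauss ring under the conjugate embedding `σ₀`

`σ₀ : F_E(M q) → F_E(M (M q))` is the (normalised) `q`-expansion at the cusp `0`-translate:
`σ₀ (x) = x(q^{M q})` for `x ∈ F_E(M)` and `σ₀ (x(q^q)) = x(q^M)` (the `b = 0` conjugate of G/Conj;
no root of unity is involved).  Then `V₂ = σ₀⁻¹(Gauss ring)`, whence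
* `φ g = g(q^q) ∈ V₂` for `g` in the Gauss ring of `F_E(M)`, and `φ g ∈ 𝔪_{V₂} ↔ ϖ ∣ g`;
* (H-Fr) `(φ g')^q - g ∈ 𝔪_{V₂}` when `Fr (red g') = red g`.
-/

set_option autoImplicit false
set_option linter.unusedSectionVars false
set_option linter.unusedVariables false
set_option linter.style.haveILetI false
set_option synthInstance.maxHeartbeats 400000

noncomputable section

namespace Fermat.Agent.SS

open Polynomial ModularCurve AlgebraicCurve IsLocalRing IntermediateField Fermat.Agent.S24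
  Fermat.Agent.G Fermat.Agent.S18
open scoped MatrixGroups

local notation "Qb" => AlgebraicClosure ℚ

/-! ### The conjugate embedding over `ℚ̄` -/

/-- the `b = 0` conjugate embedding `F_ℚ̄(N ℓ) → ℚ̄((q))` : `α f ↦ f(q^{N ℓ})`, `β f ↦ f(q^N)` -/
theorem ssvmf_exists_sigmaBar (N : ℕ) [NeZero N] {ℓ : ℕ} [Fact ℓ.Prime] (hℓN : ¬ ℓ ∣ N) :
    haveI : NeZero ℓ := ⟨(Fact.out : ℓ.Prime).ne_zero⟩
    ∃ σ : modularFunctionFieldBar (N * ℓ) →+* LaurentSeries Qb,
      (∀ f : modularFunctionFieldBar N, σ (heckeAlphaBar Qb N ℓ f) =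
        qExpand Qb (N * ℓ) (f : LaurentSeries Qb)) ∧
      (∀ f : modularFunctionFieldBar N, σ (heckeBetaBar Qb N ℓ f) =
        qExpand Qb N (f : LaurentSeries Qb)) := by
  haveI : NeZero ℓ := ⟨(Fact.out : ℓ.Prime).ne_zero⟩
  have hℓ : ℓ.Prime := Fact.out
  obtain ⟨ζ₀, -, hζ₀⟩ := gcjs_exists_zeta ℓ
  obtain ⟨ξ, γ', hγ', hξ, hmat, -, -⟩ :=
    gcj_exists_reps N ℓ hℓ.one_lt ((Nat.Prime.coprime_iff_not_dvd hℓ).2 hℓN)
  refine ⟨degLift (N * ℓ) (ξ 0), fun f => gcjs_degLift_alpha N ℓ (ξ 0) (hξ 0) f, fun f => ?_⟩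
  have h := gcjs_degLift_beta N ℓ ζ₀ hζ₀ (ξ 0) γ' hγ' 0 (by exact_mod_cast hmat 0) f
  rw [h, pow_zero, gcjfRot_one]

/-! ### The maps `φ` and `σ₀` over a number field -/

section Phi

variable (K : Type*) [Field K] (N ℓ : ℕ) [NeZero N] [NeZero ℓ]

/-- `φ : x ↦ x(q^ℓ)`, `F_K(N) → F_K(N ℓ)` -/
def ssvmfPhi : modularFunctionFieldFullC K N →+* modularFunctionFieldFullC K (N * ℓ) where
  toFun x := ⟨qExpand K ℓ (x : LaurentSeries K),
    full_degeneracyC_map_le K N ℓ ⟨(x : LaurentSeries K), x.2, rfl⟩⟩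
  map_one' := Subtype.ext (map_one (qExpand K ℓ))
  map_mul' _ _ := Subtype.ext (map_mul (qExpand K ℓ) _ _)
  map_zero' := Subtype.ext (map_zero (qExpand K ℓ))
  map_add' _ _ := Subtype.ext (map_add (qExpand K ℓ) _ _)

theorem ssvmfPhi_coe (x : modularFunctionFieldFullC K N) :
    ((ssvmfPhi K N ℓ x : modularFunctionFieldFullC K (N * ℓ)) : LaurentSeries K) =
      qExpand K ℓ (x : LaurentSeries K) := rfl

end Phi

section Descent

variable (E : IntermediateField ℚ Qb) (M : ℕ) [NeZero M]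

theorem ssvmf_up_incl (ℓ : ℕ) [NeZero ℓ] (x : modularFunctionFieldFullC E M) :
    ssvmmUp E (M * ℓ) (ssvmdIncl E M ℓ x) = heckeAlphaBar Qb M ℓ (ssvmmUp E M x) := by
  apply Subtype.ext
  rw [ssvmmUp_coe, ssvmdIncl_coe, coe_heckeAlphaBar, ssvmmUp_coe]

theorem ssvmf_up_phi (ℓ : ℕ) [NeZero ℓ] (x : modularFunctionFieldFullC E M) :
    ssvmmUp E (M * ℓ) (ssvmfPhi E M ℓ x) = heckeBetaBar Qb M ℓ (ssvmmUp E M x) := by
  apply Subtype.ext
  show s18dUp E (qExpand E ℓ (x : LaurentSeries E)) = qExpand Qb ℓ (s18dUp E (x : LaurentSeries E))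
  rw [coeffMap_qExpand]

theorem ssvmf_up_injective (N : ℕ) [NeZero N] : Function.Injective (ssvmmUp E N) := by
  intro x y hxy
  apply Subtype.ext
  apply s18dd_coeffMap_injective (algebraMap E Qb)
  exact congrArg Subtype.val hxy

variable {q : ℕ} [Fact q.Prime]

/-- descent of `σ₀` on the generators -/
theorem ssvmf_sigma_gen (hqM : ¬ q ∣ M)
    (σB : haveI : NeZero q := ⟨(Fact.out : q.Prime).ne_zero⟩
      modularFunctionFieldBar (M * q) →+* LaurentSeries Qb)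
    (hα : haveI : NeZero q := ⟨(Fact.out : q.Prime).ne_zero⟩
      ∀ f : modularFunctionFieldBar M, σB (heckeAlphaBar Qb M q f) =
        qExpand Qb (M * q) (f : LaurentSeries Qb))
    (hβ : haveI : NeZero q := ⟨(Fact.out : q.Prime).ne_zero⟩
      ∀ f : modularFunctionFieldBar M, σB (heckeBetaBar Qb M q f) =
        qExpand Qb M (f : LaurentSeries Qb))
    (d : ℕ) [NeZero d] (hd : d ∣ M * q) :
    haveI : NeZero q := ⟨(Fact.out : q.Prime).ne_zero⟩
    ∃ z : modularFunctionFieldFullC E (M * (M * q)),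
      s18dUp E (z : LaurentSeries E) =
        σB (ssvmmUp E (M * q) ⟨qExpand E d (jqModC E), jqModCd_mem_full E (M * q) hd⟩) := by
  have hq : q.Prime := Fact.out
  haveI : NeZero q := ⟨hq.ne_zero⟩
  by_cases hqd : q ∣ d
  · -- `d = q d'`, `d' ∣ M` : the element is `φ (j_{d'})`
    obtain ⟨d', rfl⟩ := hqd
    have hd'0 : d' ≠ 0 := fun h0 => NeZero.ne (q * d') (by rw [h0, mul_zero])
    haveI : NeZero d' := ⟨hd'0⟩
    have hd'M : d' ∣ M := by
      rw [mul_comm M q] at hd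
      exact (Nat.mul_dvd_mul_iff_left hq.pos).mp hd
    have e : (⟨qExpand E (q * d') (jqModC E), jqModCd_mem_full E (M * q) hd⟩ :
        modularFunctionFieldFullC E (M * q)) =
        ssvmfPhi E M q ⟨qExpand E d' (jqModC E), jqModCd_mem_full E M hd'M⟩ := by
      apply Subtype.ext
      show qExpand E (q * d') (jqModC E) = qExpand E q (qExpand E d' (jqModC E))
      rw [qExpand_qExpand]
    refine ⟨⟨qExpand E (M * d') (jqModC E), jqModCd_mem_full E (M * (M * q))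
      (Nat.mul_dvd_mul_left M (hd'M.trans (dvd_mul_right M q)))⟩, ?_⟩
    rw [e, ssvmf_up_phi, hβ]
    show s18dUp E (qExpand E (M * d') (jqModC E)) =
      qExpand Qb M (s18dUp E (qExpand E d' (jqModC E)))
    rw [← coeffMap_qExpand, qExpand_qExpand]
  · -- `d ∣ M` : the element is the image of `j_d`
    have hdM : d ∣ M :=
      (Nat.Coprime.dvd_of_dvd_mul_right ((Nat.Prime.coprime_iff_not_dvd hq).mpr hqd).symm hd)
    have e : (⟨qExpand E d (jqModC E), jqModCd_mem_full E (M * q) hd⟩ :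
        modularFunctionFieldFullC E (M * q)) =
        ssvmdIncl E M q ⟨qExpand E d (jqModC E), jqModCd_mem_full E M hdM⟩ :=
      Subtype.ext rfl
    refine ⟨⟨qExpand E (M * q * d) (jqModC E), jqModCd_mem_full E (M * (M * q)) ?_⟩, ?_⟩
    · rw [mul_comm M (M * q)]
      exact Nat.mul_dvd_mul_left (M * q) hdM
    rw [e, ssvmf_up_incl, hα]
    show s18dUp E (qExpand E (M * q * d) (jqModC E)) =
      qExpand Qb (M * q) (s18dUp E (qExpand E d (jqModC E)))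
    rw [← coeffMap_qExpand, qExpand_qExpand]

/-- descent of `σ₀` : every value lies in the image of `F_E(M (M q))` -/
theorem ssvmf_sigma_descends (hqM : ¬ q ∣ M)
    (σB : haveI : NeZero q := ⟨(Fact.out : q.Prime).ne_zero⟩
      modularFunctionFieldBar (M * q) →+* LaurentSeries Qb)
    (hα : haveI : NeZero q := ⟨(Fact.out : q.Prime).ne_zero⟩
      ∀ f : modularFunctionFieldBar M, σB (heckeAlphaBar Qb M q f) =
        qExpand Qb (M * q) (f : LaurentSeries Qb))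
    (hβ : haveI : NeZero q := ⟨(Fact.out : q.Prime).ne_zero⟩
      ∀ f : modularFunctionFieldBar M, σB (heckeBetaBar Qb M q f) =
        qExpand Qb M (f : LaurentSeries Qb)) :
    haveI : NeZero q := ⟨(Fact.out : q.Prime).ne_zero⟩
    ∀ (x : LaurentSeries E) (hx : x ∈ modularFunctionFieldFullC E (M * q)),
      ∃ z : modularFunctionFieldFullC E (M * (M * q)),
        s18dUp E (z : LaurentSeries E) = σB (ssvmmUp E (M * q) ⟨x, hx⟩) := by
  have hq : q.Prime := Fact.out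
  haveI : NeZero q := ⟨hq.ne_zero⟩
  intro x hx
  unfold modularFunctionFieldFullC at hx
  induction hx using IntermediateField.adjoin_induction with
  | mem x hx =>
    obtain ⟨d, hne, hd, rfl⟩ := hx
    haveI := hne
    exact ssvmf_sigma_gen E M hqM σB hα hβ d hd
  | algebraMap c =>
    refine ⟨algebraMap E _ c, ?_⟩
    -- constants
    have e : ssvmmUp E (M * q) ⟨algebraMap E (LaurentSeries E) c,
        (modularFunctionFieldFullC E (M * q)).algebraMap_mem c⟩ =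
        heckeAlphaBar Qb M q (algebraMap Qb (modularFunctionFieldBar M) (algebraMap E Qb c)) := by
      apply Subtype.ext
      rw [ssvmmUp_coe, coe_heckeAlphaBar]
      show s18dUp E (algebraMap E (LaurentSeries E) c) =
        algebraMap Qb (LaurentSeries Qb) (algebraMap E Qb c)
      exact s18dd_coeffMap_algebraMap _ c
    rw [e, hα]
    show s18dUp E (algebraMap E (LaurentSeries E) c) =
      qExpand Qb (M * q) (algebraMap Qb (LaurentSeries Qb) (algebraMap E Qb c))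
    rw [s18dd_coeffMap_algebraMap, algebraMap_laurentSeries_eq_single, qExpand_single, mul_zero]
  | add x y hx hy ihx ihy =>
    obtain ⟨z, hz⟩ := ihx
    obtain ⟨w, hw⟩ := ihy
    refine ⟨z + w, ?_⟩
    have e : ssvmmUp E (M * q) ⟨x + y, add_mem hx hy⟩ =
        ssvmmUp E (M * q) ⟨x, hx⟩ + ssvmmUp E (M * q) ⟨y, hy⟩ := by
      rw [← map_add]
      rfl
    rw [e, map_add, ← hz, ← hw]
    push_cast
    rw [map_add]
  | inv x hx ihx =>
    obtain ⟨z, hz⟩ := ihx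
    refine ⟨z⁻¹, ?_⟩
    have e : ssvmmUp E (M * q) ⟨x⁻¹, inv_mem hx⟩ = (ssvmmUp E (M * q) ⟨x, hx⟩)⁻¹ := by
      rw [← map_inv₀]
      rfl
    rw [e, map_inv₀, ← hz]
    push_cast
    rw [map_inv₀]
  | mul x y hx hy ihx ihy =>
    obtain ⟨z, hz⟩ := ihx
    obtain ⟨w, hw⟩ := ihy
    refine ⟨z * w, ?_⟩
    have e : ssvmmUp E (M * q) ⟨x * y, mul_mem hx hy⟩ =
        ssvmmUp E (M * q) ⟨x, hx⟩ * ssvmmUp E (M * q) ⟨y, hy⟩ := by
      rw [← map_mul]
      rfl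
    rw [e, map_mul, ← hz, ← hw]
    push_cast
    rw [map_mul]

/-- **the conjugate embedding `σ₀` over `E`** : `σ₀ x = x(q^{M q})` and `σ₀ (φ x) = x(q^M)` for
`x ∈ F_E(M)`. -/
theorem ssvmf_exists_sigma (hqM : ¬ q ∣ M) :
    haveI : NeZero q := ⟨(Fact.out : q.Prime).ne_zero⟩
    ∃ σ : modularFunctionFieldFullC E (M * q) →+* modularFunctionFieldFullC E (M * (M * q)),
      (∀ x : modularFunctionFieldFullC E M,
        ((σ (ssvmdIncl E M q x) : modularFunctionFieldFullC E (M * (M * q))) : LaurentSeries E) =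
          qExpand E (M * q) (x : LaurentSeries E)) ∧
      (∀ x : modularFunctionFieldFullC E M,
        ((σ (ssvmfPhi E M q x) : modularFunctionFieldFullC E (M * (M * q))) : LaurentSeries E) =
          qExpand E M (x : LaurentSeries E)) := by
  have hq : q.Prime := Fact.out
  haveI : NeZero q := ⟨hq.ne_zero⟩
  obtain ⟨σB, hα, hβ⟩ := ssvmf_exists_sigmaBar M hqM
  have key := ssvmf_sigma_descends E M hqM σB hα hβ
  choose f hf using fun x : modularFunctionFieldFullC E (M * q) => key x.1 x.2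
  have hinj : ∀ z z' : modularFunctionFieldFullC E (M * (M * q)),
      s18dUp E (z : LaurentSeries E) = s18dUp E (z' : LaurentSeries E) → z = z' := fun z z' h =>
    Subtype.ext (s18dd_coeffMap_injective (algebraMap E Qb) h)
  have hf' : ∀ x : modularFunctionFieldFullC E (M * q),
      s18dUp E ((f x : modularFunctionFieldFullC E (M * (M * q))) : LaurentSeries E) =
        σB (ssvmmUp E (M * q) x) := fun x => hf x
  refine ⟨{ toFun := f
            map_one' := hinj _ _ (by rw [hf', map_one, map_one]; push_cast; rw [map_one])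
            map_mul' := fun x y => hinj _ _ (by
              rw [hf', map_mul, map_mul, ← hf', ← hf']; push_cast; rw [map_mul])
            map_zero' := hinj _ _ (by rw [hf', map_zero, map_zero]; push_cast; rw [map_zero])
            map_add' := fun x y => hinj _ _ (by
              rw [hf', map_add, map_add, ← hf', ← hf']; push_cast; rw [map_add]) }, ?_, ?_⟩
  · intro x
    apply s18dd_coeffMap_injective (algebraMap E Qb)
    show s18dUp E ((f (ssvmdIncl E M q x) : modularFunctionFieldFullC E (M * (M * q))) :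
      LaurentSeries E) = s18dUp E (qExpand E (M * q) (x : LaurentSeries E))
    rw [hf', ssvmf_up_incl, hα, coeffMap_qExpand]
    rfl
  · intro x
    apply s18dd_coeffMap_injective (algebraMap E Qb)
    show s18dUp E ((f (ssvmfPhi E M q x) : modularFunctionFieldFullC E (M * (M * q))) :
      LaurentSeries E) = s18dUp E (qExpand E M (x : LaurentSeries E))
    rw [hf', ssvmf_up_phi, hβ, coeffMap_qExpand]
    rfl

end Descent

/-! ### The Gauss ring as a valuation subring -/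

section GaussAbstract

variable {A₀ : Type*} [CommRing A₀] [IsDomain A₀] [IsDiscreteValuationRing A₀] [CharZero A₀]
variable {L₀ : Type*} [Field L₀] [Algebra A₀ L₀] [IsFractionRing A₀ L₀]
variable {ϖ : A₀}

/-- the Gauss ring of a field generated by integral series, as a valuation subring -/
def ssvmfW (hϖ : Irreducible ϖ) (F : IntermediateField L₀ (LaurentSeries L₀))
    (hF : S18VGen A₀ F) : ValuationSubring ↥F :=
  { s18vO A₀ F with mem_or_inv_mem' := s18v_mem_or_inv_mem hϖ F hF }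

theorem mem_ssvmfW (hϖ : Irreducible ϖ) (F : IntermediateField L₀ (LaurentSeries L₀))
    (hF : S18VGen A₀ F) (x : ↥F) : x ∈ ssvmfW hϖ F hF ↔ x ∈ s18vO A₀ F := Iff.rfl

/-- the maximal ideal of the Gauss ring is `ϖ ·` -/
theorem ssvmf_mem_nonunits_iff (hϖ : Irreducible ϖ) (F : IntermediateField L₀ (LaurentSeries L₀))
    (hF : S18VGen A₀ F) (x : ↥F) :
    x ∈ (ssvmfW hϖ F hF).nonunits ↔ ∃ y ∈ s18vO A₀ F, x = algebraMap A₀ F ϖ * y := by
  rw [ValuationSubring.mem_nonunits_iff_or]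
  constructor
  · rintro (rfl | hx)
    · exact ⟨0, Subring.zero_mem _, by rw [mul_zero]⟩
    · have hxO : x ∈ s18vO A₀ F := by
        rcases s18v_mem_or_inv_mem hϖ F hF x with h | h
        · exact h
        · exact absurd h hx
      rcases s18v_dvd_or_inv_mem hϖ F x hxO with h | h
      · exact h
      · exact absurd h hx
  · rintro ⟨y, hy, rfl⟩
    by_cases h0 : algebraMap A₀ F ϖ * y = 0
    · exact Or.inl h0
    · right
      intro hinv
      have hinv' : (algebraMap A₀ F ϖ * y)⁻¹ ∈ s18vO A₀ F := hinv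
      have hy0 : y ≠ 0 := right_ne_zero_of_mul h0
      apply s18v_unif_not_unit hϖ F
      have e : (algebraMap A₀ F ϖ)⁻¹ = y * (algebraMap A₀ F ϖ * y)⁻¹ := by
        rw [mul_inv, mul_comm (algebraMap A₀ F ϖ)⁻¹, ← mul_assoc, mul_inv_cancel₀ hy0, one_mul]
      rw [e]
      exact Subring.mul_mem _ hy hinv'

/-- the kernel of the reduction of the Gauss ring is `ϖ ·` -/
theorem ssvmf_red_eq_zero_iff (hϖ : Irreducible ϖ) (F : IntermediateField L₀ (LaurentSeries L₀))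
    (x : ↥(s18vO A₀ F)) :
    s18vcRed F x = 0 ↔ ∃ y ∈ s18vO A₀ F, (x : ↥F) = algebraMap A₀ F ϖ * y := by
  obtain ⟨a, b, ha, hb, hb0, hxab⟩ := x.2
  rw [s18vcRed_eq F x a b hb0 hxab, div_eq_zero_iff, or_iff_left hb0,
    ← s18v_dvd_iff hϖ F (x : ↥F) a b ha hb hb0 hxab]

/-- `x ↦ x(q^n)` maps Gauss rings to Gauss rings, compatibly with the reductions -/
theorem ssvmf_qExpand_mem (n : ℕ) [NeZero n] (F₀ F' : IntermediateField L₀ (LaurentSeries L₀))
    (hmap : ∀ x ∈ F₀, qExpand L₀ n x ∈ F') (x : ↥F₀) (hx : x ∈ s18vO A₀ F₀) :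
    ∃ h' : (⟨qExpand L₀ n (x : LaurentSeries L₀), hmap x x.2⟩ : ↥F') ∈ s18vO A₀ F',
      s18vcRed F' ⟨_, h'⟩ = qExpand (ResidueField A₀) n (s18vcRed F₀ ⟨x, hx⟩) := by
  obtain ⟨a, b, ha, hb, hb0, hxab⟩ := hx
  have ha' : s18vIncl A₀ L₀ (qExpand A₀ n a) ∈ F' := by
    rw [coeffMap_qExpand]
    exact hmap _ ha
  have hb' : s18vIncl A₀ L₀ (qExpand A₀ n b) ∈ F' := by
    rw [coeffMap_qExpand]
    exact hmap _ hb
  have hb0' : s18vRes A₀ (qExpand A₀ n b) ≠ 0 := by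
    rw [coeffMap_qExpand]
    intro h0
    exact hb0 (qExpand_injective n (by rw [h0, map_zero]))
  have hx' : qExpand L₀ n (x : LaurentSeries L₀) * s18vIncl A₀ L₀ (qExpand A₀ n b) =
      s18vIncl A₀ L₀ (qExpand A₀ n a) := by
    rw [coeffMap_qExpand, coeffMap_qExpand, ← map_mul, hxab]
  have h' : (⟨qExpand L₀ n (x : LaurentSeries L₀), hmap x x.2⟩ : ↥F') ∈ s18vO A₀ F' :=
    ⟨qExpand A₀ n a, qExpand A₀ n b, ha', hb', hb0', hx'⟩
  refine ⟨h', ?_⟩
  rw [s18vcRed_eq F' ⟨_, h'⟩ (qExpand A₀ n a) (qExpand A₀ n b) hb0' hx',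
    s18vcRed_eq F₀ ⟨x, ⟨a, b, ha, hb, hb0, hxab⟩⟩ a b hb0 hxab, coeffMap_qExpand,
    coeffMap_qExpand, map_div₀]

/-- the maximal ideal of the pull-back of the Gauss ring along a field embedding -/
theorem ssvmf_nonunits_comap_iff (hϖ : Irreducible ϖ)
    (F' : IntermediateField L₀ (LaurentSeries L₀)) (hF' : S18VGen A₀ F') {K : Type*} [Field K]
    (σ : K →+* ↥F') (x : K) :
    x ∈ ((ssvmfW hϖ F' hF').comap σ).nonunits ↔
      ∃ hx : σ x ∈ s18vO A₀ F', s18vcRed F' ⟨σ x, hx⟩ = 0 := by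
  have key : σ x ∈ (ssvmfW hϖ F' hF').nonunits ↔
      ∃ hx : σ x ∈ s18vO A₀ F', s18vcRed F' ⟨σ x, hx⟩ = 0 := by
    rw [ssvmf_mem_nonunits_iff]
    constructor
    · rintro ⟨y, hy, hxy⟩
      have hx : σ x ∈ s18vO A₀ F' := by
        rw [hxy]
        exact Subring.mul_mem _ (s18vg_algebraMap_mem F' ϖ) hy
      exact ⟨hx, (ssvmf_red_eq_zero_iff hϖ F' ⟨σ x, hx⟩).mpr ⟨y, hy, hxy⟩⟩
    · rintro ⟨hx, h0⟩
      exact (ssvmf_red_eq_zero_iff hϖ F' ⟨σ x, hx⟩).mp h0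
  rw [← key, ValuationSubring.mem_nonunits_iff_or, ValuationSubring.mem_nonunits_iff_or,
    ValuationSubring.mem_comap, map_inv₀, map_eq_zero]

end GaussAbstract

/-! ### `V₂` is the pull-back of the Gauss ring under `σ₀` -/

section Pullback

variable {q : ℕ} [Fact q.Prime] (𝔸 : ValuationSubring Qb) (E : IntermediateField ℚ Qb)
  [IsDiscreteValuationRing ↥(s18dVal 𝔸 E)] [CharZero ↥(s18dVal 𝔸 E)]
variable (M : ℕ) [NeZero M]

theorem ssvmf_map_big (E : IntermediateField ℚ Qb) (M ℓ : ℕ) [NeZero M] [NeZero ℓ]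
    (x : LaurentSeries E) (hx : x ∈ modularFunctionFieldFullC E M) :
    qExpand E (M * ℓ) x ∈ modularFunctionFieldFullC E (M * (M * ℓ)) :=
  full_degeneracyC_map_le E M (M * ℓ) ⟨x, hx, rfl⟩

theorem ssvmf_map_small (E : IntermediateField ℚ Qb) (M ℓ : ℕ) [NeZero M] [NeZero ℓ]
    (x : LaurentSeries E) (hx : x ∈ modularFunctionFieldFullC E M) :
    qExpand E M x ∈ modularFunctionFieldFullC E (M * (M * ℓ)) :=
  full_degeneracyC_le E (Nat.mul_dvd_mul_left M (dvd_mul_right M ℓ))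
    (full_degeneracyC_map_le E M M ⟨x, hx, rfl⟩)

set_option maxHeartbeats 2000000 in
/-- **`V₂ = σ₀⁻¹(Gauss ring)`** -/
theorem ssvmf_V₂_eq (hA : 𝔸.LiesOverPrime q) (hqM : ¬ q ∣ M) {ϖ : ↥(s18dVal 𝔸 E)}
    (hϖ : Irreducible ϖ)
    (σ : haveI : NeZero q := ⟨(Fact.out : q.Prime).ne_zero⟩
      modularFunctionFieldFullC E (M * q) →+* modularFunctionFieldFullC E (M * (M * q)))
    (hσα : haveI : NeZero q := ⟨(Fact.out : q.Prime).ne_zero⟩
      ∀ x : modularFunctionFieldFullC E M,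
        ((σ (ssvmdIncl E M q x) : modularFunctionFieldFullC E (M * (M * q))) : LaurentSeries E) =
          qExpand E (M * q) (x : LaurentSeries E))
    (hσβ : haveI : NeZero q := ⟨(Fact.out : q.Prime).ne_zero⟩
      ∀ x : modularFunctionFieldFullC E M,
        ((σ (ssvmfPhi E M q x) : modularFunctionFieldFullC E (M * (M * q))) : LaurentSeries E) =
          qExpand E M (x : LaurentSeries E))
    (Ξ G : haveI : NeZero q := ⟨(Fact.out : q.Prime).ne_zero⟩; (↥(ssvmmR 𝔸 E M q))[X])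
    (h : haveI : NeZero q := ⟨(Fact.out : q.Prime).ne_zero⟩
      SsvAmb (ssvmmR 𝔸 E M q) (ssvmgRUnif (ssvmm_le E M q) ϖ) (ssvmmY E M q) Ξ
        (X - C (ssvmmJ 𝔸 E M q ^ q)) (X ^ q - C (ssvmmJ 𝔸 E M q)) G) :
    haveI : NeZero q := ⟨(Fact.out : q.Prime).ne_zero⟩
    h.V₂ = (ssvmfW hϖ (modularFunctionFieldFullC E (M * (M * q))) (s18v_gen_full _)).comap σ := by
  have hq : q.Prime := Fact.out
  haveI : NeZero q := ⟨hq.ne_zero⟩
  haveI : CharP (ResidueField ↥(s18dVal 𝔸 E)) q := s18v_charP hϖ (s18d_natCast_mem 𝔸 E hA)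
  symm
  refine h.eq_V₂ _ ?_ ?_ ?_
  · -- `R ⊆ σ₀⁻¹(Gauss ring)`
    intro r
    obtain ⟨x₀, hx₀, hr⟩ := (mem_ssvmgR _ (ssvmm_le E M q)).mp r.2
    rw [ValuationSubring.mem_comap, ← hr]
    obtain ⟨h', -⟩ := ssvmf_qExpand_mem (M * q) (modularFunctionFieldFullC E M)
      (modularFunctionFieldFullC E (M * (M * q))) (ssvmf_map_big E M q) x₀ hx₀
    have e : σ (IntermediateField.inclusion (ssvmm_le E M q) x₀) =
        ⟨qExpand E (M * q) (x₀ : LaurentSeries E), ssvmf_map_big E M q x₀ x₀.2⟩ :=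
      Subtype.ext (hσα x₀)
    rw [e]
    exact h'
  · -- `ϖ` is a non-unit
    rw [ssvmgRUnif_coe, ssvmf_nonunits_comap_iff]
    have e : σ (algebraMap ↥(s18dVal 𝔸 E) ↥(modularFunctionFieldFullC E (M * q)) ϖ) =
        algebraMap ↥(s18dVal 𝔸 E) ↥(modularFunctionFieldFullC E (M * (M * q))) ϖ := by
      have e1 : algebraMap ↥(s18dVal 𝔸 E) ↥(modularFunctionFieldFullC E (M * q)) ϖ =
          ssvmdIncl E M q (algebraMap ↥(s18dVal 𝔸 E) ↥(modularFunctionFieldFullC E M) ϖ) := by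
        apply Subtype.ext
        rw [ssvmdIncl_coe, s18v_coe_algebraMap, s18v_coe_algebraMap]
      apply Subtype.ext
      rw [e1, hσα, s18v_coe_algebraMap, s18v_coe_algebraMap, algebraMap_laurentSeries_eq_single,
        qExpand_single, mul_zero]
    rw [e]
    refine ⟨s18vg_algebraMap_mem _ ϖ, ?_⟩
    rw [ssvmf_red_eq_zero_iff hϖ]
    exact ⟨1, Subring.one_mem _, by rw [mul_one]⟩
  · -- `y^q - j` is a non-unit
    rw [ssvmf_nonunits_comap_iff]
    -- the two elements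
    have hjO : ssvmdJ E M ∈ s18vO ↥(s18dVal 𝔸 E) (modularFunctionFieldFullC E M) :=
      ⟨jqModC ↥(s18dVal 𝔸 E), 1, ssvmm_incl_jqModC_mem 𝔸 E M, by rw [map_one]; exact one_mem _,
        by rw [map_one]; exact one_ne_zero, by
          rw [map_one, mul_one, coeffMap_jqModC]
          rfl⟩
    have hjred : s18vcRed (modularFunctionFieldFullC E M) ⟨ssvmdJ E M, hjO⟩ =
        jqModC (ResidueField ↥(s18dVal 𝔸 E)) := by
      rw [s18vcRed_incl _ _ (jqModC ↥(s18dVal 𝔸 E)) (by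
        rw [coeffMap_jqModC]
        rfl), coeffMap_jqModC]
    obtain ⟨h₁, hr₁⟩ := ssvmf_qExpand_mem M (modularFunctionFieldFullC E M)
      (modularFunctionFieldFullC E (M * (M * q))) (ssvmf_map_small E M q) (ssvmdJ E M) hjO
    obtain ⟨h₂, hr₂⟩ := ssvmf_qExpand_mem (M * q) (modularFunctionFieldFullC E M)
      (modularFunctionFieldFullC E (M * (M * q))) (ssvmf_map_big E M q) (ssvmdJ E M) hjO
    have ey : σ (ssvmmY E M q) = ⟨qExpand E M ((ssvmdJ E M : modularFunctionFieldFullC E M) :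
        LaurentSeries E), ssvmf_map_small E M q _ (ssvmdJ E M).2⟩ := by
      have e1 : ssvmmY E M q = ssvmfPhi E M q (ssvmdJ E M) := Subtype.ext rfl
      rw [e1]
      exact Subtype.ext (hσβ _)
    have ej : σ (ssvmdJ E (M * q)) = ⟨qExpand E (M * q)
        ((ssvmdJ E M : modularFunctionFieldFullC E M) : LaurentSeries E),
        ssvmf_map_big E M q _ (ssvmdJ E M).2⟩ := by
      have e1 : ssvmdJ E (M * q) = ssvmdIncl E M q (ssvmdJ E M) :=
        (Subtype.ext (ssvmdIncl_coe E M q (ssvmdJ E M))).symm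
      rw [e1]
      exact Subtype.ext (hσα _)
    have eF : aeval (ssvmmY E M q) (X ^ q - C (ssvmmJ 𝔸 E M q) : (↥(ssvmmR 𝔸 E M q))[X]) =
        ssvmmY E M q ^ q - ssvmdJ E (M * q) := by
      rw [map_sub, map_pow, aeval_X, aeval_C]
      congr 1
      exact ssvmmJ_coe 𝔸 E M q
    rw [eF, map_sub, map_pow, ey, ej]
    refine ⟨Subring.sub_mem _ (Subring.pow_mem _ h₁ q) h₂, ?_⟩
    have e2 : (⟨_, Subring.sub_mem _ (Subring.pow_mem _ h₁ q) h₂⟩ :
        ↥(s18vO ↥(s18dVal 𝔸 E) (modularFunctionFieldFullC E (M * (M * q))))) =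
        ⟨_, h₁⟩ ^ q - ⟨_, h₂⟩ := rfl
    rw [e2, map_sub, map_pow, hr₁, hr₂, hjred, ← map_pow,
      gcjf_pow_char (ResidueField ↥(s18dVal 𝔸 E)) q, coeffMap_jqModC, qExpand_qExpand, sub_self]


/-! ### Exports (free of `σ₀`) -/

/-- membership in `V₂` via `σ₀` -/
theorem ssvmf_mem₂_iff (hA : 𝔸.LiesOverPrime q) (hqM : ¬ q ∣ M) {ϖ : ↥(s18dVal 𝔸 E)}
    (hϖ : Irreducible ϖ)
    (σ : haveI : NeZero q := ⟨(Fact.out : q.Prime).ne_zero⟩
      modularFunctionFieldFullC E (M * q) →+* modularFunctionFieldFullC E (M * (M * q)))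
    (hσα : haveI : NeZero q := ⟨(Fact.out : q.Prime).ne_zero⟩
      ∀ x : modularFunctionFieldFullC E M,
        ((σ (ssvmdIncl E M q x) : modularFunctionFieldFullC E (M * (M * q))) : LaurentSeries E) =
          qExpand E (M * q) (x : LaurentSeries E))
    (hσβ : haveI : NeZero q := ⟨(Fact.out : q.Prime).ne_zero⟩
      ∀ x : modularFunctionFieldFullC E M,
        ((σ (ssvmfPhi E M q x) : modularFunctionFieldFullC E (M * (M * q))) : LaurentSeries E) =
          qExpand E M (x : LaurentSeries E))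
    (Ξ G : haveI : NeZero q := ⟨(Fact.out : q.Prime).ne_zero⟩; (↥(ssvmmR 𝔸 E M q))[X])
    (h : haveI : NeZero q := ⟨(Fact.out : q.Prime).ne_zero⟩
      SsvAmb (ssvmmR 𝔸 E M q) (ssvmgRUnif (ssvmm_le E M q) ϖ) (ssvmmY E M q) Ξ
        (X - C (ssvmmJ 𝔸 E M q ^ q)) (X ^ q - C (ssvmmJ 𝔸 E M q)) G)
    (x : haveI : NeZero q := ⟨(Fact.out : q.Prime).ne_zero⟩
      modularFunctionFieldFullC E (M * q)) :
    haveI : NeZero q := ⟨(Fact.out : q.Prime).ne_zero⟩
    (x ∈ h.V₂ ↔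
      σ x ∈ s18vO ↥(s18dVal 𝔸 E) (modularFunctionFieldFullC E (M * (M * q)))) ∧
    (x ∈ h.V₂.nonunits ↔
      ∃ hx : σ x ∈ s18vO ↥(s18dVal 𝔸 E) (modularFunctionFieldFullC E (M * (M * q))),
        s18vcRed (modularFunctionFieldFullC E (M * (M * q))) ⟨σ x, hx⟩ = 0) := by
  have hq : q.Prime := Fact.out
  haveI : NeZero q := ⟨hq.ne_zero⟩
  rw [ssvmf_V₂_eq 𝔸 E M hA hqM hϖ σ hσα hσβ Ξ G h]
  exact ⟨Iff.rfl, ssvmf_nonunits_comap_iff hϖ _ _ σ x⟩

/-- (G-e)(a) : `φ` maps the Gauss ring of `F_E(M)` into `V₂` -/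
theorem ssvmf_phi_mem₂ (hA : 𝔸.LiesOverPrime q) (hqM : ¬ q ∣ M) {ϖ : ↥(s18dVal 𝔸 E)}
    (hϖ : Irreducible ϖ)
    (Ξ G : haveI : NeZero q := ⟨(Fact.out : q.Prime).ne_zero⟩; (↥(ssvmmR 𝔸 E M q))[X])
    (h : haveI : NeZero q := ⟨(Fact.out : q.Prime).ne_zero⟩
      SsvAmb (ssvmmR 𝔸 E M q) (ssvmgRUnif (ssvmm_le E M q) ϖ) (ssvmmY E M q) Ξ
        (X - C (ssvmmJ 𝔸 E M q ^ q)) (X ^ q - C (ssvmmJ 𝔸 E M q)) G)
    (g : modularFunctionFieldFullC E M)
    (hg : g ∈ s18vO ↥(s18dVal 𝔸 E) (modularFunctionFieldFullC E M)) :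
    haveI : NeZero q := ⟨(Fact.out : q.Prime).ne_zero⟩
    ssvmfPhi E M q g ∈ h.V₂ := by
  have hq : q.Prime := Fact.out
  haveI : NeZero q := ⟨hq.ne_zero⟩
  obtain ⟨σ, hσα, hσβ⟩ := ssvmf_exists_sigma E M hqM
  rw [(ssvmf_mem₂_iff 𝔸 E M hA hqM hϖ σ hσα hσβ Ξ G h _).1]
  obtain ⟨h', -⟩ := ssvmf_qExpand_mem M (modularFunctionFieldFullC E M)
    (modularFunctionFieldFullC E (M * (M * q))) (ssvmf_map_small E M q) g hg
  have e : σ (ssvmfPhi E M q g) =
      ⟨qExpand E M (g : LaurentSeries E), ssvmf_map_small E M q g g.2⟩ :=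
    Subtype.ext (hσβ g)
  rw [e]
  exact h'

/-- the inclusion maps the Gauss ring of `F_E(M)` into `V₂` -/
theorem ssvmf_incl_mem₂ (hA : 𝔸.LiesOverPrime q) (hqM : ¬ q ∣ M) {ϖ : ↥(s18dVal 𝔸 E)}
    (hϖ : Irreducible ϖ)
    (Ξ G : haveI : NeZero q := ⟨(Fact.out : q.Prime).ne_zero⟩; (↥(ssvmmR 𝔸 E M q))[X])
    (h : haveI : NeZero q := ⟨(Fact.out : q.Prime).ne_zero⟩
      SsvAmb (ssvmmR 𝔸 E M q) (ssvmgRUnif (ssvmm_le E M q) ϖ) (ssvmmY E M q) Ξ
        (X - C (ssvmmJ 𝔸 E M q ^ q)) (X ^ q - C (ssvmmJ 𝔸 E M q)) G)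
    (g : modularFunctionFieldFullC E M)
    (hg : g ∈ s18vO ↥(s18dVal 𝔸 E) (modularFunctionFieldFullC E M)) :
    haveI : NeZero q := ⟨(Fact.out : q.Prime).ne_zero⟩
    ssvmdIncl E M q g ∈ h.V₂ := by
  have hq : q.Prime := Fact.out
  haveI : NeZero q := ⟨hq.ne_zero⟩
  obtain ⟨σ, hσα, hσβ⟩ := ssvmf_exists_sigma E M hqM
  rw [(ssvmf_mem₂_iff 𝔸 E M hA hqM hϖ σ hσα hσβ Ξ G h _).1]
  obtain ⟨h', -⟩ := ssvmf_qExpand_mem (M * q) (modularFunctionFieldFullC E M)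
    (modularFunctionFieldFullC E (M * (M * q))) (ssvmf_map_big E M q) g hg
  have e : σ (ssvmdIncl E M q g) =
      ⟨qExpand E (M * q) (g : LaurentSeries E), ssvmf_map_big E M q g g.2⟩ :=
    Subtype.ext (hσα g)
  rw [e]
  exact h'

set_option maxHeartbeats 2000000 in
/-- (G-e)(b) : `φ g ∈ 𝔪_{V₂} ↔ ϖ ∣ g` for `g` in the Gauss ring of `F_E(M)` -/
theorem ssvmf_phi_nonunit_iff (hA : 𝔸.LiesOverPrime q) (hqM : ¬ q ∣ M) {ϖ : ↥(s18dVal 𝔸 E)}
    (hϖ : Irreducible ϖ)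
    (Ξ G : haveI : NeZero q := ⟨(Fact.out : q.Prime).ne_zero⟩; (↥(ssvmmR 𝔸 E M q))[X])
    (h : haveI : NeZero q := ⟨(Fact.out : q.Prime).ne_zero⟩
      SsvAmb (ssvmmR 𝔸 E M q) (ssvmgRUnif (ssvmm_le E M q) ϖ) (ssvmmY E M q) Ξ
        (X - C (ssvmmJ 𝔸 E M q ^ q)) (X ^ q - C (ssvmmJ 𝔸 E M q)) G)
    (g : modularFunctionFieldFullC E M)
    (hg : g ∈ s18vO ↥(s18dVal 𝔸 E) (modularFunctionFieldFullC E M)) :
    haveI : NeZero q := ⟨(Fact.out : q.Prime).ne_zero⟩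
    ssvmfPhi E M q g ∈ h.V₂.nonunits ↔
      ∃ z ∈ s18vO ↥(s18dVal 𝔸 E) (modularFunctionFieldFullC E M),
        g = algebraMap ↥(s18dVal 𝔸 E) ↥(modularFunctionFieldFullC E M) ϖ * z := by
  have hq : q.Prime := Fact.out
  haveI : NeZero q := ⟨hq.ne_zero⟩
  obtain ⟨σ, hσα, hσβ⟩ := ssvmf_exists_sigma E M hqM
  rw [(ssvmf_mem₂_iff 𝔸 E M hA hqM hϖ σ hσα hσβ Ξ G h _).2]
  obtain ⟨h', hr⟩ := ssvmf_qExpand_mem M (modularFunctionFieldFullC E M)
    (modularFunctionFieldFullC E (M * (M * q))) (ssvmf_map_small E M q) g hg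
  have e : σ (ssvmfPhi E M q g) =
      ⟨qExpand E M (g : LaurentSeries E), ssvmf_map_small E M q g g.2⟩ :=
    Subtype.ext (hσβ g)
  rw [e, ← ssvmf_red_eq_zero_iff hϖ (modularFunctionFieldFullC E M) ⟨g, hg⟩]
  constructor
  · rintro ⟨hx, h0⟩
    have h0' : s18vcRed (modularFunctionFieldFullC E (M * (M * q))) ⟨_, h'⟩ = 0 := h0
    rw [hr] at h0'
    exact qExpand_injective M (by rw [h0', map_zero])
  · intro hz
    refine ⟨h', ?_⟩
    rw [hr, hz, map_zero]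

set_option maxHeartbeats 2000000 in
/-- `incl g ∈ 𝔪_{V₂} ↔ ϖ ∣ g` for `g` in the Gauss ring of `F_E(M)` -/
theorem ssvmf_incl_nonunit_iff (hA : 𝔸.LiesOverPrime q) (hqM : ¬ q ∣ M) {ϖ : ↥(s18dVal 𝔸 E)}
    (hϖ : Irreducible ϖ)
    (Ξ G : haveI : NeZero q := ⟨(Fact.out : q.Prime).ne_zero⟩; (↥(ssvmmR 𝔸 E M q))[X])
    (h : haveI : NeZero q := ⟨(Fact.out : q.Prime).ne_zero⟩
      SsvAmb (ssvmmR 𝔸 E M q) (ssvmgRUnif (ssvmm_le E M q) ϖ) (ssvmmY E M q) Ξ
        (X - C (ssvmmJ 𝔸 E M q ^ q)) (X ^ q - C (ssvmmJ 𝔸 E M q)) G)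
    (g : modularFunctionFieldFullC E M)
    (hg : g ∈ s18vO ↥(s18dVal 𝔸 E) (modularFunctionFieldFullC E M)) :
    haveI : NeZero q := ⟨(Fact.out : q.Prime).ne_zero⟩
    ssvmdIncl E M q g ∈ h.V₂.nonunits ↔
      ∃ z ∈ s18vO ↥(s18dVal 𝔸 E) (modularFunctionFieldFullC E M),
        g = algebraMap ↥(s18dVal 𝔸 E) ↥(modularFunctionFieldFullC E M) ϖ * z := by
  have hq : q.Prime := Fact.out
  haveI : NeZero q := ⟨hq.ne_zero⟩
  obtain ⟨σ, hσα, hσβ⟩ := ssvmf_exists_sigma E M hqM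
  rw [(ssvmf_mem₂_iff 𝔸 E M hA hqM hϖ σ hσα hσβ Ξ G h _).2]
  obtain ⟨h', hr⟩ := ssvmf_qExpand_mem (M * q) (modularFunctionFieldFullC E M)
    (modularFunctionFieldFullC E (M * (M * q))) (ssvmf_map_big E M q) g hg
  have e : σ (ssvmdIncl E M q g) =
      ⟨qExpand E (M * q) (g : LaurentSeries E), ssvmf_map_big E M q g g.2⟩ :=
    Subtype.ext (hσα g)
  rw [e, ← ssvmf_red_eq_zero_iff hϖ (modularFunctionFieldFullC E M) ⟨g, hg⟩]
  constructor
  · rintro ⟨hx, h0⟩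
    have h0' : s18vcRed (modularFunctionFieldFullC E (M * (M * q))) ⟨_, h'⟩ = 0 := h0
    rw [hr] at h0'
    exact qExpand_injective (M * q) (by rw [h0', map_zero])
  · intro hz
    refine ⟨h', ?_⟩
    rw [hr, hz, map_zero]

set_option maxHeartbeats 2000000 in
/-- (G-e)(c) : **the Frobenius congruence on `V₂`** : if `Fr(ḡ') = ḡ` then
`φ(g')^q ≡ g mod 𝔪_{V₂}`. -/
theorem ssvmf_frob₂ [CharP (ResidueField ↥(s18dVal 𝔸 E)) q] (hA : 𝔸.LiesOverPrime q)
    (hqM : ¬ q ∣ M) {ϖ : ↥(s18dVal 𝔸 E)} (hϖ : Irreducible ϖ)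
    (Ξ G : haveI : NeZero q := ⟨(Fact.out : q.Prime).ne_zero⟩; (↥(ssvmmR 𝔸 E M q))[X])
    (h : haveI : NeZero q := ⟨(Fact.out : q.Prime).ne_zero⟩
      SsvAmb (ssvmmR 𝔸 E M q) (ssvmgRUnif (ssvmm_le E M q) ϖ) (ssvmmY E M q) Ξ
        (X - C (ssvmmJ 𝔸 E M q ^ q)) (X ^ q - C (ssvmmJ 𝔸 E M q)) G)
    (g g' : modularFunctionFieldFullC E M)
    (hg : g ∈ s18vO ↥(s18dVal 𝔸 E) (modularFunctionFieldFullC E M))
    (hg' : g' ∈ s18vO ↥(s18dVal 𝔸 E) (modularFunctionFieldFullC E M))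
    (hfr : coeffMap (frobenius (ResidueField ↥(s18dVal 𝔸 E)) q)
        (s18vcRed (modularFunctionFieldFullC E M) ⟨g', hg'⟩) =
      s18vcRed (modularFunctionFieldFullC E M) ⟨g, hg⟩) :
    haveI : NeZero q := ⟨(Fact.out : q.Prime).ne_zero⟩
    ssvmfPhi E M q g' ^ q - ssvmdIncl E M q g ∈ h.V₂.nonunits := by
  have hq : q.Prime := Fact.out
  haveI : NeZero q := ⟨hq.ne_zero⟩
  obtain ⟨σ, hσα, hσβ⟩ := ssvmf_exists_sigma E M hqM
  rw [(ssvmf_mem₂_iff 𝔸 E M hA hqM hϖ σ hσα hσβ Ξ G h _).2]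
  obtain ⟨h₁, hr₁⟩ := ssvmf_qExpand_mem M (modularFunctionFieldFullC E M)
    (modularFunctionFieldFullC E (M * (M * q))) (ssvmf_map_small E M q) g' hg'
  obtain ⟨h₂, hr₂⟩ := ssvmf_qExpand_mem (M * q) (modularFunctionFieldFullC E M)
    (modularFunctionFieldFullC E (M * (M * q))) (ssvmf_map_big E M q) g hg
  have e1 : σ (ssvmfPhi E M q g') =
      ⟨qExpand E M (g' : LaurentSeries E), ssvmf_map_small E M q g' g'.2⟩ :=
    Subtype.ext (hσβ g')
  have e2 : σ (ssvmdIncl E M q g) =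
      ⟨qExpand E (M * q) (g : LaurentSeries E), ssvmf_map_big E M q g g.2⟩ :=
    Subtype.ext (hσα g)
  rw [map_sub, map_pow, e1, e2]
  refine ⟨Subring.sub_mem _ (Subring.pow_mem _ h₁ q) h₂, ?_⟩
  have e3 : (⟨_, Subring.sub_mem _ (Subring.pow_mem _ h₁ q) h₂⟩ :
      ↥(s18vO ↥(s18dVal 𝔸 E) (modularFunctionFieldFullC E (M * (M * q))))) =
      ⟨_, h₁⟩ ^ q - ⟨_, h₂⟩ := rfl
  rw [e3, map_sub, map_pow, hr₁, hr₂, ← hfr, ← map_pow,
    gcjf_pow_char (ResidueField ↥(s18dVal 𝔸 E)) q, qExpand_qExpand, sub_self]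

end Pullback

end Fermat.Agent.SS
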