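import Mathlib
import Fermat.Agent.SS.Val.ModMain

/-!
# Program S (S34), row SS-VAL / GERM leaf L7-DEG : THE MODULAR POLYNOMIAL `Φ_q(X, Y) ∈ A₀[X][Y]`

`E ⊂ ℚ̄` a number field, `𝔸` a valuation subring of `ℚ̄` above the prime `q`, `A₀ = 𝔸 ∩ E`.
The minimal polynomial of `y = j(q^q)` over `F_E(M)` (`q ∤ M`) is `Φ(j, Y)` for ONE polynomial
`Φ ∈ A₀[X][Y]` (independent of `M`), monic of degree `q + 1` in `Y`, every coefficient of degree
`≤ q + 1` in `X`, and `Φ ≡ (Y - X^q)(Y^q - X)` modulo the maximal ideal (Kronecker).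

* section `Abs` : `aeval j` on polynomials versus `q`-expansions (leading coefficient, degree bound
  from the pole order, descent of the coefficient ring), pole orders of the coefficients of
  `∏ (Y - r_k)`;
* `ssvmc_exists_bar` : the modular equation over `ℚ̄` (S24 : orbit polynomial + `SL₂(ℤ)`-invariant
  holomorphic functions are polynomials in `j`);
* `ssvmc_modular` : THE STATEMENT (existence of `Φ`, all levels `M` prime to `q` at once);
* `ssvmc_kron_top` : the coefficients of `X^(q+1)` in the `Φ_i` modulo the maximal ideal;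
* `ssvmc_root_field`, `ssvmc_y_mem_int` : `Φ(j, j(q^q)) = 0` in `F_E(N)` and `j(q^q)` is integral over
  `A₀[j]` inside `F_E(N)`, for every `N` divisible by `q`;
* `ssvmc_lead_zero`, `ssvmc_lead_q` : `deg Φ₀ = q + 1`, `deg Φ_q = q`, unit leading coefficients;
* `ssvmc_level` : all of it at the level `N = M q` (`y = ssvmmY E M q`), ready for use;
  `ssvmc_level_rel` : the same as a relation `Σ p_i(j) y^i = 0` (input of L8 `ssgc_sep_mem`).
-/

set_option autoImplicit false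
set_option linter.unusedSectionVars false
set_option linter.unusedVariables false
set_option linter.style.haveILetI false
set_option synthInstance.maxHeartbeats 400000

noncomputable section

namespace Fermat.Agent.SS

open Polynomial ModularCurve AlgebraicCurve IsLocalRing IntermediateField Fermat.Agent.S24
  Fermat.Agent.G Fermat.Agent.S18

local notation "Qb" => AlgebraicClosure ℚ

/-! ### `aeval j` and `q`-expansions -/

section Abs

variable (K : Type*) [CommRing K]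

/-- constants in `K((q))` -/
theorem ssvmc_algebraMap (c : K) :
    algebraMap K (LaurentSeries K) c = HahnSeries.single 0 c := by
  have h1 : algebraMap K (PowerSeries K) c = PowerSeries.C c := by simp
  rw [HahnSeries.algebraMap_apply', h1, HahnSeries.ofPowerSeries_C]
  rfl

theorem ssvmc_coeff_smul (c : K) (x : LaurentSeries K) (m : ℤ) :
    (algebraMap K (LaurentSeries K) c * x).coeff m = c * x.coeff m := by
  rw [ssvmc_algebraMap, HahnSeries.coeff_single_zero_mul]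

theorem ssvmc_coeffMap_algebraMap {K' : Type*} [CommRing K'] (f : K →+* K') (c : K) :
    coeffMap f (algebraMap K (LaurentSeries K) c) = algebraMap K' (LaurentSeries K') (f c) := by
  rw [ssvmc_algebraMap, ssvmc_algebraMap, coeffMap_single]

/-- the coefficient of `q^(-n)` of `p(j)` for `deg p ≤ n` -/
theorem ssvmc_coeff_aeval (p : K[X]) (n : ℕ) (hn : p.natDegree ≤ n) :
    (aeval (jqModC K) p).coeff (-(n : ℤ)) = p.coeff n := by
  rw [aeval_def, eval₂_eq_sum_range' _ (Nat.lt_succ_of_le hn), HahnSeries.coeff_sum,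
    Finset.sum_eq_single n]
  · rw [ssvmc_coeff_smul, coeff_jqModC_pow_self, mul_one]
  · intro k hk hkn
    have hk' : k < n := lt_of_le_of_ne (Nat.lt_succ_iff.mp (Finset.mem_range.mp hk)) hkn
    rw [ssvmc_coeff_smul, coeff_jqModC_pow_of_lt K (b := k) (by omega), mul_zero]
  · intro h
    exact absurd (Finset.mem_range.mpr (Nat.lt_succ_self n)) h

/-- `p(j)` has no terms below `q^(-deg p)` -/
theorem ssvmc_coeff_aeval_of_lt (p : K[X]) (m : ℤ) (hm : m < -(p.natDegree : ℤ)) :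
    (aeval (jqModC K) p).coeff m = 0 := by
  rw [aeval_def, eval₂_eq_sum_range, HahnSeries.coeff_sum]
  refine Finset.sum_eq_zero fun k hk => ?_
  have hk' : k ≤ p.natDegree := Nat.lt_succ_iff.mp (Finset.mem_range.mp hk)
  rw [ssvmc_coeff_smul, coeff_jqModC_pow_of_lt K (b := k) (by omega), mul_zero]

/-- `aeval j` is injective -/
theorem ssvmc_aeval_injective : Function.Injective (aeval (jqModC K) : K[X] → LaurentSeries K) := by
  rw [injective_iff_map_eq_zero]
  intro p hp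
  have h := ssvmc_coeff_aeval K p p.natDegree le_rfl
  rw [hp, HahnSeries.coeff_zero] at h
  exact leadingCoeff_eq_zero.mp h.symm

/-- the degree of `p` from the pole order of `p(j)` -/
theorem ssvmc_natDegree_le (p : K[X]) (B : ℕ)
    (h : ∀ m : ℤ, m < -(B : ℤ) → (aeval (jqModC K) p).coeff m = 0) : p.natDegree ≤ B := by
  by_contra hlt
  push Not at hlt
  have h1 := ssvmc_coeff_aeval K p p.natDegree le_rfl
  rw [h (-(p.natDegree : ℤ)) (by omega)] at h1
  have hp0 : p = 0 := leadingCoeff_eq_zero.mp h1.symm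
  rw [hp0, natDegree_zero] at hlt
  omega

/-- naturality of `aeval j` in the coefficient ring -/
theorem ssvmc_coeffMap_aeval {K' : Type*} [CommRing K'] (f : K →+* K') (p : K[X]) :
    coeffMap f (aeval (jqModC K) p) = aeval (jqModC K') (p.map f) := by
  have h : (coeffMap f).comp (aeval (jqModC K) : K[X] →ₐ[K] LaurentSeries K).toRingHom =
      ((aeval (jqModC K') : K'[X] →ₐ[K'] LaurentSeries K').toRingHom).comp (mapRingHom f) := by
    apply Polynomial.ringHom_ext
    · intro c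
      simp only [RingHom.coe_comp, AlgHom.toRingHom_eq_coe, RingHom.coe_coe, Function.comp_apply,
        aeval_C, coe_mapRingHom, map_C, ssvmc_coeffMap_algebraMap]
    · simp only [RingHom.coe_comp, AlgHom.toRingHom_eq_coe, RingHom.coe_coe, Function.comp_apply,
        aeval_X, coe_mapRingHom, map_X, coeffMap_jqModC]
  exact RingHom.congr_fun h p

/-- descent of the coefficient ring : if all coefficients of `p(j)` come from `R`, so does `p` -/
theorem ssvmc_lifts {R : Type*} [CommRing R] (f : R →+* K) :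
    ∀ (n : ℕ) (p : K[X]), p.natDegree ≤ n →
      (∀ m : ℤ, (aeval (jqModC K) p).coeff m ∈ f.range) → p ∈ lifts f := by
  intro n
  induction n with
  | zero =>
    intro p hp h
    obtain ⟨a, ha⟩ := h (-((0 : ℕ) : ℤ))
    rw [ssvmc_coeff_aeval K p 0 hp] at ha
    rw [eq_C_of_natDegree_le_zero hp, ← ha]
    exact ⟨C a, map_C f⟩
  | succ n ih =>
    intro p hp h
    obtain ⟨a, ha⟩ := h (-((n + 1 : ℕ) : ℤ))
    rw [ssvmc_coeff_aeval K p (n + 1) hp] at ha
    set p' : K[X] := p - C (p.coeff (n + 1)) * X ^ (n + 1) with hp'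
    have hdeg : p'.natDegree ≤ n := by
      rw [natDegree_le_iff_coeff_eq_zero]
      intro k hk
      rw [hp', coeff_sub, coeff_C_mul, coeff_X_pow]
      rcases Nat.lt_or_ge (n + 1) k with hk1 | hk1
      · rw [if_neg (by omega), mul_zero, sub_zero]
        exact coeff_eq_zero_of_natDegree_lt (lt_of_le_of_lt hp hk1)
      · have : k = n + 1 := by omega
        rw [if_pos this, mul_one, this, sub_self]
    have hmem : ∀ m : ℤ, (aeval (jqModC K) p').coeff m ∈ f.range := by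
      intro m
      rw [hp', map_sub, map_mul, aeval_C, map_pow, aeval_X, HahnSeries.coeff_sub]
      refine sub_mem (h m) ?_
      have h1 : jqModC K ^ (n + 1) = coeffMap f (jqModC R ^ (n + 1)) := by
        rw [map_pow, coeffMap_jqModC]
      rw [h1, ← ha, ← ssvmc_coeffMap_algebraMap, ← map_mul, coeffMap_coeff]
      exact ⟨_, rfl⟩
    have h2 : p = p' + C (p.coeff (n + 1)) * X ^ (n + 1) := by rw [hp']; ring
    rw [h2]
    refine Subsemiring.add_mem _ (ih p' hdeg hmem) ?_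
    rw [← ha]
    exact ⟨C a * X ^ (n + 1), by
      rw [coe_mapRingHom, Polynomial.map_mul, map_C, Polynomial.map_pow, map_X]⟩

/-- `f` has no terms below `q^B` -/
def SsvmcBdd (B : ℤ) (f : LaurentSeries K) : Prop := ∀ m : ℤ, m < B → f.coeff m = 0

variable {K}

theorem SsvmcBdd.mono {B B' : ℤ} {f : LaurentSeries K} (h : SsvmcBdd K B f) (hB : B' ≤ B) :
    SsvmcBdd K B' f := fun m hm => h m (lt_of_lt_of_le hm hB)

theorem SsvmcBdd.sub {B : ℤ} {f g : LaurentSeries K} (hf : SsvmcBdd K B f) (hg : SsvmcBdd K B g) :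
    SsvmcBdd K B (f - g) := fun m hm => by
  rw [HahnSeries.coeff_sub, hf m hm, hg m hm, sub_zero]

theorem ssvmcBdd_zero (B : ℤ) : SsvmcBdd K B 0 := fun m _ => HahnSeries.coeff_zero

theorem ssvmcBdd_one : SsvmcBdd K 0 1 := fun m hm => by
  rw [HahnSeries.coeff_one, if_neg hm.ne]

theorem SsvmcBdd.mul {B B' : ℤ} {f g : LaurentSeries K} (hf : SsvmcBdd K B f)
    (hg : SsvmcBdd K B' g) : SsvmcBdd K (B + B') (f * g) := fun m hm => by
  rw [HahnSeries.coeff_mul]
  refine Finset.sum_eq_zero fun ij hij => ?_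
  rw [Finset.mem_antidiagonal] at hij
  obtain ⟨-, -, hsum⟩ := hij
  rcases lt_or_ge ij.1 B with h1 | h1
  · rw [hf _ h1, zero_mul]
  · rw [hg ij.2 (by omega), mul_zero]

/-- the step : coefficients of `(Y - r) Q` -/
theorem ssvmc_bdd_step {n B : ℕ} {r : LaurentSeries K} {Q : (LaurentSeries K)[X]}
    (hr : SsvmcBdd K (-(n : ℤ)) r) (hQ : ∀ i, SsvmcBdd K (-(B : ℤ)) (Q.coeff i)) (i : ℕ) :
    SsvmcBdd K (-((n + B : ℕ) : ℤ)) (((X - C r) * Q).coeff i) := by
  have e : -((n + B : ℕ) : ℤ) = -(n : ℤ) + -(B : ℤ) := by push_cast; ring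
  rw [sub_mul, coeff_sub, coeff_C_mul]
  refine SsvmcBdd.sub ?_ (e ▸ hr.mul (hQ i))
  cases i with
  | zero => rw [coeff_X_mul_zero]; exact ssvmcBdd_zero _
  | succ i => rw [coeff_X_mul]; exact (hQ i).mono (by push_cast; omega)

/-- pole orders of the coefficients of `∏ (Y - r_k)` -/
theorem ssvmc_bdd_prod {ι : Type*} (S : Finset ι) (r : ι → LaurentSeries K) (n : ι → ℕ)
    (hr : ∀ k ∈ S, SsvmcBdd K (-(n k : ℤ)) (r k)) (i : ℕ) :
    SsvmcBdd K (-((∑ k ∈ S, n k : ℕ) : ℤ)) ((∏ k ∈ S, (X - C (r k))).coeff i) := by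
  classical
  induction S using Finset.induction_on generalizing i with
  | empty =>
    rw [Finset.prod_empty, Finset.sum_empty, coeff_one]
    split_ifs
    · exact ssvmcBdd_one
    · exact ssvmcBdd_zero _
  | insert a S ha ih =>
    rw [Finset.prod_insert ha, Finset.sum_insert ha]
    exact ssvmc_bdd_step (hr a (Finset.mem_insert_self a S))
      (fun i => ih (fun k hk => hr k (Finset.mem_insert_of_mem hk)) i) i

/-- pole orders of the coefficients of `∏ (Y - r_k)` for a uniform bound, counting the factors -/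
theorem ssvmc_bdd_prod_card {ι : Type*} (S : Finset ι) (r : ι → LaurentSeries K) (n₀ : ℕ)
    (hr : ∀ k ∈ S, SsvmcBdd K (-(n₀ : ℤ)) (r k)) (i : ℕ) :
    SsvmcBdd K (-(((S.card - i) * n₀ : ℕ) : ℤ)) ((∏ k ∈ S, (X - C (r k))).coeff i) := by
  classical
  induction S using Finset.induction_on generalizing i with
  | empty =>
    rw [Finset.prod_empty, Finset.card_empty, Nat.zero_sub, Nat.zero_mul, coeff_one]
    split_ifs
    · exact ssvmcBdd_one
    · exact ssvmcBdd_zero _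
  | insert a S ha ih =>
    have hr' : ∀ k ∈ S, SsvmcBdd K (-(n₀ : ℤ)) (r k) := fun k hk =>
      hr k (Finset.mem_insert_of_mem hk)
    have hra := hr a (Finset.mem_insert_self a S)
    rw [Finset.prod_insert ha, Finset.card_insert_of_notMem ha, sub_mul, coeff_sub, coeff_C_mul]
    have hdeg : (∏ k ∈ S, (X - C (r k))).natDegree ≤ S.card := by
      refine (natDegree_prod_le _ _).trans ?_
      refine (Finset.sum_le_card_nsmul _ _ 1 fun k _ => natDegree_X_sub_C_le _).trans ?_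
      rw [smul_eq_mul, mul_one]
    -- the second term
    have h2 : SsvmcBdd K (-(((S.card + 1 - i) * n₀ : ℕ) : ℤ))
        (r a * (∏ k ∈ S, (X - C (r k))).coeff i) := by
      rcases Nat.lt_or_ge S.card i with hlt | hge
      · rw [coeff_eq_zero_of_natDegree_lt (lt_of_le_of_lt hdeg hlt), mul_zero]
        exact ssvmcBdd_zero _
      · have e : -(((S.card + 1 - i) * n₀ : ℕ) : ℤ) =
            -(n₀ : ℤ) + -(((S.card - i) * n₀ : ℕ) : ℤ) := by
          have : S.card + 1 - i = (S.card - i) + 1 := by omega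
          rw [this]
          push_cast
          ring
        rw [e]
        exact hra.mul (ih hr' i)
    refine SsvmcBdd.sub ?_ h2
    cases i with
    | zero => rw [coeff_X_mul_zero]; exact ssvmcBdd_zero _
    | succ i =>
      rw [coeff_X_mul]
      have : S.card + 1 - (i + 1) = S.card - i := by omega
      rw [this]
      exact ih hr' i

/-- `f(q^n)` for `f` with at most a simple pole -/
theorem ssvmc_bdd_qExpand (n : ℕ) [NeZero n] {f : LaurentSeries K} (hf : SsvmcBdd K (-1) f) :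
    SsvmcBdd K (-(n : ℤ)) (qExpand K n f) := fun m hm => by
  by_cases hd : (n : ℤ) ∣ m
  · obtain ⟨m', rfl⟩ := hd
    rw [qExpand_coeff_mul]
    apply hf
    have hn : (0 : ℤ) < n := by exact_mod_cast Nat.pos_of_ne_zero (NeZero.ne n)
    nlinarith
  · exact qExpand_coeff_of_not_dvd n f hd

theorem ssvmc_bdd_jqModC (K : Type*) [CommRing K] : SsvmcBdd K (-1) (jqModC K) := fun m hm =>
  coeff_jqModC_of_lt K hm

theorem ssvmc_bdd_rot (ζ : Kˣ) {B : ℤ} {f : LaurentSeries K} (hf : SsvmcBdd K B f) :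
    SsvmcBdd K B (gcjfRot ζ f) := fun m hm => by
  rw [gcjfRot_coeff, hf m hm, mul_zero]

end Abs

/-! ### The modular equation over `ℚ̄` -/

section Bar

/-- `aeval j` as a ring homomorphism -/
abbrev ssvmcEv (K : Type*) [CommRing K] : K[X] →+* LaurentSeries K :=
  (aeval (jqModC K) : K[X] →ₐ[K] LaurentSeries K).toRingHom

theorem ssvmcEv_apply (K : Type*) [CommRing K] (p : K[X]) :
    ssvmcEv K p = aeval (jqModC K) p := rfl

theorem ssvmc_coeffEmb_jq : coeffEmb Qb jq = jqModC Qb := by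
  rw [← jqModC_rat]
  exact coeffMap_jqModC _

/-- **the modular equation over `ℚ̄`** (from S24) : `j(q^q)` is a root of a monic polynomial of
degree `q + 1` over `ℚ̄[j]`. -/
theorem ssvmc_exists_bar (q : ℕ) [Fact q.Prime] :
    haveI : NeZero q := ⟨(Fact.out : q.Prime).ne_zero⟩
    ∃ P : Qb[X][X], P.Monic ∧ P.natDegree = q + 1 ∧
      P.eval₂ (ssvmcEv Qb) (qExpand Qb q (jqModC Qb)) = 0 := by
  have hq : q.Prime := Fact.out
  haveI : NeZero q := ⟨hq.ne_zero⟩
  obtain ⟨P, hm, hd, h0⟩ := exists_monic_of_mem_RBar (N := q)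
    ⟨jdBar q q dvd_rfl, jdBar_mem_RBar q q dvd_rfl⟩
  refine ⟨P, hm, ?_, ?_⟩
  · have h1 := dedekindPsi_prime_pow hq (k := 1) one_pos
    simp only [pow_one, Nat.sub_self, pow_zero] at h1
    rw [hd, ← h1, ← index_Gamma0]
    rfl
  · have h1 := congrArg (gcjsVal q) h0
    rw [map_zero, Polynomial.hom_eval₂] at h1
    have h2 : (gcjsVal q).comp (aeval (R := Qb) (jBar q)).toRingHom = ssvmcEv Qb := by
      apply Polynomial.ringHom_ext
      · intro c
        simp only [RingHom.coe_comp, AlgHom.toRingHom_eq_coe, RingHom.coe_coe,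
          Function.comp_apply, aeval_C]
        rfl
      · simp only [RingHom.coe_comp, AlgHom.toRingHom_eq_coe, RingHom.coe_coe,
          Function.comp_apply, aeval_X]
        rw [gcjsVal_apply, coe_jBar, ssvmc_coeffEmb_jq]
    have h3 : gcjsVal q (jdBar q q dvd_rfl) = qExpand Qb q (jqModC Qb) := by
      rw [gcjsVal_apply, coe_jdBar, coeffEmb, coeffMap_qExpand, ← jqModC_rat, coeffMap_jqModC]
    rw [h2] at h1
    rw [← h3]
    exact h1

variable {q : ℕ} [Fact q.Prime] (M : ℕ) [NeZero M]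

/-- every monic `P ∈ ℚ̄[X][Y]` of degree `q + 1` with `P(j, j(q^q)) = 0` gives the minimal polynomial
of `β j` over `α F_ℚ̄(M)`, and its coefficients have poles of order `≤ q + 1`. -/
theorem ssvmc_bar (hqM : ¬ q ∣ M) (P : Qb[X][X]) (hPm : P.Monic) (hPd : P.natDegree = q + 1)
    (hP0 : haveI : NeZero q := ⟨(Fact.out : q.Prime).ne_zero⟩
      P.eval₂ (ssvmcEv Qb) (qExpand Qb q (jqModC Qb)) = 0) :
    haveI : NeZero q := ⟨(Fact.out : q.Prime).ne_zero⟩
    letI := algebraAlong (heckeAlphaBar Qb M q)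
    P.map (ssvmcEv Qb) =
        (minpoly (modularFunctionFieldBar M) (heckeBetaBar Qb M q (ssvmbJ M))).map (gcjsVal M) ∧
      (∀ i, SsvmcBdd Qb (-((q + 1 : ℕ) : ℤ)) (aeval (jqModC Qb) (P.coeff i))) ∧
      ∀ i, 1 ≤ i → SsvmcBdd Qb (-(q : ℤ)) (aeval (jqModC Qb) (P.coeff i)) := by
  have hq : q.Prime := Fact.out
  haveI : NeZero q := ⟨hq.ne_zero⟩
  letI algB := algebraAlong (heckeAlphaBar Qb M q)
  letI modB : Module (modularFunctionFieldBar M) (modularFunctionFieldBar (M * q)) :=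
    algB.toModule
  obtain ⟨ζ₀, hζ₀, hdeg, hmap⟩ := ssvmb_minpoly M hqM
  set m := minpoly (modularFunctionFieldBar M) (heckeBetaBar Qb M q (ssvmbJ M)) with hm
  -- evaluation in `F_ℚ̄(M)`
  set evM : Qb[X] →+* modularFunctionFieldBar M :=
    (aeval (R := Qb) (ssvmbJ M)).toRingHom with hevM
  have hev : (gcjsVal M).comp evM = ssvmcEv Qb := by
    apply Polynomial.ringHom_ext
    · intro c
      simp only [hevM, RingHom.coe_comp, AlgHom.toRingHom_eq_coe, RingHom.coe_coe,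
        Function.comp_apply, aeval_C]
      rfl
    · simp only [hevM, RingHom.coe_comp, AlgHom.toRingHom_eq_coe, RingHom.coe_coe,
        Function.comp_apply, aeval_X]
      rfl
  have hα : ∀ x : modularFunctionFieldBar M, gcjsVal (M * q) (algebraMap (modularFunctionFieldBar M)
      (modularFunctionFieldBar (M * q)) x) = gcjsVal M x := fun x => by
    rw [gcjsVal_apply, gcjsVal_apply]
    exact coe_heckeAlphaBar M q x
  have hβ : gcjsVal (M * q) (heckeBetaBar Qb M q (ssvmbJ M)) = qExpand Qb q (jqModC Qb) := by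
    rw [gcjsVal_apply, coe_heckeBetaBar, ssvmbJ_coe]
  have h2 : (gcjsVal (M * q)).comp ((algebraMap (modularFunctionFieldBar M)
      (modularFunctionFieldBar (M * q))).comp evM) = ssvmcEv Qb :=
    RingHom.ext fun p => by
      rw [RingHom.comp_apply, RingHom.comp_apply, hα, ← RingHom.comp_apply, hev]
  have hroot : aeval (heckeBetaBar Qb M q (ssvmbJ M)) (P.map evM) = 0 := by
    apply (gcjsVal (M * q)).injective
    rw [map_zero, aeval_def, eval₂_map, Polynomial.hom_eval₂, h2, hβ]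
    exact hP0
  have hdvd := minpoly.dvd (modularFunctionFieldBar M) _ hroot
  have hint : IsIntegral (modularFunctionFieldBar M) (heckeBetaBar Qb M q (ssvmbJ M)) := by
    by_contra hni
    rw [hm, minpoly.eq_zero hni, natDegree_zero] at hdeg
    omega
  have heq : P.map evM = m :=
    eq_of_monic_of_dvd_of_natDegree_le (minpoly.monic hint) (hPm.map evM) hdvd
      (by rw [hPm.natDegree_map, hPd, hdeg])
  have hPmap : P.map (ssvmcEv Qb) = m.map (gcjsVal M) := by
    rw [← heq, Polynomial.map_map, hev]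
  -- the coefficient after `q ↦ q^(M q)`
  have h1 : ∀ i, qExpand Qb (M * q) (aeval (jqModC Qb) (P.coeff i)) =
      ((X - C (qExpand Qb (M * q * q) (jqModC Qb))) *
        ∏ b ∈ Finset.range q, (X - C (qExpand Qb M (gcjfRot (ζ₀ ^ b) (jqModC Qb))))).coeff i := by
    intro i
    rw [← hmap, ← Polynomial.map_map, ← hPmap, coeff_map, coeff_map, ssvmcEv_apply]
  have hMq : (0 : ℤ) < ((M * q : ℕ) : ℤ) := by
    exact_mod_cast Nat.pos_of_ne_zero (NeZero.ne (M * q))
  have hrinf := ssvmc_bdd_qExpand (M * q * q) (ssvmc_bdd_jqModC Qb)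
  have hrb : ∀ b ∈ Finset.range q, SsvmcBdd Qb (-(M : ℤ))
      (qExpand Qb M (gcjfRot (ζ₀ ^ b) (jqModC Qb))) := fun b _ =>
    ssvmc_bdd_qExpand M (ssvmc_bdd_rot (ζ₀ ^ b) (ssvmc_bdd_jqModC Qb))
  refine ⟨hPmap, ?_, ?_⟩
  · intro i
    have h2' := ssvmc_bdd_step (n := M * q * q) (B := ∑ b ∈ Finset.range q, M) hrinf
      (fun i => ssvmc_bdd_prod (Finset.range q)
        (fun b => qExpand Qb M (gcjfRot (ζ₀ ^ b) (jqModC Qb))) (fun _ => M) hrb i) i
    rw [← h1] at h2'
    intro m' hm'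
    rw [← qExpand_coeff_mul (N := M * q)]
    apply h2'
    rw [Finset.sum_const, Finset.card_range, smul_eq_mul]
    push_cast at hm' hMq ⊢
    nlinarith
  · intro i hi
    obtain ⟨i, rfl⟩ : ∃ i', i = i' + 1 := ⟨i - 1, by omega⟩
    have hQ := fun i => ssvmc_bdd_prod_card (Finset.range q)
      (fun b => qExpand Qb M (gcjfRot (ζ₀ ^ b) (jqModC Qb))) M hrb i
    simp only [Finset.card_range] at hQ
    have h3 := h1 (i + 1)
    rw [sub_mul, coeff_sub, coeff_X_mul, coeff_C_mul] at h3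
    have hq1 : 1 ≤ q := hq.one_lt.le
    have hc : q - (i + 1) + 1 ≤ q := by omega
    have hd : q - i ≤ q - (i + 1) + 1 := by omega
    set c := q - (i + 1) with hcdef
    set d := q - i with hddef
    have hM0 : 0 < M := Nat.pos_of_ne_zero (NeZero.ne M)
    have hbd : SsvmcBdd Qb (-((M * q * q + c * M : ℕ) : ℤ))
        (qExpand Qb (M * q) (aeval (jqModC Qb) (P.coeff (i + 1)))) := by
      rw [h3]
      refine SsvmcBdd.sub ((hQ i).mono ?_) ?_
      · have h5 : d * M ≤ M * q * q + c * M := by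
          calc d * M ≤ (c + 1) * M := Nat.mul_le_mul_right M hd
            _ = M + c * M := by ring
            _ ≤ M * q * q + c * M := by
                have : M ≤ M * q * q := by
                  calc M = M * 1 * 1 := by ring
                    _ ≤ M * q * q := Nat.mul_le_mul (Nat.mul_le_mul_left M hq1) hq1
                omega
        exact_mod_cast neg_le_neg (by exact_mod_cast h5)
      · have e : -((M * q * q + c * M : ℕ) : ℤ) = -((M * q * q : ℕ) : ℤ) + -((c * M : ℕ) : ℤ) := by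
          push_cast; ring
        rw [e]
        exact hrinf.mul (hQ (i + 1))
    intro m' hm'
    rw [← qExpand_coeff_mul (N := M * q)]
    apply hbd
    have h6 : c * M < M * q := by
      calc c * M < (c + 1) * M := by nlinarith
        _ ≤ q * M := Nat.mul_le_mul_right M hc
        _ = M * q := by ring
    have h6' : ((c * M : ℕ) : ℤ) < ((M * q : ℕ) : ℤ) := by exact_mod_cast h6
    push_cast at hm' hMq h6' ⊢
    nlinarith

end Bar

/-! ### The modular polynomial over `A₀ = 𝔸 ∩ E` -/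

section Main

variable {q : ℕ} [Fact q.Prime] (𝔸 : ValuationSubring Qb) (E : IntermediateField ℚ Qb)

/-- `A₀ = 𝔸 ∩ E → ℚ̄` -/
def ssvmcF : ↥(s18dVal 𝔸 E) →+* Qb :=
  (algebraMap E Qb).comp (algebraMap ↥(s18dVal 𝔸 E) E)

theorem ssvmcF_injective : Function.Injective (ssvmcF 𝔸 E) :=
  (algebraMap E Qb).injective.comp Subtype.val_injective

theorem ssvmc_coeffMap_F (v : LaurentSeries ↥(s18dVal 𝔸 E)) :
    coeffMap (ssvmcF 𝔸 E) v = s18dUp E (s18vIncl ↥(s18dVal 𝔸 E) E v) := by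
  rw [coeffMap_coeffMap]
  rfl

/-- naturality of `aeval j`, as ring homomorphisms -/
theorem ssvmcEv_comp {K K' : Type*} [CommRing K] [CommRing K'] (f : K →+* K') :
    (coeffMap f).comp (ssvmcEv K) = (ssvmcEv K').comp (mapRingHom f) :=
  RingHom.ext fun p => ssvmc_coeffMap_aeval K f p

set_option maxHeartbeats 1000000 in
/-- **(L7-DEG) THE MODULAR POLYNOMIAL** `Φ = Φ_q(X, Y) ∈ A₀[X][Y]` (outer variable `Y`, inner variable
`X`) : monic of degree `q + 1` in `Y`, every coefficient of degree `≤ q + 1` in `X`, Kronecker's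
congruence `Φ ≡ (Y - X^q)(Y^q - X)`, `Φ(j, j(q^q)) = 0` in `A₀((q))`, and `Φ(j, Y)` is the minimal
polynomial of `j(q^q)` over `F_E(M)` for EVERY `M` prime to `q`. -/
theorem ssvmc_modular (hA : 𝔸.LiesOverPrime q) :
    haveI : NeZero q := ⟨(Fact.out : q.Prime).ne_zero⟩
    ∃ Φ : (↥(s18dVal 𝔸 E))[X][X], Φ.Monic ∧ Φ.natDegree = q + 1 ∧
      (∀ i, (Φ.coeff i).natDegree ≤ q + 1) ∧
      Φ.map (mapRingHom (residue ↥(s18dVal 𝔸 E))) = (X - C (X ^ q)) * (X ^ q - C X) ∧
      (Φ.map (ssvmcEv ↥(s18dVal 𝔸 E))).eval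
        (qExpand ↥(s18dVal 𝔸 E) q (jqModC ↥(s18dVal 𝔸 E))) = 0 ∧
      (∀ (M : ℕ) [NeZero M], ¬ q ∣ M →
        letI := algebraAlong (ssvmdIncl E M q)
        (Φ.map (ssvmcEv ↥(s18dVal 𝔸 E))).map (s18vIncl ↥(s18dVal 𝔸 E) E) =
          (minpoly (modularFunctionFieldFullC E M) (ssvmmY E M q)).map
            (modularFunctionFieldFullC E M).val.toRingHom) ∧
      ∀ i, 1 ≤ i → (Φ.coeff i).natDegree ≤ q := by
  have hq : q.Prime := Fact.out
  haveI : NeZero q := ⟨hq.ne_zero⟩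
  have hq1 : ¬ q ∣ 1 := fun h => hq.one_lt.ne' (Nat.dvd_one.mp h)
  obtain ⟨P₀, hP₀m, hP₀d, hP₀0⟩ := ssvmc_exists_bar q
  have hfinj := ssvmcF_injective 𝔸 E
  have hcinj : Function.Injective (coeffMap (ssvmcF 𝔸 E)) := deg_coeffMap_injective _ hfinj
  -- the general level : `P₀(j, Y)` is the pushed-up minimal polynomial
  have hlevel : ∀ (M : ℕ) [NeZero M], ¬ q ∣ M →
      letI := algebraAlong (ssvmdIncl E M q)
      P₀.map (ssvmcEv Qb) =
        ((minpoly (modularFunctionFieldFullC E M) (ssvmmY E M q)).map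
          (modularFunctionFieldFullC E M).val.toRingHom).map (s18dUp E) := by
    intro M _ hqM
    letI algE := algebraAlong (ssvmdIncl E M q)
    obtain ⟨hup, -⟩ := ssvmm_minpoly_up E M hqM
    obtain ⟨hbar, -⟩ := ssvmc_bar M hqM P₀ hP₀m hP₀d hP₀0
    rw [hbar, ← hup, Polynomial.map_map, Polynomial.map_map]
    rfl
  -- level `1` : integrality and Kronecker
  obtain ⟨Ξ, hΞm, hΞ, hΞred⟩ := ssvmm_exists_lift 𝔸 E 1 hA hq1
  obtain ⟨-, hbdd, hbdd'⟩ := ssvmc_bar 1 hq1 P₀ hP₀m hP₀d hP₀0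
  have hkey : Ξ.map (coeffMap (ssvmcF 𝔸 E)) = P₀.map (ssvmcEv Qb) := by
    rw [hlevel 1 hq1, ← hΞ, Polynomial.map_map]
    congr 1
  -- the coefficients of `P₀` come from `A₀`
  have hcoeff : ∀ i, P₀.coeff i ∈ lifts (ssvmcF 𝔸 E) := by
    intro i
    refine ssvmc_lifts Qb (ssvmcF 𝔸 E) (q + 1) (P₀.coeff i)
      (ssvmc_natDegree_le Qb _ _ (hbdd i)) fun m => ?_
    have h1 : aeval (jqModC Qb) (P₀.coeff i) = coeffMap (ssvmcF 𝔸 E) (Ξ.coeff i) := by
      rw [← ssvmcEv_apply, ← coeff_map, ← hkey, coeff_map]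
    rw [h1, coeffMap_coeff]
    exact ⟨_, rfl⟩
  have hlifts : P₀ ∈ lifts (mapRingHom (ssvmcF 𝔸 E)) := by
    rw [lifts_iff_coeff_lifts]
    intro i
    obtain ⟨p, hp⟩ := (mem_lifts _).mp (hcoeff i)
    exact ⟨p, hp⟩
  obtain ⟨Φ, hΦ, hΦd, hΦm⟩ := lifts_and_natDegree_eq_and_monic hlifts hP₀m
  have hΦΞ : Φ.map (ssvmcEv ↥(s18dVal 𝔸 E)) = Ξ := by
    apply Polynomial.map_injective _ hcinj
    rw [Polynomial.map_map, ssvmcEv_comp, ← Polynomial.map_map, hΦ, hkey]
  have hΦc : ∀ i, (Φ.coeff i).map (ssvmcF 𝔸 E) = P₀.coeff i := by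
    intro i
    rw [← hΦ, coeff_map, coe_mapRingHom]
  refine ⟨Φ, hΦm, by rw [hΦd, hP₀d], ?_, ?_, ?_, ?_, ?_⟩
  · intro i
    rw [← natDegree_map_eq_of_injective hfinj, hΦc i]
    exact ssvmc_natDegree_le Qb _ _ (hbdd i)
  · apply Polynomial.map_injective (ssvmcEv (ResidueField ↥(s18dVal 𝔸 E)))
      (ssvmc_aeval_injective _)
    rw [Polynomial.map_map, ← ssvmcEv_comp, ← Polynomial.map_map, hΦΞ, hΞred]
    simp only [Polynomial.map_mul, Polynomial.map_sub, Polynomial.map_pow, map_X, map_C,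
      ssvmcEv_apply, map_pow, aeval_X]
  · rw [hΦΞ]
    apply hcinj
    rw [map_zero, ← Polynomial.eval_map_apply, hkey, Polynomial.eval_map, coeffMap_qExpand,
      coeffMap_jqModC]
    exact hP₀0
  · intro M _ hqM
    letI algE := algebraAlong (ssvmdIncl E M q)
    apply Polynomial.map_injective (s18dUp E)
      (deg_coeffMap_injective _ (algebraMap E Qb).injective)
    rw [← hlevel M hqM, hΦΞ, ← hkey, Polynomial.map_map]
    congr 1
  · intro i hi
    rw [← natDegree_map_eq_of_injective hfinj, hΦc i]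
    exact ssvmc_natDegree_le Qb _ _ (hbdd' i hi)

end Main

/-! ### Consequences -/

section Kron

/-- the top coefficients of Kronecker's polynomial `(Y - X^q)(Y^q - X)` -/
theorem ssvmc_kron_coeff (k : Type*) [CommRing k] [Nontrivial k] {q : ℕ} (hq : 2 ≤ q) (i : ℕ) :
    ((((X - C (X ^ q)) * (X ^ q - C X) : k[X][X])).coeff i).coeff (q + 1) =
      if i = 0 then 1 else 0 := by
  have hK : ((X - C (X ^ q)) * (X ^ q - C X) : k[X][X]) =
      X ^ (q + 1) - C X * X - C (X ^ q) * X ^ q + C (X ^ q * X) := by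
    rw [map_mul]
    ring
  rw [hK]
  simp only [coeff_add, coeff_sub, coeff_X_pow, coeff_C_mul_X_pow, coeff_C_mul_X, coeff_C]
  by_cases h0 : i = 0
  · subst h0
    rw [if_neg (by omega), if_neg (by omega), if_neg (by omega), if_pos rfl, if_pos rfl,
      coeff_zero, sub_zero, sub_zero, zero_add, ← pow_succ, coeff_X_pow, if_pos rfl]
  · rw [if_neg h0, if_neg h0, coeff_zero, add_zero]
    by_cases h1 : i = q + 1
    · subst h1
      rw [if_pos rfl, if_neg (by omega), if_neg (by omega), coeff_zero, sub_zero, sub_zero,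
        coeff_one, if_neg (by omega)]
    · rw [if_neg h1, coeff_zero, zero_sub]
      by_cases h2 : i = 1
      · subst h2
        rw [if_pos rfl, if_neg (by omega), coeff_zero, sub_zero, coeff_X, if_neg (by omega),
          neg_zero]
      · rw [if_neg h2, coeff_zero, neg_zero, zero_sub]
        by_cases h3 : i = q
        · rw [if_pos h3, coeff_X_pow, if_neg (by omega), neg_zero]
        · rw [if_neg h3, coeff_zero, neg_zero]

/-- the coefficient of `Y^q` of Kronecker's polynomial is `-X^q` -/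
theorem ssvmc_kron_coeff_q (k : Type*) [CommRing k] [Nontrivial k] {q : ℕ} (hq : 2 ≤ q) :
    ((((X - C (X ^ q)) * (X ^ q - C X) : k[X][X])).coeff q).coeff q = -1 := by
  have hK : ((X - C (X ^ q)) * (X ^ q - C X) : k[X][X]) =
      X ^ (q + 1) - C X * X - C (X ^ q) * X ^ q + C (X ^ q * X) := by
    rw [map_mul]
    ring
  rw [hK]
  have h1 : ¬ q = q + 1 := by omega
  have h2 : ¬ q = 1 := by omega
  have h3 : ¬ q = 0 := by omega
  simp only [coeff_add, coeff_sub, coeff_X_pow, coeff_C_mul_X_pow, coeff_C_mul_X, coeff_C, h1, h2,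
    h3, if_false, if_true, sub_zero, zero_sub, add_zero]
  rw [coeff_neg, coeff_X_pow, if_pos rfl]

end Kron

section Cor

variable {q : ℕ} [Fact q.Prime] (𝔸 : ValuationSubring Qb) (E : IntermediateField ℚ Qb)

/-- the top coefficients of `Φ` : `Φ₀ = u X^(q+1) + …` with `u ≡ 1`, and for `i ≥ 1` the coefficient
of `X^(q+1)` in `Φ_i` is `≡ 0`. -/
theorem ssvmc_kron_top (Φ : (↥(s18dVal 𝔸 E))[X][X])
    (hk : Φ.map (mapRingHom (residue ↥(s18dVal 𝔸 E))) = (X - C (X ^ q)) * (X ^ q - C X)) (i : ℕ) :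
    residue ↥(s18dVal 𝔸 E) ((Φ.coeff i).coeff (q + 1)) = if i = 0 then 1 else 0 := by
  have hq : q.Prime := Fact.out
  rw [← ssvmc_kron_coeff (ResidueField ↥(s18dVal 𝔸 E)) hq.two_le i, ← hk, coeff_map,
    coe_mapRingHom, coeff_map]

variable (N : ℕ) [NeZero N]

/-- `aeval j : A₀[X] → F_E(N)` -/
def ssvmcEvF : (↥(s18dVal 𝔸 E))[X] →+* ↥(modularFunctionFieldFullC E N) :=
  (aeval (R := ↥(s18dVal 𝔸 E)) (ssvmdJ E N)).toRingHom

theorem ssvmcEvF_apply (p : (↥(s18dVal 𝔸 E))[X]) :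
    ssvmcEvF 𝔸 E N p = aeval (ssvmdJ E N) p := rfl

theorem ssvmc_val_evF :
    ((modularFunctionFieldFullC E N).val.toRingHom).comp (ssvmcEvF 𝔸 E N) =
      (s18vIncl ↥(s18dVal 𝔸 E) E).comp (ssvmcEv ↥(s18dVal 𝔸 E)) := by
  apply Polynomial.ringHom_ext
  · intro a
    simp only [ssvmcEvF, RingHom.coe_comp, AlgHom.toRingHom_eq_coe, RingHom.coe_coe,
      Function.comp_apply, aeval_C, ssvmc_coeffMap_algebraMap]
    exact s18v_coe_algebraMap (modularFunctionFieldFullC E N) a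
  · simp only [ssvmcEvF, RingHom.coe_comp, AlgHom.toRingHom_eq_coe, RingHom.coe_coe,
      Function.comp_apply, aeval_X, coeffMap_jqModC]
    rfl

/-- `j(q^q)` as an element of `F_E(N)`, `q ∣ N` -/
def ssvmcY (hqN : q ∣ N) : ↥(modularFunctionFieldFullC E N) :=
  haveI : NeZero q := ⟨(Fact.out : q.Prime).ne_zero⟩
  ⟨qExpand E q (jqModC E), jqModCd_mem_full E N hqN⟩

theorem ssvmcY_coe (hqN : q ∣ N) :
    haveI : NeZero q := ⟨(Fact.out : q.Prime).ne_zero⟩
    ((ssvmcY E N hqN : ↥(modularFunctionFieldFullC E N)) : LaurentSeries E) =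
      qExpand E q (jqModC E) := rfl

theorem ssvmcY_mul (M : ℕ) [NeZero M] :
    haveI : NeZero q := ⟨(Fact.out : q.Prime).ne_zero⟩
    ssvmcY E (M * q) (dvd_mul_left q M) = ssvmmY E M q := rfl

/-- `Φ(j, j(q^q)) = 0` in `F_E(N)`, for every `N` divisible by `q`. -/
theorem ssvmc_root_field (Φ : (↥(s18dVal 𝔸 E))[X][X])
    (hroot : haveI : NeZero q := ⟨(Fact.out : q.Prime).ne_zero⟩
      (Φ.map (ssvmcEv ↥(s18dVal 𝔸 E))).eval
        (qExpand ↥(s18dVal 𝔸 E) q (jqModC ↥(s18dVal 𝔸 E))) = 0) (hqN : q ∣ N) :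
    Φ.eval₂ (ssvmcEvF 𝔸 E N) (ssvmcY E N hqN) = 0 := by
  haveI : NeZero q := ⟨(Fact.out : q.Prime).ne_zero⟩
  apply (modularFunctionFieldFullC E N).val.toRingHom.injective
  rw [map_zero, Polynomial.hom_eval₂, ssvmc_val_evF]
  have hy : (modularFunctionFieldFullC E N).val.toRingHom (ssvmcY E N hqN) =
      s18vIncl ↥(s18dVal 𝔸 E) E (qExpand ↥(s18dVal 𝔸 E) q (jqModC ↥(s18dVal 𝔸 E))) := by
    rw [coeffMap_qExpand, coeffMap_jqModC]
    rfl
  rw [hy, ← Polynomial.hom_eval₂, ← Polynomial.eval_map, hroot, map_zero]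

/-- **`j(q^q)` is integral over `A₀[j]`** inside `F_E(N)`, `q ∣ N`. -/
theorem ssvmc_y_mem_int (Φ : (↥(s18dVal 𝔸 E))[X][X]) (hΦm : Φ.Monic)
    (hroot : haveI : NeZero q := ⟨(Fact.out : q.Prime).ne_zero⟩
      (Φ.map (ssvmcEv ↥(s18dVal 𝔸 E))).eval
        (qExpand ↥(s18dVal 𝔸 E) q (jqModC ↥(s18dVal 𝔸 E))) = 0) (hqN : q ∣ N) :
    ssvmcY E N hqN ∈ s18tInt ↥(s18dVal 𝔸 E) (ssvmdJ E N) := by
  rw [mem_s18tInt]
  let jC : s18tChart ↥(s18dVal 𝔸 E) (ssvmdJ E N) :=
    ⟨ssvmdJ E N, Algebra.subset_adjoin (Set.mem_singleton _)⟩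
  refine ⟨Φ.map (aeval (R := ↥(s18dVal 𝔸 E)) jC).toRingHom, hΦm.map _, ?_⟩
  rw [eval₂_map]
  have h1 : (algebraMap (s18tChart ↥(s18dVal 𝔸 E) (ssvmdJ E N))
      ↥(modularFunctionFieldFullC E N)).comp (aeval (R := ↥(s18dVal 𝔸 E)) jC).toRingHom =
      ssvmcEvF 𝔸 E N :=
    RingHom.ext fun p => aeval_subalgebra_coe p _ jC
  rw [h1]
  exact ssvmc_root_field 𝔸 E N Φ hroot hqN

/-- `Φ₀` has degree exactly `q + 1` with a unit leading coefficient. -/
theorem ssvmc_lead_zero (Φ : (↥(s18dVal 𝔸 E))[X][X])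
    (hc : (Φ.coeff 0).natDegree ≤ q + 1)
    (hk : Φ.map (mapRingHom (residue ↥(s18dVal 𝔸 E))) = (X - C (X ^ q)) * (X ^ q - C X)) :
    (Φ.coeff 0).natDegree = q + 1 ∧ IsUnit (Φ.coeff 0).leadingCoeff := by
  have h1 := ssvmc_kron_top 𝔸 E Φ hk 0
  rw [if_pos rfl] at h1
  have hu : IsUnit ((Φ.coeff 0).coeff (q + 1)) := by
    rw [← residue_ne_zero_iff_isUnit, h1]
    exact one_ne_zero
  have hd : (Φ.coeff 0).natDegree = q + 1 :=
    le_antisymm hc (le_natDegree_of_ne_zero hu.ne_zero)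
  exact ⟨hd, by rw [leadingCoeff, hd]; exact hu⟩

/-- `Φ_q` has degree exactly `q` with a unit leading coefficient. -/
theorem ssvmc_lead_q (Φ : (↥(s18dVal 𝔸 E))[X][X])
    (hc : (Φ.coeff q).natDegree ≤ q)
    (hk : Φ.map (mapRingHom (residue ↥(s18dVal 𝔸 E))) = (X - C (X ^ q)) * (X ^ q - C X)) :
    (Φ.coeff q).natDegree = q ∧ IsUnit (Φ.coeff q).leadingCoeff := by
  have hq : q.Prime := Fact.out
  have h1 : residue ↥(s18dVal 𝔸 E) ((Φ.coeff q).coeff q) = -1 := by
    rw [← ssvmc_kron_coeff_q (ResidueField ↥(s18dVal 𝔸 E)) hq.two_le, ← hk, coeff_map,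
      coe_mapRingHom, coeff_map]
  have hu : IsUnit ((Φ.coeff q).coeff q) := by
    rw [← residue_ne_zero_iff_isUnit, h1]
    exact neg_ne_zero.mpr one_ne_zero
  have hd : (Φ.coeff q).natDegree = q :=
    le_antisymm hc (le_natDegree_of_ne_zero hu.ne_zero)
  exact ⟨hd, by rw [leadingCoeff, hd]; exact hu⟩

/-- the relation `Σ_{i ≤ q+1} Φ_i(j) y^i = 0` as a sum (the shape of `ssgc_sep_mem`) -/
theorem ssvmc_rel_sum {S : Type*} [CommRing S] (Φ : (↥(s18dVal 𝔸 E))[X][X])
    (hd : Φ.natDegree = q + 1) (f : (↥(s18dVal 𝔸 E))[X] →+* S) (y : S)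
    (h : Φ.eval₂ f y = 0) : ∑ i ∈ Finset.range (q + 2), f (Φ.coeff i) * y ^ i = 0 := by
  rw [← h, eval₂_eq_sum_range, hd]

theorem ssvmc_coeff_top (Φ : (↥(s18dVal 𝔸 E))[X][X]) (hm : Φ.Monic) (hd : Φ.natDegree = q + 1) :
    Φ.coeff (q + 1) = 1 := by
  rw [← hd]
  exact hm.coeff_natDegree

/-- **(L7-DEG, level form)** everything at the level `M q` : the modular polynomial `Φ ∈ A₀[X][Y]`,
its degrees, Kronecker's congruence, the top coefficients, the equation `Φ(j, j(q^q)) = 0` in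
`F_E(M q)`, the integrality of `j(q^q)` over `A₀[j]`, and the sharp degrees : `deg Φ_i ≤ q` for
`i ≥ 1`, `deg Φ₀ = q + 1`, `deg Φ_q = q` with unit leading coefficients. -/
theorem ssvmc_level (hA : 𝔸.LiesOverPrime q) (M : ℕ) [NeZero M] :
    haveI : NeZero q := ⟨(Fact.out : q.Prime).ne_zero⟩
    ∃ Φ : (↥(s18dVal 𝔸 E))[X][X], Φ.Monic ∧ Φ.natDegree = q + 1 ∧
      (∀ i, (Φ.coeff i).natDegree ≤ q + 1) ∧
      Φ.map (mapRingHom (residue ↥(s18dVal 𝔸 E))) = (X - C (X ^ q)) * (X ^ q - C X) ∧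
      (∀ i, residue ↥(s18dVal 𝔸 E) ((Φ.coeff i).coeff (q + 1)) = if i = 0 then 1 else 0) ∧
      Φ.eval₂ (ssvmcEvF 𝔸 E (M * q)) (ssvmmY E M q) = 0 ∧
      ssvmmY E M q ∈ s18tInt ↥(s18dVal 𝔸 E) (ssvmdJ E (M * q)) ∧
      (∀ i, 1 ≤ i → (Φ.coeff i).natDegree ≤ q) ∧
      ((Φ.coeff 0).natDegree = q + 1 ∧ IsUnit (Φ.coeff 0).leadingCoeff) ∧
      ((Φ.coeff q).natDegree = q ∧ IsUnit (Φ.coeff q).leadingCoeff) := by
  have hq : q.Prime := Fact.out
  haveI : NeZero q := ⟨hq.ne_zero⟩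
  obtain ⟨Φ, hm, hd, hc, hk, hroot, -, hc'⟩ := ssvmc_modular 𝔸 E hA
  exact ⟨Φ, hm, hd, hc, hk, ssvmc_kron_top 𝔸 E Φ hk,
    ssvmc_root_field 𝔸 E (M * q) Φ hroot (dvd_mul_left q M),
    ssvmc_y_mem_int 𝔸 E (M * q) Φ hm hroot (dvd_mul_left q M), hc',
    ssvmc_lead_zero 𝔸 E Φ (hc 0) hk, ssvmc_lead_q 𝔸 E Φ (hc' q hq.one_lt.le) hk⟩

/-- **(L7-DEG, relation form)** the shape consumed by `ssgc_sep_mem` (L8) : polynomials
`p i ∈ A₀[X]` with `Σ_{i ≤ q+1} p_i(j) y^i = 0`, `p (q+1) = 1`, `deg p_i ≤ q (q + 1 - i)`. -/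
theorem ssvmc_level_rel (hA : 𝔸.LiesOverPrime q) (M : ℕ) [NeZero M] :
    haveI : NeZero q := ⟨(Fact.out : q.Prime).ne_zero⟩
    ∃ p : ℕ → (↥(s18dVal 𝔸 E))[X],
      ∑ i ∈ Finset.range (q + 2), aeval (ssvmdJ E (M * q)) (p i) * ssvmmY E M q ^ i = 0 ∧
      p (q + 1) = 1 ∧ (∀ i, i ≤ q → (p i).natDegree ≤ q * (q + 1 - i)) ∧
      (∀ i, 1 ≤ i → (p i).natDegree ≤ q) ∧ (p 0).natDegree = q + 1 := by
  have hq : q.Prime := Fact.out
  haveI : NeZero q := ⟨hq.ne_zero⟩
  obtain ⟨Φ, hm, hd, hc, -, -, hroot, -, hc', ⟨h0, -⟩, -⟩ := ssvmc_level 𝔸 E hA M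
  refine ⟨fun i => Φ.coeff i, ?_, ssvmc_coeff_top 𝔸 E Φ hm hd, ?_, hc', h0⟩
  · exact ssvmc_rel_sum 𝔸 E Φ hd (ssvmcEvF 𝔸 E (M * q)) (ssvmmY E M q) hroot
  · intro i hi
    rcases Nat.eq_zero_or_pos i with rfl | hpos
    · rw [h0, Nat.sub_zero]
      nlinarith [hq.one_lt]
    · refine (hc' i hpos).trans ?_
      have : 1 ≤ q + 1 - i := by omega
      nlinarith

end Cor

end Fermat.Agent.SS
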