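import Mathlib
import Fermat.Agent.SS.Val.ModFrob2

/-!
# The Atkin-Lehner involution of `F_E(M q)` on `q`-expansions, and the mirror of the two-valuation
package

`F = F_E(M q)` is generated over `E` by `α F₀ ∪ φ F₀` (`F₀ = F_E(M)`, `α` the inclusion,
`φ f = f(t^q)`).  The conjugate embedding `σ₀ : F → F_E(M (M q))` of `ModFrob2` satisfies
`σ₀ ∘ α = ψ_M ∘ φ`, `σ₀ ∘ φ = ψ_M ∘ α` (`ψ_M f = f(t^M)`, injective), so `w := ψ_M⁻¹ ∘ σ₀` is a ring
automorphism of `F` over `E` with `w ∘ α = φ`, `w ∘ φ = α`, `w ∘ w = id`.  It exchanges the two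
valuation rings `V₁, V₂` of `ssvmm_amb`.  An abstract transport lemma for `SsvAmb` along a field
isomorphism gives the mirrored package (`φ F₀ ⊂ F`, `V₂, V₁`).
-/

set_option autoImplicit false
set_option linter.unusedSectionVars false
set_option linter.unusedVariables false
set_option linter.style.haveILetI false
set_option synthInstance.maxHeartbeats 400000

noncomputable section

namespace Fermat.Agent.SS

open Polynomial ModularCurve AlgebraicCurve IsLocalRing IntermediateField Fermat.Agent.S24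
  Fermat.Agent.G Fermat.Agent.S18
open scoped MatrixGroups

local notation "Qb" => AlgebraicClosure ℚ

/-! ### Generation of `F_K(N ℓ)` by `α F_K(N) ∪ φ F_K(N)` -/

section Generation

variable (K : Type*) [Field K] (N : ℕ) [NeZero N] {ℓ : ℕ} [Fact ℓ.Prime]

/-- induction principle : `F_K(N ℓ)` is generated (as a field) by `α F_K(N)` and `φ F_K(N)` -/
theorem ssvma_induction
    {P : haveI : NeZero ℓ := ⟨(Fact.out : ℓ.Prime).ne_zero⟩
      modularFunctionFieldFullC K (N * ℓ) → Prop}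
    (hα : haveI : NeZero ℓ := ⟨(Fact.out : ℓ.Prime).ne_zero⟩
      ∀ x : modularFunctionFieldFullC K N, P (ssvmdIncl K N ℓ x))
    (hβ : haveI : NeZero ℓ := ⟨(Fact.out : ℓ.Prime).ne_zero⟩
      ∀ x : modularFunctionFieldFullC K N, P (ssvmfPhi K N ℓ x))
    (hadd : ∀ x y, P x → P y → P (x + y)) (hmul : ∀ x y, P x → P y → P (x * y))
    (hinv : ∀ x, P x → P x⁻¹) :
    haveI : NeZero ℓ := ⟨(Fact.out : ℓ.Prime).ne_zero⟩
    ∀ x : modularFunctionFieldFullC K (N * ℓ), P x := by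
  have hℓ : ℓ.Prime := Fact.out
  haveI : NeZero ℓ := ⟨hℓ.ne_zero⟩
  rintro ⟨x, hx⟩
  unfold modularFunctionFieldFullC at hx
  induction hx using IntermediateField.adjoin_induction with
  | mem x hx =>
    obtain ⟨d, hne, hd, rfl⟩ := hx
    haveI := hne
    by_cases hℓd : ℓ ∣ d
    · obtain ⟨d', rfl⟩ := hℓd
      have hd'0 : d' ≠ 0 := fun h0 => NeZero.ne (ℓ * d') (by rw [h0, mul_zero])
      haveI : NeZero d' := ⟨hd'0⟩
      have hd'N : d' ∣ N := by
        rw [mul_comm N ℓ] at hd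
        exact (Nat.mul_dvd_mul_iff_left hℓ.pos).mp hd
      have e : (⟨qExpand K (ℓ * d') (jqModC K), jqModCd_mem_full K (N * ℓ) hd⟩ :
          modularFunctionFieldFullC K (N * ℓ)) =
          ssvmfPhi K N ℓ ⟨qExpand K d' (jqModC K), jqModCd_mem_full K N hd'N⟩ := by
        apply Subtype.ext
        show qExpand K (ℓ * d') (jqModC K) = qExpand K ℓ (qExpand K d' (jqModC K))
        rw [qExpand_qExpand]
      exact e ▸ hβ _
    · have hdN : d ∣ N :=
        (Nat.Coprime.dvd_of_dvd_mul_right ((Nat.Prime.coprime_iff_not_dvd hℓ).mpr hℓd).symm hd)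
      have e : (⟨qExpand K d (jqModC K), jqModCd_mem_full K (N * ℓ) hd⟩ :
          modularFunctionFieldFullC K (N * ℓ)) =
          ssvmdIncl K N ℓ ⟨qExpand K d (jqModC K), jqModCd_mem_full K N hdN⟩ := by
        apply Subtype.ext
        rw [ssvmdIncl_coe]
      exact e ▸ hα _
  | algebraMap c =>
    have e : (⟨algebraMap K (LaurentSeries K) c,
        (modularFunctionFieldFullC K (N * ℓ)).algebraMap_mem c⟩ :
          modularFunctionFieldFullC K (N * ℓ)) =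
        ssvmdIncl K N ℓ (algebraMap K (modularFunctionFieldFullC K N) c) := by
      apply Subtype.ext
      rw [ssvmdIncl_coe]
      rfl
    exact e ▸ hα _
  | add x y hx hy ihx ihy => exact hadd ⟨x, hx⟩ ⟨y, hy⟩ ihx ihy
  | inv x hx ihx => exact hinv ⟨x, hx⟩ ihx
  | mul x y hx hy ihx ihy => exact hmul ⟨x, hx⟩ ⟨y, hy⟩ ihx ihy

/-- two ring homomorphisms out of `F_K(N ℓ)` agreeing on `α F_K(N)` and `φ F_K(N)` are equal -/
theorem ssvma_hom_ext {S : Type*} [DivisionRing S]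
    (f g : haveI : NeZero ℓ := ⟨(Fact.out : ℓ.Prime).ne_zero⟩
      modularFunctionFieldFullC K (N * ℓ) →+* S)
    (hα : haveI : NeZero ℓ := ⟨(Fact.out : ℓ.Prime).ne_zero⟩
      ∀ x : modularFunctionFieldFullC K N, f (ssvmdIncl K N ℓ x) = g (ssvmdIncl K N ℓ x))
    (hβ : haveI : NeZero ℓ := ⟨(Fact.out : ℓ.Prime).ne_zero⟩
      ∀ x : modularFunctionFieldFullC K N, f (ssvmfPhi K N ℓ x) = g (ssvmfPhi K N ℓ x)) :
    f = g := by
  have hℓ : ℓ.Prime := Fact.out
  haveI : NeZero ℓ := ⟨hℓ.ne_zero⟩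
  apply RingHom.ext
  refine ssvma_induction K N (P := fun x => f x = g x) hα hβ ?_ ?_ ?_
  · intro x y hx hy
    rw [map_add, map_add, hx, hy]
  · intro x y hx hy
    rw [map_mul, map_mul, hx, hy]
  · intro x hx
    rw [map_inv₀, map_inv₀, hx]

end Generation

/-! ### The involution `w` -/

section Involution

variable (E : IntermediateField ℚ Qb) (M : ℕ) [NeZero M] {q : ℕ} [Fact q.Prime]

/-- every value of `σ₀` lies in the image of `ψ_M` -/
theorem ssvma_sigma_mem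
    (σ : haveI : NeZero q := ⟨(Fact.out : q.Prime).ne_zero⟩
      modularFunctionFieldFullC E (M * q) →+* modularFunctionFieldFullC E (M * (M * q)))
    (hσα : haveI : NeZero q := ⟨(Fact.out : q.Prime).ne_zero⟩
      ∀ x : modularFunctionFieldFullC E M,
        ((σ (ssvmdIncl E M q x) : modularFunctionFieldFullC E (M * (M * q))) : LaurentSeries E) =
          qExpand E (M * q) (x : LaurentSeries E))
    (hσβ : haveI : NeZero q := ⟨(Fact.out : q.Prime).ne_zero⟩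
      ∀ x : modularFunctionFieldFullC E M,
        ((σ (ssvmfPhi E M q x) : modularFunctionFieldFullC E (M * (M * q))) : LaurentSeries E) =
          qExpand E M (x : LaurentSeries E)) :
    haveI : NeZero q := ⟨(Fact.out : q.Prime).ne_zero⟩
    ∀ x : modularFunctionFieldFullC E (M * q), ∃ z : modularFunctionFieldFullC E (M * q),
      qExpand E M (z : LaurentSeries E) =
        ((σ x : modularFunctionFieldFullC E (M * (M * q))) : LaurentSeries E) := by
  have hq : q.Prime := Fact.out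
  haveI : NeZero q := ⟨hq.ne_zero⟩
  refine ssvma_induction (↥E) M (P := fun x => ∃ z : modularFunctionFieldFullC E (M * q),
      qExpand E M (z : LaurentSeries E) =
        ((σ x : modularFunctionFieldFullC E (M * (M * q))) : LaurentSeries E)) ?_ ?_ ?_ ?_ ?_
  · intro x
    exact ⟨ssvmfPhi E M q x, by rw [hσα, ssvmfPhi_coe, qExpand_qExpand]⟩
  · intro x
    exact ⟨ssvmdIncl E M q x, by rw [hσβ, ssvmdIncl_coe]⟩
  · rintro x y ⟨z, hz⟩ ⟨z', hz'⟩
    refine ⟨z + z', ?_⟩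
    rw [map_add σ]
    push_cast
    rw [map_add, hz, hz']
  · rintro x y ⟨z, hz⟩ ⟨z', hz'⟩
    refine ⟨z * z', ?_⟩
    rw [map_mul σ]
    push_cast
    rw [map_mul, hz, hz']
  · rintro x ⟨z, hz⟩
    refine ⟨z⁻¹, ?_⟩
    rw [map_inv₀ σ]
    push_cast
    rw [map_inv₀, hz]

/-- **the Atkin-Lehner involution** `w` of `F_E(M q)` : a ring automorphism over `E` exchanging
`α` and `φ`. -/
theorem ssvma_exists_w (hqM : ¬ q ∣ M) :
    haveI : NeZero q := ⟨(Fact.out : q.Prime).ne_zero⟩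
    ∃ w : modularFunctionFieldFullC E (M * q) ≃+* modularFunctionFieldFullC E (M * q),
      (∀ x : modularFunctionFieldFullC E M, w (ssvmdIncl E M q x) = ssvmfPhi E M q x) ∧
      (∀ x : modularFunctionFieldFullC E M, w (ssvmfPhi E M q x) = ssvmdIncl E M q x) ∧
      (∀ x : modularFunctionFieldFullC E (M * q), w (w x) = x) ∧
      (∀ c : E, w (algebraMap E (modularFunctionFieldFullC E (M * q)) c) =
        algebraMap E (modularFunctionFieldFullC E (M * q)) c) := by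
  have hq : q.Prime := Fact.out
  haveI : NeZero q := ⟨hq.ne_zero⟩
  obtain ⟨σ, hσα, hσβ⟩ := ssvmf_exists_sigma E M hqM
  choose f hf using ssvma_sigma_mem E M σ hσα hσβ
  have hinj : ∀ z z' : modularFunctionFieldFullC E (M * q),
      qExpand E M (z : LaurentSeries E) = qExpand E M (z' : LaurentSeries E) → z = z' :=
    fun z z' h => Subtype.ext (qExpand_injective M h)
  let w₀ : modularFunctionFieldFullC E (M * q) →+* modularFunctionFieldFullC E (M * q) :=
    { toFun := f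
      map_one' := hinj _ _ (by rw [hf, map_one]; push_cast; rw [map_one])
      map_mul' := fun x y => hinj _ _ (by
        rw [hf, map_mul σ]; push_cast; rw [map_mul, hf, hf])
      map_zero' := hinj _ _ (by rw [hf, map_zero]; push_cast; rw [map_zero])
      map_add' := fun x y => hinj _ _ (by
        rw [hf, map_add σ]; push_cast; rw [map_add, hf, hf]) }
  have hw₀ : ∀ x, qExpand E M ((w₀ x : modularFunctionFieldFullC E (M * q)) : LaurentSeries E) =
      ((σ x : modularFunctionFieldFullC E (M * (M * q))) : LaurentSeries E) := hf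
  have h1 : ∀ x : modularFunctionFieldFullC E M, w₀ (ssvmdIncl E M q x) = ssvmfPhi E M q x := by
    intro x
    apply hinj
    rw [hw₀, hσα, ssvmfPhi_coe, qExpand_qExpand]
  have h2 : ∀ x : modularFunctionFieldFullC E M, w₀ (ssvmfPhi E M q x) = ssvmdIncl E M q x := by
    intro x
    apply hinj
    rw [hw₀, hσβ, ssvmdIncl_coe]
  have h3 : w₀.comp w₀ = RingHom.id _ := by
    apply ssvma_hom_ext (↥E) M
    · intro x
      rw [RingHom.comp_apply, h1, h2, RingHom.id_apply]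
    · intro x
      rw [RingHom.comp_apply, h2, h1, RingHom.id_apply]
  refine ⟨RingEquiv.ofRingHom w₀ w₀ h3 h3, h1, h2, fun x => RingHom.congr_fun h3 x, ?_⟩
  intro c
  have e : algebraMap E (modularFunctionFieldFullC E (M * q)) c =
      ssvmdIncl E M q (algebraMap E (modularFunctionFieldFullC E M) c) := by
    rw [AlgHom.commutes]
  have e' : algebraMap E (modularFunctionFieldFullC E (M * q)) c =
      ssvmfPhi E M q (algebraMap E (modularFunctionFieldFullC E M) c) := by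
    apply Subtype.ext
    rw [ssvmfPhi_coe]
    show algebraMap E (LaurentSeries E) c = qExpand E q (algebraMap E (LaurentSeries E) c)
    rw [algebraMap_laurentSeries_eq_single, qExpand_single, mul_zero]
  show w₀ _ = _
  rw [e, h1, ← e', ← e]

end Involution

/-! ### `w` exchanges `V₁` and `V₂` -/

section Swap

/-- the maximal ideal of a pulled-back valuation ring -/
theorem ssvma_nonunits_comap {K K' : Type*} [Field K] [Field K'] (V : ValuationSubring K')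
    (σ : K →+* K') (x : K) : x ∈ (V.comap σ).nonunits ↔ σ x ∈ V.nonunits := by
  rw [ValuationSubring.mem_nonunits_iff_or, ValuationSubring.mem_nonunits_iff_or,
    ValuationSubring.mem_comap, map_inv₀, map_eq_zero]

theorem ssvma_neg_mem_nonunits {K : Type*} [Field K] (V : ValuationSubring K) {x : K}
    (hx : x ∈ V.nonunits) : -x ∈ V.nonunits := by
  rw [ValuationSubring.mem_nonunits_iff_or] at hx ⊢
  rcases hx with hx | hx
  · exact Or.inl (by rw [hx, neg_zero])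
  · right
    intro h
    apply hx
    have : x⁻¹ = -((-x)⁻¹) := by rw [inv_neg, neg_neg]
    rw [this]
    exact neg_mem h

variable {q : ℕ} [Fact q.Prime] (𝔸 : ValuationSubring Qb) (E : IntermediateField ℚ Qb)
  [IsDiscreteValuationRing ↥(s18dVal 𝔸 E)] [CharZero ↥(s18dVal 𝔸 E)]
variable (M : ℕ) [NeZero M]

set_option maxHeartbeats 2000000 in
/-- **`w⁻¹(V₂) = V₁`** -/
theorem ssvma_comap_V₂ (hA : 𝔸.LiesOverPrime q) (hqM : ¬ q ∣ M) {ϖ : ↥(s18dVal 𝔸 E)}
    (hϖ : Irreducible ϖ)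
    (Ξ G : haveI : NeZero q := ⟨(Fact.out : q.Prime).ne_zero⟩; (↥(ssvmmR 𝔸 E M q))[X])
    (h : haveI : NeZero q := ⟨(Fact.out : q.Prime).ne_zero⟩
      SsvAmb (ssvmmR 𝔸 E M q) (ssvmgRUnif (ssvmm_le E M q) ϖ) (ssvmmY E M q) Ξ
        (X - C (ssvmmJ 𝔸 E M q ^ q)) (X ^ q - C (ssvmmJ 𝔸 E M q)) G)
    (w : haveI : NeZero q := ⟨(Fact.out : q.Prime).ne_zero⟩
      modularFunctionFieldFullC E (M * q) ≃+* modularFunctionFieldFullC E (M * q))
    (hwα : haveI : NeZero q := ⟨(Fact.out : q.Prime).ne_zero⟩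
      ∀ x : modularFunctionFieldFullC E M, w (ssvmdIncl E M q x) = ssvmfPhi E M q x)
    (hwβ : haveI : NeZero q := ⟨(Fact.out : q.Prime).ne_zero⟩
      ∀ x : modularFunctionFieldFullC E M, w (ssvmfPhi E M q x) = ssvmdIncl E M q x) :
    haveI : NeZero q := ⟨(Fact.out : q.Prime).ne_zero⟩
    h.V₂.comap (w : modularFunctionFieldFullC E (M * q) →+* modularFunctionFieldFullC E (M * q)) =
      h.V₁ := by
  have hq : q.Prime := Fact.out
  haveI : NeZero q := ⟨hq.ne_zero⟩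
  refine h.eq_V₁ _ ?_ ?_ ?_
  · -- `R ⊆ w⁻¹ V₂`
    intro r
    obtain ⟨x₀, hx₀, hr⟩ := (mem_ssvmgR _ (ssvmm_le E M q)).mp r.2
    rw [ValuationSubring.mem_comap, ← hr]
    have e : (w : modularFunctionFieldFullC E (M * q) →+* modularFunctionFieldFullC E (M * q))
        (IntermediateField.inclusion (ssvmm_le E M q) x₀) = ssvmfPhi E M q x₀ := hwα x₀
    rw [e]
    exact ssvmf_phi_mem₂ 𝔸 E M hA hqM hϖ Ξ G h x₀ hx₀
  · -- `ϖ`
    rw [ssvma_nonunits_comap]
    have e : (w : modularFunctionFieldFullC E (M * q) →+* modularFunctionFieldFullC E (M * q))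
        ((ssvmgRUnif (ssvmm_le E M q) ϖ : ↥(ssvmmR 𝔸 E M q)) :
          modularFunctionFieldFullC E (M * q)) =
        ((ssvmgRUnif (ssvmm_le E M q) ϖ : ↥(ssvmmR 𝔸 E M q)) :
          modularFunctionFieldFullC E (M * q)) := by
      rw [ssvmgRUnif_coe]
      have e1 : algebraMap ↥(s18dVal 𝔸 E) ↥(modularFunctionFieldFullC E (M * q)) ϖ =
          ssvmdIncl E M q (algebraMap ↥(s18dVal 𝔸 E) ↥(modularFunctionFieldFullC E M) ϖ) := by
        apply Subtype.ext
        rw [ssvmdIncl_coe, s18v_coe_algebraMap, s18v_coe_algebraMap]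
      have e2 : algebraMap ↥(s18dVal 𝔸 E) ↥(modularFunctionFieldFullC E (M * q)) ϖ =
          ssvmfPhi E M q (algebraMap ↥(s18dVal 𝔸 E) ↥(modularFunctionFieldFullC E M) ϖ) := by
        apply Subtype.ext
        rw [ssvmfPhi_coe, s18v_coe_algebraMap, s18v_coe_algebraMap,
          algebraMap_laurentSeries_eq_single, qExpand_single, mul_zero]
      rw [RingEquiv.coe_toRingHom]
      conv_lhs => rw [e1]
      rw [hwα, ← e2]
    rw [e]
    exact h.unif_mem₂
  · -- `F₁(y)`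
    rw [ssvma_nonunits_comap]
    have ey : ssvmmY E M q = ssvmfPhi E M q (ssvmdJ E M) := Subtype.ext rfl
    have ej : ssvmdJ E (M * q) = ssvmdIncl E M q (ssvmdJ E M) :=
      (Subtype.ext (ssvmdIncl_coe E M q (ssvmdJ E M))).symm
    have eF₁ : aeval (ssvmmY E M q) (X - C (ssvmmJ 𝔸 E M q ^ q) : (↥(ssvmmR 𝔸 E M q))[X]) =
        ssvmmY E M q - ssvmdJ E (M * q) ^ q := by
      rw [map_sub, aeval_X, aeval_C, map_pow]
      congr 2
      exact ssvmmJ_coe 𝔸 E M q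
    have eF₂ : aeval (ssvmmY E M q) (X ^ q - C (ssvmmJ 𝔸 E M q) : (↥(ssvmmR 𝔸 E M q))[X]) =
        ssvmmY E M q ^ q - ssvmdJ E (M * q) := by
      rw [map_sub, map_pow, aeval_X, aeval_C]
      congr 1
      exact ssvmmJ_coe 𝔸 E M q
    have key : (w : modularFunctionFieldFullC E (M * q) →+* modularFunctionFieldFullC E (M * q))
        (aeval (ssvmmY E M q) (X - C (ssvmmJ 𝔸 E M q ^ q) : (↥(ssvmmR 𝔸 E M q))[X])) =
        -(aeval (ssvmmY E M q) (X ^ q - C (ssvmmJ 𝔸 E M q) : (↥(ssvmmR 𝔸 E M q))[X])) := by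
      rw [eF₁, eF₂, map_sub, map_pow, RingEquiv.coe_toRingHom, ey, ej, hwα, hwβ, neg_sub]
    rw [key]
    exact ssvma_neg_mem_nonunits _ h.aeval₂_mem

set_option maxHeartbeats 2000000 in
/-- **`w⁻¹(V₁) = V₂`** -/
theorem ssvma_comap_V₁ (hA : 𝔸.LiesOverPrime q) (hqM : ¬ q ∣ M) {ϖ : ↥(s18dVal 𝔸 E)}
    (hϖ : Irreducible ϖ)
    (Ξ G : haveI : NeZero q := ⟨(Fact.out : q.Prime).ne_zero⟩; (↥(ssvmmR 𝔸 E M q))[X])
    (h : haveI : NeZero q := ⟨(Fact.out : q.Prime).ne_zero⟩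
      SsvAmb (ssvmmR 𝔸 E M q) (ssvmgRUnif (ssvmm_le E M q) ϖ) (ssvmmY E M q) Ξ
        (X - C (ssvmmJ 𝔸 E M q ^ q)) (X ^ q - C (ssvmmJ 𝔸 E M q)) G)
    (w : haveI : NeZero q := ⟨(Fact.out : q.Prime).ne_zero⟩
      modularFunctionFieldFullC E (M * q) ≃+* modularFunctionFieldFullC E (M * q))
    (hwα : haveI : NeZero q := ⟨(Fact.out : q.Prime).ne_zero⟩
      ∀ x : modularFunctionFieldFullC E M, w (ssvmdIncl E M q x) = ssvmfPhi E M q x)
    (hwβ : haveI : NeZero q := ⟨(Fact.out : q.Prime).ne_zero⟩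
      ∀ x : modularFunctionFieldFullC E M, w (ssvmfPhi E M q x) = ssvmdIncl E M q x)
    (hww : haveI : NeZero q := ⟨(Fact.out : q.Prime).ne_zero⟩
      ∀ x : modularFunctionFieldFullC E (M * q), w (w x) = x) :
    haveI : NeZero q := ⟨(Fact.out : q.Prime).ne_zero⟩
    h.V₁.comap (w : modularFunctionFieldFullC E (M * q) →+* modularFunctionFieldFullC E (M * q)) =
      h.V₂ := by
  have hq : q.Prime := Fact.out
  haveI : NeZero q := ⟨hq.ne_zero⟩
  ext x
  rw [← ssvma_comap_V₂ 𝔸 E M hA hqM hϖ Ξ G h w hwα hwβ, ValuationSubring.mem_comap,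
    ValuationSubring.mem_comap, RingEquiv.coe_toRingHom, hww]

end Swap

/-! ### Transport of the two-factor package along a field isomorphism -/

section Transport

variable {F F' : Type*} [Field F] [Field F'] (R : Subring F) [IsDiscreteValuationRing ↥R]
  (w : F ≃+* F')

/-- `R ≃ w(R)` -/
def ssvmaEquiv : ↥R ≃+* ↥(R.map (w : F →+* F')) :=
  R.equivMapOfInjective (w : F →+* F') w.injective

theorem ssvmaEquiv_coe (r : ↥R) :
    ((ssvmaEquiv R w r : ↥(R.map (w : F →+* F'))) : F') = w (r : F) := rfl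

theorem ssvma_map_dvr : IsDiscreteValuationRing ↥(R.map (w : F →+* F')) :=
  IsDiscreteValuationRing.RingEquivClass.isDiscreteValuationRing (ssvmaEquiv R w)

theorem ssvma_mem_map_iff (x' : F') : x' ∈ R.map (w : F →+* F') ↔ w.symm x' ∈ R := by
  rw [Subring.mem_map]
  constructor
  · rintro ⟨r, hr, rfl⟩
    rw [RingEquiv.coe_toRingHom, RingEquiv.symm_apply_apply]
    exact hr
  · intro hx
    exact ⟨w.symm x', hx, by rw [RingEquiv.coe_toRingHom, RingEquiv.apply_symm_apply]⟩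

/-- evaluation commutes with the transport -/
theorem ssvma_aeval_map (y : F) (p : (↥R)[X]) :
    aeval (w y) (p.map (ssvmaEquiv R w : ↥R →+* ↥(R.map (w : F →+* F')))) = w (aeval y p) := by
  rw [aeval_def, eval₂_map, aeval_def, ← RingEquiv.coe_toRingHom w, hom_eval₂]
  rfl

variable {R} {ϖ : ↥R} {y : F} {Ξ F₁ F₂ G : (↥R)[X]}

/-- **transport of `SsvAmb`** along a field isomorphism -/
theorem SsvAmb.ssvmaMap [IsDiscreteValuationRing ↥(R.map (w : F →+* F'))]
    (h : SsvAmb R ϖ y Ξ F₁ F₂ G) :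
    SsvAmb (R.map (w : F →+* F')) (ssvmaEquiv R w ϖ) (w y)
      (Ξ.map (ssvmaEquiv R w : ↥R →+* ↥(R.map (w : F →+* F'))))
      (F₁.map (ssvmaEquiv R w : ↥R →+* ↥(R.map (w : F →+* F'))))
      (F₂.map (ssvmaEquiv R w : ↥R →+* ↥(R.map (w : F →+* F'))))
      (G.map (ssvmaEquiv R w : ↥R →+* ↥(R.map (w : F →+* F')))) := by
  have hres : ∀ p : (↥R)[X],
      (p.map (ssvmaEquiv R w : ↥R →+* ↥(R.map (w : F →+* F')))).map
        (residue ↥(R.map (w : F →+* F'))) =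
      Polynomial.mapEquiv (ResidueField.mapEquiv (ssvmaEquiv R w)) (p.map (residue ↥R)) := by
    intro p
    rw [Polynomial.mapEquiv_apply, Polynomial.map_map, Polynomial.map_map]
    rfl
  have hirr : Irreducible (ssvmaEquiv R w ϖ) :=
    (MulEquiv.irreducible_iff (ssvmaEquiv R w)).mpr h.irr
  have hfac : Ξ.map (ssvmaEquiv R w : ↥R →+* ↥(R.map (w : F →+* F'))) =
      F₁.map (ssvmaEquiv R w : ↥R →+* ↥(R.map (w : F →+* F'))) *
        F₂.map (ssvmaEquiv R w : ↥R →+* ↥(R.map (w : F →+* F'))) +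
      C (ssvmaEquiv R w ϖ) * G.map (ssvmaEquiv R w : ↥R →+* ↥(R.map (w : F →+* F'))) := by
    rw [h.fac, Polynomial.map_add, Polynomial.map_mul, Polynomial.map_mul, Polynomial.map_C]
    rfl
  have hirr₁ : Irreducible ((F₁.map (ssvmaEquiv R w : ↥R →+* ↥(R.map (w : F →+* F')))).map
      (residue ↥(R.map (w : F →+* F')))) := by
    rw [hres]
    exact (MulEquiv.irreducible_iff
      (Polynomial.mapEquiv (ResidueField.mapEquiv (ssvmaEquiv R w)))).mpr h.irr₁
  have hirr₂ : Irreducible ((F₂.map (ssvmaEquiv R w : ↥R →+* ↥(R.map (w : F →+* F')))).map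
      (residue ↥(R.map (w : F →+* F')))) := by
    rw [hres]
    exact (MulEquiv.irreducible_iff
      (Polynomial.mapEquiv (ResidueField.mapEquiv (ssvmaEquiv R w)))).mpr h.irr₂
  have hcop : IsCoprime ((F₁.map (ssvmaEquiv R w : ↥R →+* ↥(R.map (w : F →+* F')))).map
      (residue ↥(R.map (w : F →+* F'))))
      ((F₂.map (ssvmaEquiv R w : ↥R →+* ↥(R.map (w : F →+* F')))).map
      (residue ↥(R.map (w : F →+* F')))) := by
    rw [hres, hres]
    obtain ⟨a, b, hab⟩ := h.cop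
    refine ⟨Polynomial.mapEquiv (ResidueField.mapEquiv (ssvmaEquiv R w)) a,
      Polynomial.mapEquiv (ResidueField.mapEquiv (ssvmaEquiv R w)) b, ?_⟩
    rw [← map_mul, ← map_mul, ← map_add, hab, map_one]
  have hroot : aeval (w y) (Ξ.map (ssvmaEquiv R w : ↥R →+* ↥(R.map (w : F →+* F')))) = 0 := by
    rw [ssvma_aeval_map, h.root, map_zero]
  refine
    { irr := hirr
      monic := h.monic.map _
      root := hroot
      ker := ?_
      fac := hfac
      irr₁ := hirr₁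
      irr₂ := hirr₂
      cop := hcop
      gen := ?_ }
  · intro g hg
    have e : g = (g.map ((ssvmaEquiv R w).symm : ↥(R.map (w : F →+* F')) →+* ↥R)).map
        (ssvmaEquiv R w : ↥R →+* ↥(R.map (w : F →+* F'))) := by
      rw [Polynomial.map_map]
      conv_lhs => rw [← Polynomial.map_id (p := g)]
      congr 1
      ext x
      simp
    rw [e, ssvma_aeval_map] at hg
    have h0 : aeval y (g.map ((ssvmaEquiv R w).symm : ↥(R.map (w : F →+* F')) →+* ↥R)) = 0 :=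
      w.injective (by rw [hg, map_zero])
    rw [e]
    exact Polynomial.map_dvd _ (h.ker _ h0)
  · intro x'
    obtain ⟨a, b, hb, hab⟩ := h.gen (w.symm x')
    refine ⟨a.map (ssvmaEquiv R w : ↥R →+* ↥(R.map (w : F →+* F'))),
      b.map (ssvmaEquiv R w : ↥R →+* ↥(R.map (w : F →+* F'))), ?_, ?_⟩
    · rw [ssvma_aeval_map]
      exact fun h0 => hb (w.injective (by rw [h0, map_zero]))
    · rw [ssvma_aeval_map, ssvma_aeval_map, ← hab, map_mul, RingEquiv.apply_symm_apply]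

/-- the first valuation ring of the transported package -/
theorem SsvAmb.ssvmaMap_V₁ [IsDiscreteValuationRing ↥(R.map (w : F →+* F'))]
    (h : SsvAmb R ϖ y Ξ F₁ F₂ G) :
    (h.ssvmaMap w).V₁ = h.V₁.comap (w.symm : F' →+* F) := by
  symm
  refine (h.ssvmaMap w).eq_V₁ _ ?_ ?_ ?_
  · intro r'
    rw [ValuationSubring.mem_comap, RingEquiv.coe_toRingHom]
    have hr := (ssvma_mem_map_iff R w (r' : F')).mp r'.2
    have : (w.symm (r' : F')) ∈ Algebra.adjoin ↥R {y} :=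
      Subalgebra.algebraMap_mem (Algebra.adjoin ↥R {y}) (⟨_, hr⟩ : ↥R)
    exact ((h.mem_adjoin_iff _).mp this).1
  · rw [ssvma_nonunits_comap, ssvmaEquiv_coe, RingEquiv.coe_toRingHom,
      RingEquiv.symm_apply_apply]
    exact h.unif_mem₁
  · rw [ssvma_nonunits_comap, ssvma_aeval_map, RingEquiv.coe_toRingHom,
      RingEquiv.symm_apply_apply]
    exact h.aeval₁_mem

/-- the second valuation ring of the transported package -/
theorem SsvAmb.ssvmaMap_V₂ [IsDiscreteValuationRing ↥(R.map (w : F →+* F'))]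
    (h : SsvAmb R ϖ y Ξ F₁ F₂ G) :
    (h.ssvmaMap w).V₂ = h.V₂.comap (w.symm : F' →+* F) := by
  symm
  refine (h.ssvmaMap w).eq_V₂ _ ?_ ?_ ?_
  · intro r'
    rw [ValuationSubring.mem_comap, RingEquiv.coe_toRingHom]
    have hr := (ssvma_mem_map_iff R w (r' : F')).mp r'.2
    have : (w.symm (r' : F')) ∈ Algebra.adjoin ↥R {y} :=
      Subalgebra.algebraMap_mem (Algebra.adjoin ↥R {y}) (⟨_, hr⟩ : ↥R)
    exact ((h.mem_adjoin_iff _).mp this).2
  · rw [ssvma_nonunits_comap, ssvmaEquiv_coe, RingEquiv.coe_toRingHom,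
      RingEquiv.symm_apply_apply]
    exact h.unif_mem₂
  · rw [ssvma_nonunits_comap, ssvma_aeval_map, RingEquiv.coe_toRingHom,
      RingEquiv.symm_apply_apply]
    exact h.aeval₂_mem

/-- evaluation of `X - C (a^n)` over a subring -/
theorem ssvma_aeval_sub_C_pow {K : Type*} [Field K] (S : Subring K) (y : K) (a : ↥S) (n : ℕ) :
    aeval y (X - C (a ^ n) : (↥S)[X]) = y - (a : K) ^ n := by
  rw [map_sub, aeval_X, aeval_C, map_pow]
  rfl

/-- evaluation of `X^n - C a` over a subring -/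
theorem ssvma_aeval_pow_sub_C {K : Type*} [Field K] (S : Subring K) (y : K) (a : ↥S) (n : ℕ) :
    aeval y (X ^ n - C a : (↥S)[X]) = y ^ n - (a : K) := by
  rw [map_sub, map_pow, aeval_X, aeval_C]
  rfl

/-- transport of `SsvAmb` with the factors `X - C (a^n)`, `X^n - C a` in literal shape -/
theorem SsvAmb.ssvmaMap' [IsDiscreteValuationRing ↥(R.map (w : F →+* F'))] {a : ↥R} {n : ℕ}
    (h : SsvAmb R ϖ y Ξ (X - C (a ^ n)) (X ^ n - C a) G) :
    SsvAmb (R.map (w : F →+* F')) (ssvmaEquiv R w ϖ) (w y)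
      (Ξ.map (ssvmaEquiv R w : ↥R →+* ↥(R.map (w : F →+* F'))))
      (X - C (ssvmaEquiv R w a ^ n)) (X ^ n - C (ssvmaEquiv R w a))
      (G.map (ssvmaEquiv R w : ↥R →+* ↥(R.map (w : F →+* F')))) := by
  have key := h.ssvmaMap w
  have e1 : (X - C (a ^ n) : (↥R)[X]).map
      (ssvmaEquiv R w : ↥R →+* ↥(R.map (w : F →+* F'))) = X - C (ssvmaEquiv R w a ^ n) := by
    rw [Polynomial.map_sub, Polynomial.map_X, Polynomial.map_C, map_pow]
    rfl
  have e2 : (X ^ n - C a : (↥R)[X]).map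
      (ssvmaEquiv R w : ↥R →+* ↥(R.map (w : F →+* F'))) = X ^ n - C (ssvmaEquiv R w a) := by
    rw [Polynomial.map_sub, Polynomial.map_pow, Polynomial.map_X, Polynomial.map_C]
    rfl
  rw [e1, e2] at key
  exact key

/-- the first valuation ring of the transported package (literal shape) -/
theorem SsvAmb.ssvmaMap'_V₁ [IsDiscreteValuationRing ↥(R.map (w : F →+* F'))] {a : ↥R} {n : ℕ}
    (h : SsvAmb R ϖ y Ξ (X - C (a ^ n)) (X ^ n - C a) G) :
    (h.ssvmaMap' w).V₁ = h.V₁.comap (w.symm : F' →+* F) := by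
  symm
  refine (h.ssvmaMap' w).eq_V₁ _ ?_ ?_ ?_
  · intro r'
    rw [ValuationSubring.mem_comap, RingEquiv.coe_toRingHom]
    have hr := (ssvma_mem_map_iff R w (r' : F')).mp r'.2
    have : (w.symm (r' : F')) ∈ Algebra.adjoin ↥R {y} :=
      Subalgebra.algebraMap_mem (Algebra.adjoin ↥R {y}) (⟨_, hr⟩ : ↥R)
    exact ((h.mem_adjoin_iff _).mp this).1
  · rw [ssvma_nonunits_comap, ssvmaEquiv_coe, RingEquiv.coe_toRingHom,
      RingEquiv.symm_apply_apply]
    exact h.unif_mem₁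
  · have e : aeval (w y) (X - C (ssvmaEquiv R w a ^ n) : (↥(R.map (w : F →+* F')))[X]) =
        w (aeval y (X - C (a ^ n) : (↥R)[X])) := by
      rw [ssvma_aeval_sub_C_pow, ssvma_aeval_sub_C_pow, map_sub, map_pow, ssvmaEquiv_coe]
    rw [ssvma_nonunits_comap, e, RingEquiv.coe_toRingHom, RingEquiv.symm_apply_apply]
    exact h.aeval₁_mem

/-- the second valuation ring of the transported package (literal shape) -/
theorem SsvAmb.ssvmaMap'_V₂ [IsDiscreteValuationRing ↥(R.map (w : F →+* F'))] {a : ↥R} {n : ℕ}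
    (h : SsvAmb R ϖ y Ξ (X - C (a ^ n)) (X ^ n - C a) G) :
    (h.ssvmaMap' w).V₂ = h.V₂.comap (w.symm : F' →+* F) := by
  symm
  refine (h.ssvmaMap' w).eq_V₂ _ ?_ ?_ ?_
  · intro r'
    rw [ValuationSubring.mem_comap, RingEquiv.coe_toRingHom]
    have hr := (ssvma_mem_map_iff R w (r' : F')).mp r'.2
    have : (w.symm (r' : F')) ∈ Algebra.adjoin ↥R {y} :=
      Subalgebra.algebraMap_mem (Algebra.adjoin ↥R {y}) (⟨_, hr⟩ : ↥R)
    exact ((h.mem_adjoin_iff _).mp this).2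
  · rw [ssvma_nonunits_comap, ssvmaEquiv_coe, RingEquiv.coe_toRingHom,
      RingEquiv.symm_apply_apply]
    exact h.unif_mem₂
  · have e : aeval (w y) (X ^ n - C (ssvmaEquiv R w a) : (↥(R.map (w : F →+* F')))[X]) =
        w (aeval y (X ^ n - C a : (↥R)[X])) := by
      rw [ssvma_aeval_pow_sub_C, ssvma_aeval_pow_sub_C, map_sub, map_pow, ssvmaEquiv_coe]
    rw [ssvma_nonunits_comap, e, RingEquiv.coe_toRingHom, RingEquiv.symm_apply_apply]
    exact h.aeval₂_mem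

/-- an involution is its own inverse -/
theorem ssvma_symm_eq {K : Type*} [Field K] (w : K ≃+* K) (hww : ∀ x, w (w x) = x) :
    (w.symm : K →+* K) = (w : K →+* K) := by
  ext x
  rw [RingEquiv.coe_toRingHom, RingEquiv.coe_toRingHom, RingEquiv.symm_apply_eq, hww]

end Transport

/-! ### The mirrored modular package : `φ F₀ ⊂ F`, `y' = α j`, with `V₁, V₂` exchanged -/

section Mirror

variable {q : ℕ} [Fact q.Prime] (𝔸 : ValuationSubring Qb) (E : IntermediateField ℚ Qb)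
  [IsDiscreteValuationRing ↥(s18dVal 𝔸 E)] [CharZero ↥(s18dVal 𝔸 E)]
variable (M : ℕ) [NeZero M]

/-- the elements of `w(R)` : the images under `φ` of the Gauss ring of `F_E(M)` -/
theorem ssvma_mem_mirror_iff
    (w : haveI : NeZero q := ⟨(Fact.out : q.Prime).ne_zero⟩
      modularFunctionFieldFullC E (M * q) ≃+* modularFunctionFieldFullC E (M * q))
    (hwα : haveI : NeZero q := ⟨(Fact.out : q.Prime).ne_zero⟩
      ∀ x : modularFunctionFieldFullC E M, w (ssvmdIncl E M q x) = ssvmfPhi E M q x)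
    (x : haveI : NeZero q := ⟨(Fact.out : q.Prime).ne_zero⟩
      modularFunctionFieldFullC E (M * q)) :
    haveI : NeZero q := ⟨(Fact.out : q.Prime).ne_zero⟩
    x ∈ (ssvmmR 𝔸 E M q).map
        (w : modularFunctionFieldFullC E (M * q) →+* modularFunctionFieldFullC E (M * q)) ↔
      ∃ x₀ : modularFunctionFieldFullC E M,
        x₀ ∈ s18vO ↥(s18dVal 𝔸 E) (modularFunctionFieldFullC E M) ∧ ssvmfPhi E M q x₀ = x := by
  have hq : q.Prime := Fact.out
  haveI : NeZero q := ⟨hq.ne_zero⟩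
  rw [Subring.mem_map]
  constructor
  · rintro ⟨r, hr, rfl⟩
    obtain ⟨x₀, hx₀, rfl⟩ := (mem_ssvmgR _ (ssvmm_le E M q)).mp hr
    exact ⟨x₀, hx₀, (hwα x₀).symm⟩
  · rintro ⟨x₀, hx₀, rfl⟩
    exact ⟨ssvmdIncl E M q x₀, (mem_ssvmgR _ (ssvmm_le E M q)).mpr ⟨x₀, hx₀, rfl⟩, hwα x₀⟩

set_option maxHeartbeats 2000000 in
/-- **the mirror of `ssvmm_amb`** : the transported package `h.ssvmaMap' w` (base ring
`w(R) = φ(R₀)`, generator `w y = α j`, factors `X - (φ j)^q`, `X^q - φ j`) has the SAME two valuation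
rings, EXCHANGED. -/
theorem ssvma_mirror_V (hA : 𝔸.LiesOverPrime q) (hqM : ¬ q ∣ M) {ϖ : ↥(s18dVal 𝔸 E)}
    (hϖ : Irreducible ϖ)
    (Ξ G : haveI : NeZero q := ⟨(Fact.out : q.Prime).ne_zero⟩; (↥(ssvmmR 𝔸 E M q))[X])
    (h : haveI : NeZero q := ⟨(Fact.out : q.Prime).ne_zero⟩
      SsvAmb (ssvmmR 𝔸 E M q) (ssvmgRUnif (ssvmm_le E M q) ϖ) (ssvmmY E M q) Ξ
        (X - C (ssvmmJ 𝔸 E M q ^ q)) (X ^ q - C (ssvmmJ 𝔸 E M q)) G)
    (w : haveI : NeZero q := ⟨(Fact.out : q.Prime).ne_zero⟩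
      modularFunctionFieldFullC E (M * q) ≃+* modularFunctionFieldFullC E (M * q))
    (hwα : haveI : NeZero q := ⟨(Fact.out : q.Prime).ne_zero⟩
      ∀ x : modularFunctionFieldFullC E M, w (ssvmdIncl E M q x) = ssvmfPhi E M q x)
    (hwβ : haveI : NeZero q := ⟨(Fact.out : q.Prime).ne_zero⟩
      ∀ x : modularFunctionFieldFullC E M, w (ssvmfPhi E M q x) = ssvmdIncl E M q x)
    (hww : haveI : NeZero q := ⟨(Fact.out : q.Prime).ne_zero⟩
      ∀ x : modularFunctionFieldFullC E (M * q), w (w x) = x)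
    [haveI : NeZero q := ⟨(Fact.out : q.Prime).ne_zero⟩;
      IsDiscreteValuationRing ↥((ssvmmR 𝔸 E M q).map
        (w : modularFunctionFieldFullC E (M * q) →+* modularFunctionFieldFullC E (M * q)))] :
    haveI : NeZero q := ⟨(Fact.out : q.Prime).ne_zero⟩
    (h.ssvmaMap' w).V₁ = h.V₂ ∧ (h.ssvmaMap' w).V₂ = h.V₁ := by
  have hq : q.Prime := Fact.out
  haveI : NeZero q := ⟨hq.ne_zero⟩
  have hs := ssvma_symm_eq w hww
  constructor
  · refine (h.ssvmaMap'_V₁ w).trans ?_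
    rw [hs]
    exact ssvma_comap_V₁ 𝔸 E M hA hqM hϖ Ξ G h w hwα hwβ hww
  · refine (h.ssvmaMap'_V₂ w).trans ?_
    rw [hs]
    exact ssvma_comap_V₂ 𝔸 E M hA hqM hϖ Ξ G h w hwα hwβ

/-- the generator of the mirrored package is `α j` -/
theorem ssvma_w_gen
    (w : haveI : NeZero q := ⟨(Fact.out : q.Prime).ne_zero⟩
      modularFunctionFieldFullC E (M * q) ≃+* modularFunctionFieldFullC E (M * q))
    (hwβ : haveI : NeZero q := ⟨(Fact.out : q.Prime).ne_zero⟩
      ∀ x : modularFunctionFieldFullC E M, w (ssvmfPhi E M q x) = ssvmdIncl E M q x) :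
    haveI : NeZero q := ⟨(Fact.out : q.Prime).ne_zero⟩
    w (ssvmmY E M q) = ssvmdJ E (M * q) := by
  have hq : q.Prime := Fact.out
  haveI : NeZero q := ⟨hq.ne_zero⟩
  have ey : ssvmmY E M q = ssvmfPhi E M q (ssvmdJ E M) := Subtype.ext rfl
  have ej : ssvmdJ E (M * q) = ssvmdIncl E M q (ssvmdJ E M) :=
    (Subtype.ext (ssvmdIncl_coe E M q (ssvmdJ E M))).symm
  rw [ey, hwβ, ej]

/-- the constant `φ j` of the mirrored factors -/
theorem ssvma_w_J
    (w : haveI : NeZero q := ⟨(Fact.out : q.Prime).ne_zero⟩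
      modularFunctionFieldFullC E (M * q) ≃+* modularFunctionFieldFullC E (M * q))
    (hwα : haveI : NeZero q := ⟨(Fact.out : q.Prime).ne_zero⟩
      ∀ x : modularFunctionFieldFullC E M, w (ssvmdIncl E M q x) = ssvmfPhi E M q x) :
    haveI : NeZero q := ⟨(Fact.out : q.Prime).ne_zero⟩
    w ((ssvmmJ 𝔸 E M q : ↥(ssvmmR 𝔸 E M q)) : modularFunctionFieldFullC E (M * q)) =
      ssvmmY E M q := by
  have hq : q.Prime := Fact.out
  haveI : NeZero q := ⟨hq.ne_zero⟩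
  have ey : ssvmmY E M q = ssvmfPhi E M q (ssvmdJ E M) := Subtype.ext rfl
  have ej : ssvmdJ E (M * q) = ssvmdIncl E M q (ssvmdJ E M) :=
    (Subtype.ext (ssvmdIncl_coe E M q (ssvmdJ E M))).symm
  rw [ssvmmJ_coe, ej, hwα, ey]

end Mirror

/-! ### Explicit reductions : `V₁` is the Gauss ring of `F_E(M q)` and `V₂ = w⁻¹(V₁)` -/

section Reductions

variable {q : ℕ} [Fact q.Prime] (𝔸 : ValuationSubring Qb) (E : IntermediateField ℚ Qb)
  [IsDiscreteValuationRing ↥(s18dVal 𝔸 E)] [CharZero ↥(s18dVal 𝔸 E)]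
variable (M : ℕ) [NeZero M]

/-- `j` lies in the Gauss ring, with reduction `j` -/
theorem ssvma_j_mem :
    ∃ hj : ssvmdJ E M ∈ s18vO ↥(s18dVal 𝔸 E) (modularFunctionFieldFullC E M),
      s18vcRed (modularFunctionFieldFullC E M) ⟨ssvmdJ E M, hj⟩ =
        jqModC (ResidueField ↥(s18dVal 𝔸 E)) := by
  have hjO : ssvmdJ E M ∈ s18vO ↥(s18dVal 𝔸 E) (modularFunctionFieldFullC E M) :=
    ⟨jqModC ↥(s18dVal 𝔸 E), 1, ssvmm_incl_jqModC_mem 𝔸 E M, by rw [map_one]; exact one_mem _,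
      by rw [map_one]; exact one_ne_zero, by
        rw [map_one, mul_one, coeffMap_jqModC]
        rfl⟩
  refine ⟨hjO, ?_⟩
  rw [s18vcRed_incl _ _ (jqModC ↥(s18dVal 𝔸 E)) (by
    rw [coeffMap_jqModC]
    rfl), coeffMap_jqModC]

set_option maxHeartbeats 2000000 in
/-- **`V₁` is the Gauss ring of `F_E(M q)`** -/
theorem ssvma_V₁_eq (hA : 𝔸.LiesOverPrime q) {ϖ : ↥(s18dVal 𝔸 E)} (hϖ : Irreducible ϖ)
    (Ξ G : haveI : NeZero q := ⟨(Fact.out : q.Prime).ne_zero⟩; (↥(ssvmmR 𝔸 E M q))[X])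
    (h : haveI : NeZero q := ⟨(Fact.out : q.Prime).ne_zero⟩
      SsvAmb (ssvmmR 𝔸 E M q) (ssvmgRUnif (ssvmm_le E M q) ϖ) (ssvmmY E M q) Ξ
        (X - C (ssvmmJ 𝔸 E M q ^ q)) (X ^ q - C (ssvmmJ 𝔸 E M q)) G) :
    haveI : NeZero q := ⟨(Fact.out : q.Prime).ne_zero⟩
    h.V₁ = ssvmfW hϖ (modularFunctionFieldFullC E (M * q)) (s18v_gen_full _) := by
  have hq : q.Prime := Fact.out
  haveI : NeZero q := ⟨hq.ne_zero⟩
  haveI : CharP (ResidueField ↥(s18dVal 𝔸 E)) q := s18v_charP hϖ (s18d_natCast_mem 𝔸 E hA)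
  symm
  refine h.eq_V₁ _ ?_ ?_ ?_
  · intro r
    obtain ⟨x₀, hx₀, hr⟩ := (mem_ssvmgR _ (ssvmm_le E M q)).mp r.2
    rw [← hr]
    obtain ⟨a, b, ha, hb, hb0, hxab⟩ := hx₀
    exact ⟨a, b, ssvmm_le E M q ha, ssvmm_le E M q hb, hb0, hxab⟩
  · rw [ssvmgRUnif_coe, ssvmf_mem_nonunits_iff]
    exact ⟨1, Subring.one_mem _, (mul_one _).symm⟩
  · obtain ⟨hjO, hjred⟩ := ssvma_j_mem 𝔸 E M
    obtain ⟨hjO', hjred'⟩ := ssvma_j_mem 𝔸 E (M * q)
    obtain ⟨h₁, hr₁⟩ := ssvmf_qExpand_mem q (modularFunctionFieldFullC E M)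
      (modularFunctionFieldFullC E (M * q))
      (fun x hx => full_degeneracyC_map_le E M q ⟨x, hx, rfl⟩) (ssvmdJ E M) hjO
    have eF₁ : aeval (ssvmmY E M q) (X - C (ssvmmJ 𝔸 E M q ^ q) : (↥(ssvmmR 𝔸 E M q))[X]) =
        ssvmmY E M q - ssvmdJ E (M * q) ^ q := by
      rw [ssvma_aeval_sub_C_pow, ssvmmJ_coe]
    have h₁' : ssvmmY E M q ∈ s18vO ↥(s18dVal 𝔸 E) (modularFunctionFieldFullC E (M * q)) := h₁
    have hr₁' : s18vcRed (modularFunctionFieldFullC E (M * q)) ⟨ssvmmY E M q, h₁'⟩ =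
        qExpand (ResidueField ↥(s18dVal 𝔸 E)) q (jqModC (ResidueField ↥(s18dVal 𝔸 E))) := by
      rw [← hjred]
      exact hr₁
    have hx : ssvmmY E M q - ssvmdJ E (M * q) ^ q ∈
        s18vO ↥(s18dVal 𝔸 E) (modularFunctionFieldFullC E (M * q)) :=
      Subring.sub_mem _ h₁' (Subring.pow_mem _ hjO' q)
    rw [eF₁, ssvmf_mem_nonunits_iff]
    refine (ssvmf_red_eq_zero_iff hϖ _ ⟨_, hx⟩).mp ?_
    have e2 : (⟨_, hx⟩ : ↥(s18vO ↥(s18dVal 𝔸 E) (modularFunctionFieldFullC E (M * q)))) =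
        ⟨_, h₁'⟩ - ⟨_, hjO'⟩ ^ q := rfl
    rw [e2, map_sub, map_pow, hr₁', hjred', gcjf_pow_char (ResidueField ↥(s18dVal 𝔸 E)) q,
      coeffMap_jqModC, sub_self]

/-- membership in `V₁`, `𝔪_{V₁}` : the Gauss ring of `F_E(M q)` and its reduction -/
theorem ssvma_mem₁_iff (hA : 𝔸.LiesOverPrime q) {ϖ : ↥(s18dVal 𝔸 E)} (hϖ : Irreducible ϖ)
    (Ξ G : haveI : NeZero q := ⟨(Fact.out : q.Prime).ne_zero⟩; (↥(ssvmmR 𝔸 E M q))[X])
    (h : haveI : NeZero q := ⟨(Fact.out : q.Prime).ne_zero⟩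
      SsvAmb (ssvmmR 𝔸 E M q) (ssvmgRUnif (ssvmm_le E M q) ϖ) (ssvmmY E M q) Ξ
        (X - C (ssvmmJ 𝔸 E M q ^ q)) (X ^ q - C (ssvmmJ 𝔸 E M q)) G)
    (x : haveI : NeZero q := ⟨(Fact.out : q.Prime).ne_zero⟩
      modularFunctionFieldFullC E (M * q)) :
    haveI : NeZero q := ⟨(Fact.out : q.Prime).ne_zero⟩
    (x ∈ h.V₁ ↔ x ∈ s18vO ↥(s18dVal 𝔸 E) (modularFunctionFieldFullC E (M * q))) ∧
    (x ∈ h.V₁.nonunits ↔
      ∃ hx : x ∈ s18vO ↥(s18dVal 𝔸 E) (modularFunctionFieldFullC E (M * q)),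
        s18vcRed (modularFunctionFieldFullC E (M * q)) ⟨x, hx⟩ = 0) := by
  have hq : q.Prime := Fact.out
  haveI : NeZero q := ⟨hq.ne_zero⟩
  rw [ssvma_V₁_eq 𝔸 E M hA hϖ Ξ G h]
  refine ⟨Iff.rfl, ?_⟩
  have key := ssvmf_nonunits_comap_iff hϖ (modularFunctionFieldFullC E (M * q))
    (s18v_gen_full _) (RingHom.id _) x
  have e : (ssvmfW hϖ (modularFunctionFieldFullC E (M * q)) (s18v_gen_full _)).comap
      (RingHom.id _) = ssvmfW hϖ (modularFunctionFieldFullC E (M * q)) (s18v_gen_full _) := by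
    ext z
    rfl
  rw [e] at key
  exact key

/-- membership in `V₂`, `𝔪_{V₂}` : apply `w`, then the Gauss ring of `F_E(M q)` -/
theorem ssvma_mem₂_iff (hA : 𝔸.LiesOverPrime q) (hqM : ¬ q ∣ M) {ϖ : ↥(s18dVal 𝔸 E)}
    (hϖ : Irreducible ϖ)
    (Ξ G : haveI : NeZero q := ⟨(Fact.out : q.Prime).ne_zero⟩; (↥(ssvmmR 𝔸 E M q))[X])
    (h : haveI : NeZero q := ⟨(Fact.out : q.Prime).ne_zero⟩
      SsvAmb (ssvmmR 𝔸 E M q) (ssvmgRUnif (ssvmm_le E M q) ϖ) (ssvmmY E M q) Ξ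
        (X - C (ssvmmJ 𝔸 E M q ^ q)) (X ^ q - C (ssvmmJ 𝔸 E M q)) G)
    (w : haveI : NeZero q := ⟨(Fact.out : q.Prime).ne_zero⟩
      modularFunctionFieldFullC E (M * q) ≃+* modularFunctionFieldFullC E (M * q))
    (hwα : haveI : NeZero q := ⟨(Fact.out : q.Prime).ne_zero⟩
      ∀ x : modularFunctionFieldFullC E M, w (ssvmdIncl E M q x) = ssvmfPhi E M q x)
    (hwβ : haveI : NeZero q := ⟨(Fact.out : q.Prime).ne_zero⟩
      ∀ x : modularFunctionFieldFullC E M, w (ssvmfPhi E M q x) = ssvmdIncl E M q x)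
    (hww : haveI : NeZero q := ⟨(Fact.out : q.Prime).ne_zero⟩
      ∀ x : modularFunctionFieldFullC E (M * q), w (w x) = x)
    (x : haveI : NeZero q := ⟨(Fact.out : q.Prime).ne_zero⟩
      modularFunctionFieldFullC E (M * q)) :
    haveI : NeZero q := ⟨(Fact.out : q.Prime).ne_zero⟩
    (x ∈ h.V₂ ↔ w x ∈ s18vO ↥(s18dVal 𝔸 E) (modularFunctionFieldFullC E (M * q))) ∧
    (x ∈ h.V₂.nonunits ↔
      ∃ hx : w x ∈ s18vO ↥(s18dVal 𝔸 E) (modularFunctionFieldFullC E (M * q)),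
        s18vcRed (modularFunctionFieldFullC E (M * q)) ⟨w x, hx⟩ = 0) := by
  have hq : q.Prime := Fact.out
  haveI : NeZero q := ⟨hq.ne_zero⟩
  have e := ssvma_comap_V₁ 𝔸 E M hA hqM hϖ Ξ G h w hwα hwβ hww
  have h1 := ssvma_mem₁_iff 𝔸 E M hA hϖ Ξ G h (w x)
  constructor
  · rw [← e, ValuationSubring.mem_comap]
    exact h1.1
  · rw [← e, ssvma_nonunits_comap]
    exact h1.2

/-- reduction of `α g` at `V₁` : `ḡ` -/
theorem ssvma_red_incl (ℓ : ℕ) [NeZero ℓ] (g : modularFunctionFieldFullC E M)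
    (hg : g ∈ s18vO ↥(s18dVal 𝔸 E) (modularFunctionFieldFullC E M)) :
    ∃ h' : ssvmdIncl E M ℓ g ∈ s18vO ↥(s18dVal 𝔸 E) (modularFunctionFieldFullC E (M * ℓ)),
      s18vcRed (modularFunctionFieldFullC E (M * ℓ)) ⟨ssvmdIncl E M ℓ g, h'⟩ =
        s18vcRed (modularFunctionFieldFullC E M) ⟨g, hg⟩ := by
  obtain ⟨a, b, ha, hb, hb0, hxab⟩ := hg
  have hxab' : ((ssvmdIncl E M ℓ g : modularFunctionFieldFullC E (M * ℓ)) : LaurentSeries E) *
      s18vIncl ↥(s18dVal 𝔸 E) E b = s18vIncl ↥(s18dVal 𝔸 E) E a := by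
    rw [ssvmdIncl_coe]
    exact hxab
  have h' : ssvmdIncl E M ℓ g ∈ s18vO ↥(s18dVal 𝔸 E) (modularFunctionFieldFullC E (M * ℓ)) :=
    ⟨a, b, ssvmm_le E M ℓ ha, ssvmm_le E M ℓ hb, hb0, hxab'⟩
  refine ⟨h', ?_⟩
  rw [s18vcRed_eq _ ⟨_, h'⟩ a b hb0 hxab',
    s18vcRed_eq _ ⟨g, ⟨a, b, ha, hb, hb0, hxab⟩⟩ a b hb0 hxab]

/-- reduction of `φ g` at `V₁` : `ḡ(t^ℓ)` -/
theorem ssvma_red_phi (ℓ : ℕ) [NeZero ℓ] (g : modularFunctionFieldFullC E M)
    (hg : g ∈ s18vO ↥(s18dVal 𝔸 E) (modularFunctionFieldFullC E M)) :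
    ∃ h' : ssvmfPhi E M ℓ g ∈ s18vO ↥(s18dVal 𝔸 E) (modularFunctionFieldFullC E (M * ℓ)),
      s18vcRed (modularFunctionFieldFullC E (M * ℓ)) ⟨ssvmfPhi E M ℓ g, h'⟩ =
        qExpand (ResidueField ↥(s18dVal 𝔸 E)) ℓ
          (s18vcRed (modularFunctionFieldFullC E M) ⟨g, hg⟩) :=
  ssvmf_qExpand_mem ℓ (modularFunctionFieldFullC E M) (modularFunctionFieldFullC E (M * ℓ))
    (fun x hx => full_degeneracyC_map_le E M ℓ ⟨x, hx, rfl⟩) g hg

end Reductions

end Fermat.Agent.SS
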