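import Mathlib
import Fermat.Agent.SS.Val.ModAL

/-!
# The two valuation rings of `F_E(M q)` relative to the Gauss ring `V₀` of `F_E(M)` : symmetric form

For `V₀ = s18vO A₀ F_E(M)`, `α = ssvmdIncl`, `φ = ssvmfPhi`, and `V₁, V₂` the valuation rings of any
witness of `ssvmm_amb` :
* (gauss) `α V₀, φ V₀ ⊆ V₁ ∩ V₂`, and `α g, φ g ∈ 𝔪_{V_i} ↔ ϖ ∣ g`;
* (res₁) `V₁ = α V₀ + 𝔪_{V₁}`, (res₂) `V₂ = φ V₀ + 𝔪_{V₂}`;
* (frob₁) `(α g')^q ≡ φ g mod 𝔪_{V₁}`, (frob₂) `(φ g')^q ≡ α g mod 𝔪_{V₂}` when `Fr (red g') = red g`.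
The `V₁`-statements are the mirrors of the `V₂`-statements of `ModFrob2` under the involution `w`.
-/

set_option autoImplicit false
set_option linter.unusedSectionVars false
set_option linter.unusedVariables false
set_option linter.style.haveILetI false
set_option synthInstance.maxHeartbeats 400000

noncomputable section

namespace Fermat.Agent.SS

open Polynomial ModularCurve AlgebraicCurve IsLocalRing IntermediateField Fermat.Agent.S24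
  Fermat.Agent.G Fermat.Agent.S18
open scoped MatrixGroups

local notation "Qb" => AlgebraicClosure ℚ

/-- membership through a pulled-back valuation ring -/
theorem ssvmar_mem_of_comap {K : Type*} [Field K] {V V' : ValuationSubring K} {w : K ≃+* K}
    (e : V'.comap (w : K →+* K) = V) {x y : K} (hxy : w x = y) : x ∈ V ↔ y ∈ V' := by
  rw [← e, ValuationSubring.mem_comap, RingEquiv.coe_toRingHom, hxy]

/-- non-units through a pulled-back valuation ring -/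
theorem ssvmar_nonunits_of_comap {K : Type*} [Field K] {V V' : ValuationSubring K} {w : K ≃+* K}
    (e : V'.comap (w : K →+* K) = V) {x y : K} (hxy : w x = y) :
    x ∈ V.nonunits ↔ y ∈ V'.nonunits := by
  rw [← e, ssvma_nonunits_comap, RingEquiv.coe_toRingHom, hxy]

variable {q : ℕ} [Fact q.Prime] (𝔸 : ValuationSubring Qb) (E : IntermediateField ℚ Qb)
  [IsDiscreteValuationRing ↥(s18dVal 𝔸 E)] [CharZero ↥(s18dVal 𝔸 E)]
variable (M : ℕ) [NeZero M]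

set_option maxHeartbeats 1000000 in
/-- (res₁) : `V₁ = α V₀ + 𝔪_{V₁}` -/
theorem ssvmar_res₁ {ϖ : ↥(s18dVal 𝔸 E)}
    (Ξ G : haveI : NeZero q := ⟨(Fact.out : q.Prime).ne_zero⟩; (↥(ssvmmR 𝔸 E M q))[X])
    (h : haveI : NeZero q := ⟨(Fact.out : q.Prime).ne_zero⟩
      SsvAmb (ssvmmR 𝔸 E M q) (ssvmgRUnif (ssvmm_le E M q) ϖ) (ssvmmY E M q) Ξ
        (X - C (ssvmmJ 𝔸 E M q ^ q)) (X ^ q - C (ssvmmJ 𝔸 E M q)) G)
    (x : haveI : NeZero q := ⟨(Fact.out : q.Prime).ne_zero⟩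
      modularFunctionFieldFullC E (M * q))
    (hx : haveI : NeZero q := ⟨(Fact.out : q.Prime).ne_zero⟩
      x ∈ h.V₁) :
    haveI : NeZero q := ⟨(Fact.out : q.Prime).ne_zero⟩
    ∃ r : modularFunctionFieldFullC E M,
      r ∈ s18vO ↥(s18dVal 𝔸 E) (modularFunctionFieldFullC E M) ∧
        x - ssvmdIncl E M q r ∈ h.V₁.nonunits := by
  have hq : q.Prime := Fact.out
  haveI : NeZero q := ⟨hq.ne_zero⟩
  obtain ⟨r, hr⟩ := h.exists_const_sub_mem₁ (monic_X_sub_C (ssvmmJ 𝔸 E M q ^ q))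
    (natDegree_X_sub_C (ssvmmJ 𝔸 E M q ^ q)) hx
  obtain ⟨x₀, hx₀, hrx⟩ := (mem_ssvmgR _ (ssvmm_le E M q)).mp r.2
  refine ⟨x₀, hx₀, ?_⟩
  have e : ssvmdIncl E M q x₀ = (r : modularFunctionFieldFullC E (M * q)) := hrx
  rw [e]
  exact hr

set_option maxHeartbeats 1000000 in
/-- (gauss) at `V₁` : `α V₀, φ V₀ ⊆ V₁`, and the non-unit criteria -/
theorem ssvmar_gauss₁ (hA : 𝔸.LiesOverPrime q) (hqM : ¬ q ∣ M) {ϖ : ↥(s18dVal 𝔸 E)}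
    (hϖ : Irreducible ϖ)
    (Ξ G : haveI : NeZero q := ⟨(Fact.out : q.Prime).ne_zero⟩; (↥(ssvmmR 𝔸 E M q))[X])
    (h : haveI : NeZero q := ⟨(Fact.out : q.Prime).ne_zero⟩
      SsvAmb (ssvmmR 𝔸 E M q) (ssvmgRUnif (ssvmm_le E M q) ϖ) (ssvmmY E M q) Ξ
        (X - C (ssvmmJ 𝔸 E M q ^ q)) (X ^ q - C (ssvmmJ 𝔸 E M q)) G)
    (g : modularFunctionFieldFullC E M)
    (hg : g ∈ s18vO ↥(s18dVal 𝔸 E) (modularFunctionFieldFullC E M)) :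
    haveI : NeZero q := ⟨(Fact.out : q.Prime).ne_zero⟩
    ssvmdIncl E M q g ∈ h.V₁ ∧ ssvmfPhi E M q g ∈ h.V₁ ∧
    (ssvmdIncl E M q g ∈ h.V₁.nonunits ↔
      ∃ z ∈ s18vO ↥(s18dVal 𝔸 E) (modularFunctionFieldFullC E M),
        g = algebraMap ↥(s18dVal 𝔸 E) ↥(modularFunctionFieldFullC E M) ϖ * z) ∧
    (ssvmfPhi E M q g ∈ h.V₁.nonunits ↔
      ∃ z ∈ s18vO ↥(s18dVal 𝔸 E) (modularFunctionFieldFullC E M),
        g = algebraMap ↥(s18dVal 𝔸 E) ↥(modularFunctionFieldFullC E M) ϖ * z) := by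
  have hq : q.Prime := Fact.out
  haveI : NeZero q := ⟨hq.ne_zero⟩
  obtain ⟨w, hwα, hwβ, hww, -⟩ := ssvma_exists_w E M hqM
  have e := ssvma_comap_V₂ 𝔸 E M hA hqM hϖ Ξ G h w hwα hwβ
  exact ⟨(ssvmar_mem_of_comap e (hwα g)).mpr (ssvmf_phi_mem₂ 𝔸 E M hA hqM hϖ Ξ G h g hg),
    (ssvmar_mem_of_comap e (hwβ g)).mpr (ssvmf_incl_mem₂ 𝔸 E M hA hqM hϖ Ξ G h g hg),
    (ssvmar_nonunits_of_comap e (hwα g)).trans
      (ssvmf_phi_nonunit_iff 𝔸 E M hA hqM hϖ Ξ G h g hg),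
    (ssvmar_nonunits_of_comap e (hwβ g)).trans
      (ssvmf_incl_nonunit_iff 𝔸 E M hA hqM hϖ Ξ G h g hg)⟩

set_option maxHeartbeats 1000000 in
/-- (res₂) : `V₂ = φ V₀ + 𝔪_{V₂}` -/
theorem ssvmar_res₂ (hA : 𝔸.LiesOverPrime q) (hqM : ¬ q ∣ M) {ϖ : ↥(s18dVal 𝔸 E)}
    (hϖ : Irreducible ϖ)
    (Ξ G : haveI : NeZero q := ⟨(Fact.out : q.Prime).ne_zero⟩; (↥(ssvmmR 𝔸 E M q))[X])
    (h : haveI : NeZero q := ⟨(Fact.out : q.Prime).ne_zero⟩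
      SsvAmb (ssvmmR 𝔸 E M q) (ssvmgRUnif (ssvmm_le E M q) ϖ) (ssvmmY E M q) Ξ
        (X - C (ssvmmJ 𝔸 E M q ^ q)) (X ^ q - C (ssvmmJ 𝔸 E M q)) G)
    (x : haveI : NeZero q := ⟨(Fact.out : q.Prime).ne_zero⟩
      modularFunctionFieldFullC E (M * q))
    (hx : haveI : NeZero q := ⟨(Fact.out : q.Prime).ne_zero⟩
      x ∈ h.V₂) :
    haveI : NeZero q := ⟨(Fact.out : q.Prime).ne_zero⟩
    ∃ r : modularFunctionFieldFullC E M,
      r ∈ s18vO ↥(s18dVal 𝔸 E) (modularFunctionFieldFullC E M) ∧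
        x - ssvmfPhi E M q r ∈ h.V₂.nonunits := by
  have hq : q.Prime := Fact.out
  haveI : NeZero q := ⟨hq.ne_zero⟩
  obtain ⟨w, hwα, hwβ, hww, -⟩ := ssvma_exists_w E M hqM
  have e₁ := ssvma_comap_V₁ 𝔸 E M hA hqM hϖ Ξ G h w hwα hwβ hww
  have hwx : w x ∈ h.V₁ := (ssvmar_mem_of_comap e₁ rfl).mp hx
  obtain ⟨r, hr, hxr⟩ := ssvmar_res₁ 𝔸 E M Ξ G h (w x) hwx
  refine ⟨r, hr, ?_⟩
  have e2 : w (x - ssvmfPhi E M q r) = w x - ssvmdIncl E M q r := by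
    rw [map_sub, hwβ]
  exact (ssvmar_nonunits_of_comap e₁ e2).mpr hxr

set_option maxHeartbeats 1000000 in
/-- (frob₁) : if `Fr (red g') = red g` then `(α g')^q ≡ φ g mod 𝔪_{V₁}` -/
theorem ssvmar_frob₁ [CharP (ResidueField ↥(s18dVal 𝔸 E)) q] (hA : 𝔸.LiesOverPrime q)
    (hqM : ¬ q ∣ M) {ϖ : ↥(s18dVal 𝔸 E)} (hϖ : Irreducible ϖ)
    (Ξ G : haveI : NeZero q := ⟨(Fact.out : q.Prime).ne_zero⟩; (↥(ssvmmR 𝔸 E M q))[X])
    (h : haveI : NeZero q := ⟨(Fact.out : q.Prime).ne_zero⟩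
      SsvAmb (ssvmmR 𝔸 E M q) (ssvmgRUnif (ssvmm_le E M q) ϖ) (ssvmmY E M q) Ξ
        (X - C (ssvmmJ 𝔸 E M q ^ q)) (X ^ q - C (ssvmmJ 𝔸 E M q)) G)
    (g g' : modularFunctionFieldFullC E M)
    (hg : g ∈ s18vO ↥(s18dVal 𝔸 E) (modularFunctionFieldFullC E M))
    (hg' : g' ∈ s18vO ↥(s18dVal 𝔸 E) (modularFunctionFieldFullC E M))
    (hfr : coeffMap (frobenius (ResidueField ↥(s18dVal 𝔸 E)) q)
        (s18vcRed (modularFunctionFieldFullC E M) ⟨g', hg'⟩) =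
      s18vcRed (modularFunctionFieldFullC E M) ⟨g, hg⟩) :
    haveI : NeZero q := ⟨(Fact.out : q.Prime).ne_zero⟩
    ssvmdIncl E M q g' ^ q - ssvmfPhi E M q g ∈ h.V₁.nonunits := by
  have hq : q.Prime := Fact.out
  haveI : NeZero q := ⟨hq.ne_zero⟩
  obtain ⟨w, hwα, hwβ, hww, -⟩ := ssvma_exists_w E M hqM
  have key := ssvmf_frob₂ 𝔸 E M hA hqM hϖ Ξ G h g g' hg hg' hfr
  have e : w (ssvmdIncl E M q g' ^ q - ssvmfPhi E M q g) =
      ssvmfPhi E M q g' ^ q - ssvmdIncl E M q g := by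
    rw [map_sub, map_pow, hwα, hwβ]
  exact (ssvmar_nonunits_of_comap (ssvma_comap_V₂ 𝔸 E M hA hqM hϖ Ξ G h w hwα hwβ) e).mpr key

end Fermat.Agent.SS
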