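import Mathlib
import Fermat.Agent.SS.Val.Gauss2

/-!
# Program S, (VAL) in the chart at infinity : `SsvTwo` for `t⁻¹` from `SsvTwo` for `t`

The localisations `A[t]_(ϖ)` and `A[t⁻¹]_(ϖ)` coincide (`s18t_loc_inv`), hence so do the Gauss rings
`P_(ϖ)` and the Gauss divisibility (`s18t_dvdGauss_inv`) : every clause of `SsvTwo` transports.
(Needed for `ssgtop_germAll_of_single` with the coordinate `h_a⁻¹`.)
-/

set_option autoImplicit false
set_option linter.unusedSectionVars false
set_option linter.unusedVariables false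

noncomputable section

namespace Fermat.Agent.SS

open Polynomial IntermediateField Fermat.Agent.S18

universe u

variable {A : Type*} [CommRing A] [IsDomain A] [IsDiscreteValuationRing A] [CharZero A]
variable {L : Type*} [Field L] [Algebra A L] [IsFractionRing A L]
variable {F : Type u} [Field F] [Algebra A F] [Algebra L F] [IsScalarTower A L F]
variable {ϖ : A}

/-- the Gauss rings `P_(ϖ)` of the charts `t⁻¹` and `t` coincide -/
theorem ssvti_intLoc_inv (hϖ : Irreducible ϖ) (t : F) (ht : Transcendental L t) :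
    s18tIntLoc A t⁻¹ (C ϖ) (s18t_prime_C hϖ) = s18tIntLoc A t (C ϖ) (s18t_prime_C hϖ) := by
  unfold s18tIntLoc
  rw [s18t_loc_inv (L := L) hϖ t ht]

/-- **`SsvTwo` in the chart at infinity** -/
theorem ssvti_two_inv (hϖ : Irreducible ϖ) (t : F) (ht : Transcendental L t) {u₁ u₂ : F}
    {V₁ V₂ : ValuationSubring F} (h : SsvTwo hϖ t u₁ u₂ V₁ V₂) :
    SsvTwo hϖ t⁻¹ u₁ u₂ V₁ V₂ where
  ne := h.ne
  mem_iff x := by
    rw [ssvti_intLoc_inv (L := L) hϖ t ht]
    exact h.mem_iff x
  dvd_iff x := by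
    rw [s18t_dvdGauss_inv (L := L) hϖ t ht x]
    exact h.dvd_iff x
  unif₁ := h.unif₁
  unif₂ := h.unif₂
  mem₁ := h.mem₁
  mem₂ := h.mem₂
  unit₁ := h.unit₁
  unit₂ := h.unit₂
  cases V hV hϖV := by
    rw [s18t_loc_inv (L := L) hϖ t ht] at hV
    exact h.cases V hV hϖV

end Fermat.Agent.SS
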