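import Mathlib
import Fermat.Agent.SS.Val.ModALRes
import Fermat.Agent.SS.Dict.Aut
import Fermat.Agent.G.Unr.Cyc

/-!
# Galois / Frobenius-lift equivariance of the two valuation rings of `F_E(M q)`

For `τ ∈ Gal(E/ℚ)` preserving `𝔸 ∩ E`, the coefficientwise automorphism `s_N = ssdAutRing E N τ` of
`F_E(N)` preserves the Gauss ring, acts on reductions through the induced automorphism `τ̄` of the
residue field, commutes with `α`, `φ` and the Atkin-Lehner involution `w`, and preserves `V₁`, `V₂`.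
For a Frobenius lift, `τ̄` is the `q`-power map, whence the congruences
`φ (s h) ≡ (α h)^q mod 𝔪_{V₁}`, `α (s h) ≡ (φ h)^q mod 𝔪_{V₂}`.
-/

set_option autoImplicit false
set_option linter.unusedSectionVars false
set_option linter.unusedVariables false
set_option linter.style.haveILetI false
set_option synthInstance.maxHeartbeats 400000

noncomputable section

namespace Fermat.Agent.SS

open Polynomial ModularCurve AlgebraicCurve IsLocalRing IntermediateField Fermat.Agent.S24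
  Fermat.Agent.G Fermat.Agent.S18
open scoped MatrixGroups

local notation "Qb" => AlgebraicClosure ℚ

/-! ### Coefficientwise maps and Gauss rings (abstract) -/

section Abstract

variable {A₀ : Type*} [CommRing A₀] [IsDomain A₀] [IsDiscreteValuationRing A₀] [CharZero A₀]
variable {L₀ : Type*} [Field L₀] [Algebra A₀ L₀] [IsFractionRing A₀ L₀]

/-- a coefficientwise map compatible with `A₀ → L₀` and `A₀ → k₀` maps Gauss rings to Gauss rings,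
compatibly with the reductions -/
theorem ssvmgl_coeffMap_mem (τA : A₀ →+* A₀) (τL : L₀ →+* L₀)
    (τk : ResidueField A₀ →+* ResidueField A₀)
    (hAL : ∀ a, algebraMap A₀ L₀ (τA a) = τL (algebraMap A₀ L₀ a))
    (hAk : ∀ a, residue A₀ (τA a) = τk (residue A₀ a))
    (F F' : IntermediateField L₀ (LaurentSeries L₀)) (hmap : ∀ x ∈ F, coeffMap τL x ∈ F')
    (x : ↥F) (hx : x ∈ s18vO A₀ F) :
    ∃ h' : (⟨coeffMap τL (x : LaurentSeries L₀), hmap x x.2⟩ : ↥F') ∈ s18vO A₀ F',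
      s18vcRed F' ⟨_, h'⟩ = coeffMap τk (s18vcRed F ⟨x, hx⟩) := by
  obtain ⟨a, b, ha, hb, hb0, hxab⟩ := hx
  have e_incl : ∀ c : LaurentSeries A₀,
      s18vIncl A₀ L₀ (coeffMap τA c) = coeffMap τL (s18vIncl A₀ L₀ c) := by
    intro c
    rw [coeffMap_coeffMap, coeffMap_coeffMap]
    exact coeffMap_congr (RingHom.ext hAL) c
  have e_res : ∀ c : LaurentSeries A₀,
      s18vRes A₀ (coeffMap τA c) = coeffMap τk (s18vRes A₀ c) := by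
    intro c
    rw [coeffMap_coeffMap, coeffMap_coeffMap]
    exact coeffMap_congr (RingHom.ext hAk) c
  have ha' : s18vIncl A₀ L₀ (coeffMap τA a) ∈ F' := by
    rw [e_incl]
    exact hmap _ ha
  have hb' : s18vIncl A₀ L₀ (coeffMap τA b) ∈ F' := by
    rw [e_incl]
    exact hmap _ hb
  have hb0' : s18vRes A₀ (coeffMap τA b) ≠ 0 := by
    rw [e_res]
    intro h0
    exact hb0 (s18dd_coeffMap_injective τk (by rw [h0, map_zero]))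
  have hx' : coeffMap τL (x : LaurentSeries L₀) * s18vIncl A₀ L₀ (coeffMap τA b) =
      s18vIncl A₀ L₀ (coeffMap τA a) := by
    rw [e_incl, e_incl, ← map_mul, hxab]
  have h' : (⟨coeffMap τL (x : LaurentSeries L₀), hmap x x.2⟩ : ↥F') ∈ s18vO A₀ F' :=
    ⟨coeffMap τA a, coeffMap τA b, ha', hb', hb0', hx'⟩
  refine ⟨h', ?_⟩
  rw [s18vcRed_eq F' ⟨_, h'⟩ (coeffMap τA a) (coeffMap τA b) hb0' hx',
    s18vcRed_eq F ⟨x, ⟨a, b, ha, hb, hb0, hxab⟩⟩ a b hb0 hxab, e_res, e_res, map_div₀]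

end Abstract

/-! ### The base : `τ ∈ Gal(E/ℚ)` preserving `𝔸 ∩ E` -/

section Base

variable (𝔸 : ValuationSubring Qb) (E : IntermediateField ℚ Qb)

/-- `τ` preserves `𝔸 ∩ E` -/
def SsvmglStab (τ : E ≃ₐ[ℚ] E) : Prop := ∀ a : E, a ∈ s18dVal 𝔸 E ↔ τ a ∈ s18dVal 𝔸 E

variable {𝔸 E}

theorem SsvmglStab.symm {τ : E ≃ₐ[ℚ] E} (hτ : SsvmglStab 𝔸 E τ) : SsvmglStab 𝔸 E τ.symm := by
  intro a
  rw [hτ (τ.symm a), AlgEquiv.apply_symm_apply]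

theorem SsvmglStab.mul {τ τ' : E ≃ₐ[ℚ] E} (hτ : SsvmglStab 𝔸 E τ) (hτ' : SsvmglStab 𝔸 E τ') :
    SsvmglStab 𝔸 E (τ * τ') := by
  intro a
  rw [hτ' a, hτ (τ' a)]
  rfl

variable (𝔸 E)

/-- the restriction of `τ` to `𝔸 ∩ E` -/
def ssvmglBase (τ : E ≃ₐ[ℚ] E) (hτ : SsvmglStab 𝔸 E τ) :
    ↥(s18dVal 𝔸 E) ≃+* ↥(s18dVal 𝔸 E) where
  toFun a := ⟨τ a, (hτ a).mp a.2⟩
  invFun a := ⟨τ.symm a, (hτ.symm a).mp a.2⟩
  left_inv a := Subtype.ext (τ.symm_apply_apply a)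
  right_inv a := Subtype.ext (τ.apply_symm_apply a)
  map_mul' a b := Subtype.ext (map_mul τ (a : E) (b : E))
  map_add' a b := Subtype.ext (map_add τ (a : E) (b : E))

theorem ssvmglBase_coe (τ : E ≃ₐ[ℚ] E) (hτ : SsvmglStab 𝔸 E τ) (a : ↥(s18dVal 𝔸 E)) :
    ((ssvmglBase 𝔸 E τ hτ a : ↥(s18dVal 𝔸 E)) : E) = τ (a : E) := rfl

/-- the induced automorphism of the residue field of `𝔸 ∩ E` -/
def ssvmglRes (τ : E ≃ₐ[ℚ] E) (hτ : SsvmglStab 𝔸 E τ) :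
    ResidueField ↥(s18dVal 𝔸 E) ≃+* ResidueField ↥(s18dVal 𝔸 E) :=
  ResidueField.mapEquiv (ssvmglBase 𝔸 E τ hτ)

theorem ssvmglRes_residue (τ : E ≃ₐ[ℚ] E) (hτ : SsvmglStab 𝔸 E τ) (a : ↥(s18dVal 𝔸 E)) :
    ssvmglRes 𝔸 E τ hτ (residue _ a) = residue _ (ssvmglBase 𝔸 E τ hτ a) := rfl

end Base

/-! ### The coefficientwise automorphisms of `F_E(N)` -/

section Aut

variable (𝔸 : ValuationSubring Qb) (E : IntermediateField ℚ Qb)
  [IsDiscreteValuationRing ↥(s18dVal 𝔸 E)] [CharZero ↥(s18dVal 𝔸 E)]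

/-- `s_N` preserves the Gauss ring and acts on reductions through `τ̄` -/
theorem ssvmgl_aut_mem (N : ℕ) [NeZero N] (τ : E ≃ₐ[ℚ] E) (hτ : SsvmglStab 𝔸 E τ)
    (x : modularFunctionFieldFullC E N)
    (hx : x ∈ s18vO ↥(s18dVal 𝔸 E) (modularFunctionFieldFullC E N)) :
    ∃ h' : ssdAutRing E N τ x ∈ s18vO ↥(s18dVal 𝔸 E) (modularFunctionFieldFullC E N),
      s18vcRed (modularFunctionFieldFullC E N) ⟨ssdAutRing E N τ x, h'⟩ =
        coeffMap (ssvmglRes 𝔸 E τ hτ : ResidueField ↥(s18dVal 𝔸 E) →+* _)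
          (s18vcRed (modularFunctionFieldFullC E N) ⟨x, hx⟩) := by
  have hAL : ∀ a : ↥(s18dVal 𝔸 E), algebraMap ↥(s18dVal 𝔸 E) E
      ((ssvmglBase 𝔸 E τ hτ : ↥(s18dVal 𝔸 E) →+* ↥(s18dVal 𝔸 E)) a) =
      (τ : E →+* E) (algebraMap ↥(s18dVal 𝔸 E) E a) := fun a => rfl
  have hAk : ∀ a : ↥(s18dVal 𝔸 E), residue ↥(s18dVal 𝔸 E)
      ((ssvmglBase 𝔸 E τ hτ : ↥(s18dVal 𝔸 E) →+* ↥(s18dVal 𝔸 E)) a) =
      (ssvmglRes 𝔸 E τ hτ : ResidueField ↥(s18dVal 𝔸 E) →+* ResidueField ↥(s18dVal 𝔸 E))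
        (residue ↥(s18dVal 𝔸 E) a) := fun a => rfl
  exact ssvmgl_coeffMap_mem _ _ _ hAL hAk (modularFunctionFieldFullC E N)
    (modularFunctionFieldFullC E N)
    (fun x hx => s18dd_coeffMap_mem_full (τ : E →+* E) N hx) x hx

/-- `s_N` preserves the Gauss ring, both ways -/
theorem ssvmgl_aut_mem_iff (N : ℕ) [NeZero N] (τ : E ≃ₐ[ℚ] E) (hτ : SsvmglStab 𝔸 E τ)
    (x : modularFunctionFieldFullC E N) :
    ssdAutRing E N τ x ∈ s18vO ↥(s18dVal 𝔸 E) (modularFunctionFieldFullC E N) ↔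
      x ∈ s18vO ↥(s18dVal 𝔸 E) (modularFunctionFieldFullC E N) := by
  constructor
  · intro hx
    obtain ⟨h', -⟩ := ssvmgl_aut_mem 𝔸 E N τ.symm hτ.symm _ hx
    have e : ssdAutRing E N τ.symm (ssdAutRing E N τ x) = x :=
      (ssdAutRing E N τ).symm_apply_apply x
    rw [e] at h'
    exact h'
  · intro hx
    exact (ssvmgl_aut_mem 𝔸 E N τ hτ x hx).1

variable (M : ℕ) [NeZero M] (ℓ : ℕ) [NeZero ℓ]

/-- `s ∘ α = α ∘ s` -/
theorem ssvmgl_aut_incl (τ : E ≃ₐ[ℚ] E) (x : modularFunctionFieldFullC E M) :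
    ssdAutRing E (M * ℓ) τ (ssvmdIncl E M ℓ x) = ssvmdIncl E M ℓ (ssdAutRing E M τ x) := by
  apply Subtype.ext
  rw [coe_ssdAutRing_apply, ssvmdIncl_coe, ssvmdIncl_coe, coe_ssdAutRing_apply]

/-- `s ∘ φ = φ ∘ s` -/
theorem ssvmgl_aut_phi (τ : E ≃ₐ[ℚ] E) (x : modularFunctionFieldFullC E M) :
    ssdAutRing E (M * ℓ) τ (ssvmfPhi E M ℓ x) = ssvmfPhi E M ℓ (ssdAutRing E M τ x) := by
  apply Subtype.ext
  rw [coe_ssdAutRing_apply, ssvmfPhi_coe, ssvmfPhi_coe, coe_ssdAutRing_apply, coeffMap_qExpand]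

/-- `s j = j` -/
theorem ssvmgl_aut_J (τ : E ≃ₐ[ℚ] E) : ssdAutRing E M τ (ssvmdJ E M) = ssvmdJ E M := by
  apply Subtype.ext
  rw [coe_ssdAutRing_apply]
  exact coeffMap_jqModC _

/-- `s y = y` -/
theorem ssvmgl_aut_Y (τ : E ≃ₐ[ℚ] E) : ssdAutRing E (M * ℓ) τ (ssvmmY E M ℓ) = ssvmmY E M ℓ := by
  have ey : ssvmmY E M ℓ = ssvmfPhi E M ℓ (ssvmdJ E M) := Subtype.ext rfl
  rw [ey, ssvmgl_aut_phi, ssvmgl_aut_J]

end Aut

/-! ### `s` commutes with `w` and preserves `V₁`, `V₂` -/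

section Val

/-- a ring automorphism preserving a valuation ring preserves its maximal ideal -/
theorem ssvmgl_nonunits_of_mem {K : Type*} [Field K] (V : ValuationSubring K) (s : K ≃+* K)
    (hs : ∀ x, s x ∈ V ↔ x ∈ V) (x : K) : s x ∈ V.nonunits ↔ x ∈ V.nonunits := by
  rw [ValuationSubring.mem_nonunits_iff_or, ValuationSubring.mem_nonunits_iff_or, ← map_inv₀, hs,
    map_eq_zero_iff s s.injective]

variable {q : ℕ} [Fact q.Prime] (𝔸 : ValuationSubring Qb) (E : IntermediateField ℚ Qb)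
  [IsDiscreteValuationRing ↥(s18dVal 𝔸 E)] [CharZero ↥(s18dVal 𝔸 E)]
variable (M : ℕ) [NeZero M]

/-- `s ∘ w = w ∘ s` -/
theorem ssvmgl_aut_w (τ : E ≃ₐ[ℚ] E)
    (w : haveI : NeZero q := ⟨(Fact.out : q.Prime).ne_zero⟩
      modularFunctionFieldFullC E (M * q) ≃+* modularFunctionFieldFullC E (M * q))
    (hwα : haveI : NeZero q := ⟨(Fact.out : q.Prime).ne_zero⟩
      ∀ x : modularFunctionFieldFullC E M, w (ssvmdIncl E M q x) = ssvmfPhi E M q x)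
    (hwβ : haveI : NeZero q := ⟨(Fact.out : q.Prime).ne_zero⟩
      ∀ x : modularFunctionFieldFullC E M, w (ssvmfPhi E M q x) = ssvmdIncl E M q x)
    (x : haveI : NeZero q := ⟨(Fact.out : q.Prime).ne_zero⟩
      modularFunctionFieldFullC E (M * q)) :
    haveI : NeZero q := ⟨(Fact.out : q.Prime).ne_zero⟩
    ssdAutRing E (M * q) τ (w x) = w (ssdAutRing E (M * q) τ x) := by
  have hq : q.Prime := Fact.out
  haveI : NeZero q := ⟨hq.ne_zero⟩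
  have key := ssvma_hom_ext (↥E) M
    (f := (ssdAutRing E (M * q) τ).toRingHom.comp w.toRingHom)
    (g := w.toRingHom.comp (ssdAutRing E (M * q) τ).toRingHom) ?_ ?_
  · exact RingHom.congr_fun key x
  · intro x
    show ssdAutRing E (M * q) τ (w (ssvmdIncl E M q x)) =
      w (ssdAutRing E (M * q) τ (ssvmdIncl E M q x))
    rw [hwα, ssvmgl_aut_phi, ssvmgl_aut_incl, hwα]
  · intro x
    show ssdAutRing E (M * q) τ (w (ssvmfPhi E M q x)) =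
      w (ssdAutRing E (M * q) τ (ssvmfPhi E M q x))
    rw [hwβ, ssvmgl_aut_phi, ssvmgl_aut_incl, hwβ]

/-- **`s V₁ = V₁`** -/
theorem ssvmgl_aut_V₁ (hA : 𝔸.LiesOverPrime q) {ϖ : ↥(s18dVal 𝔸 E)} (hϖ : Irreducible ϖ)
    (Ξ G : haveI : NeZero q := ⟨(Fact.out : q.Prime).ne_zero⟩; (↥(ssvmmR 𝔸 E M q))[X])
    (h : haveI : NeZero q := ⟨(Fact.out : q.Prime).ne_zero⟩
      SsvAmb (ssvmmR 𝔸 E M q) (ssvmgRUnif (ssvmm_le E M q) ϖ) (ssvmmY E M q) Ξ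
        (X - C (ssvmmJ 𝔸 E M q ^ q)) (X ^ q - C (ssvmmJ 𝔸 E M q)) G)
    (τ : E ≃ₐ[ℚ] E) (hτ : SsvmglStab 𝔸 E τ)
    (x : haveI : NeZero q := ⟨(Fact.out : q.Prime).ne_zero⟩
      modularFunctionFieldFullC E (M * q)) :
    haveI : NeZero q := ⟨(Fact.out : q.Prime).ne_zero⟩
    ssdAutRing E (M * q) τ x ∈ h.V₁ ↔ x ∈ h.V₁ := by
  have hq : q.Prime := Fact.out
  haveI : NeZero q := ⟨hq.ne_zero⟩
  exact ((ssvma_mem₁_iff 𝔸 E M hA hϖ Ξ G h _).1).trans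
    ((ssvmgl_aut_mem_iff 𝔸 E (M * q) τ hτ x).trans ((ssvma_mem₁_iff 𝔸 E M hA hϖ Ξ G h x).1).symm)

set_option maxHeartbeats 2000000 in
/-- **`s V₂ = V₂`** -/
theorem ssvmgl_aut_V₂ (hA : 𝔸.LiesOverPrime q) (hqM : ¬ q ∣ M) {ϖ : ↥(s18dVal 𝔸 E)}
    (hϖ : Irreducible ϖ)
    (Ξ G : haveI : NeZero q := ⟨(Fact.out : q.Prime).ne_zero⟩; (↥(ssvmmR 𝔸 E M q))[X])
    (h : haveI : NeZero q := ⟨(Fact.out : q.Prime).ne_zero⟩
      SsvAmb (ssvmmR 𝔸 E M q) (ssvmgRUnif (ssvmm_le E M q) ϖ) (ssvmmY E M q) Ξ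
        (X - C (ssvmmJ 𝔸 E M q ^ q)) (X ^ q - C (ssvmmJ 𝔸 E M q)) G)
    (τ : E ≃ₐ[ℚ] E) (hτ : SsvmglStab 𝔸 E τ)
    (x : haveI : NeZero q := ⟨(Fact.out : q.Prime).ne_zero⟩
      modularFunctionFieldFullC E (M * q)) :
    haveI : NeZero q := ⟨(Fact.out : q.Prime).ne_zero⟩
    ssdAutRing E (M * q) τ x ∈ h.V₂ ↔ x ∈ h.V₂ := by
  have hq : q.Prime := Fact.out
  haveI : NeZero q := ⟨hq.ne_zero⟩
  obtain ⟨w, hwα, hwβ, hww, -⟩ := ssvma_exists_w E M hqM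
  have h1 := (ssvma_mem₂_iff 𝔸 E M hA hqM hϖ Ξ G h w hwα hwβ hww (ssdAutRing E (M * q) τ x)).1
  have h2 := (ssvma_mem₂_iff 𝔸 E M hA hqM hϖ Ξ G h w hwα hwβ hww x).1
  have e : w (ssdAutRing E (M * q) τ x) = ssdAutRing E (M * q) τ (w x) :=
    (ssvmgl_aut_w E M τ w hwα hwβ x).symm
  have h1' : ssdAutRing E (M * q) τ x ∈ h.V₂ ↔ ssdAutRing E (M * q) τ (w x) ∈
      s18vO ↥(s18dVal 𝔸 E) (modularFunctionFieldFullC E (M * q)) := e ▸ h1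
  exact h1'.trans ((ssvmgl_aut_mem_iff 𝔸 E (M * q) τ hτ (w x)).trans h2.symm)

/-- the semilinear action is the coefficientwise automorphism -/
theorem ssvmgl_smul_eq (N : ℕ) (τ : E ≃ₐ[ℚ] E) (x : modularFunctionFieldFullC E N) :
    ssdAut E N τ • x = ssdAutRing E N τ x := rfl

/-- `val₁`, `val₂` of `StFrob`, for the semilinear action of any `τ` preserving `𝔸 ∩ E`, together
with the versions for the maximal ideals -/
theorem ssvmgl_smul_V (hA : 𝔸.LiesOverPrime q) (hqM : ¬ q ∣ M) {ϖ : ↥(s18dVal 𝔸 E)}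
    (hϖ : Irreducible ϖ)
    (Ξ G : haveI : NeZero q := ⟨(Fact.out : q.Prime).ne_zero⟩; (↥(ssvmmR 𝔸 E M q))[X])
    (h : haveI : NeZero q := ⟨(Fact.out : q.Prime).ne_zero⟩
      SsvAmb (ssvmmR 𝔸 E M q) (ssvmgRUnif (ssvmm_le E M q) ϖ) (ssvmmY E M q) Ξ
        (X - C (ssvmmJ 𝔸 E M q ^ q)) (X ^ q - C (ssvmmJ 𝔸 E M q)) G)
    (τ : E ≃ₐ[ℚ] E) (hτ : SsvmglStab 𝔸 E τ) :
    haveI : NeZero q := ⟨(Fact.out : q.Prime).ne_zero⟩
    (∀ x : modularFunctionFieldFullC E (M * q), ssdAut E (M * q) τ • x ∈ h.V₁ ↔ x ∈ h.V₁) ∧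
    (∀ x : modularFunctionFieldFullC E (M * q), ssdAut E (M * q) τ • x ∈ h.V₂ ↔ x ∈ h.V₂) ∧
    (∀ x : modularFunctionFieldFullC E (M * q),
      ssdAut E (M * q) τ • x ∈ h.V₁.nonunits ↔ x ∈ h.V₁.nonunits) ∧
    (∀ x : modularFunctionFieldFullC E (M * q),
      ssdAut E (M * q) τ • x ∈ h.V₂.nonunits ↔ x ∈ h.V₂.nonunits) := by
  have hq : q.Prime := Fact.out
  haveI : NeZero q := ⟨hq.ne_zero⟩
  have h1 := ssvmgl_aut_V₁ 𝔸 E M hA hϖ Ξ G h τ hτ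
  have h2 := ssvmgl_aut_V₂ 𝔸 E M hA hqM hϖ Ξ G h τ hτ
  exact ⟨h1, h2, ssvmgl_nonunits_of_mem _ (ssdAutRing E (M * q) τ) h1,
    ssvmgl_nonunits_of_mem _ (ssdAutRing E (M * q) τ) h2⟩

end Val

/-! ### Frobenius lifts -/

section Frob

variable {q : ℕ} [Fact q.Prime] (𝔸 : ValuationSubring Qb) (E : IntermediateField ℚ Qb)
  [Normal ℚ E]

/-- an element of the decomposition group preserves `𝔸` -/
theorem ssvmgl_mem_iff_of_dec (φ : Qb ≃ₐ[ℚ] Qb) (hφ : φ ∈ 𝔸.decompositionSubgroup ℚ) (x : Qb) :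
    x ∈ 𝔸 ↔ φ x ∈ 𝔸 := by
  constructor
  · intro hx
    exact (𝔸.subMulAction ℚ).smul_mem' ⟨φ, hφ⟩ hx
  · intro hx
    have h1 := (𝔸.subMulAction ℚ).smul_mem' ⟨φ, hφ⟩⁻¹ hx
    have e : ((⟨φ, hφ⟩ : 𝔸.decompositionSubgroup ℚ)⁻¹ • (φ x) : Qb) = x := by
      show φ⁻¹ (φ x) = x
      exact φ.symm_apply_apply x
    rw [e] at h1
    exact h1

/-- the restriction of an element of the decomposition group preserves `𝔸 ∩ E` -/
theorem ssvmgl_stab_of_dec (φ : Qb ≃ₐ[ℚ] Qb) (hφ : φ ∈ 𝔸.decompositionSubgroup ℚ) :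
    SsvmglStab 𝔸 E (φ.restrictNormal E) := by
  intro a
  show algebraMap E Qb a ∈ 𝔸 ↔ algebraMap E Qb (φ.restrictNormal E a) ∈ 𝔸
  rw [AlgEquiv.restrictNormal_commutes]
  exact ssvmgl_mem_iff_of_dec 𝔸 φ hφ _

variable [IsDiscreteValuationRing ↥(s18dVal 𝔸 E)] [CharZero ↥(s18dVal 𝔸 E)]

/-- a Frobenius lift induces the `q`-power map on the residue field of `𝔸 ∩ E` -/
theorem ssvmgl_frob_residue (φ : Qb ≃ₐ[ℚ] Qb) (hφ : 𝔸.IsFrobeniusAt φ q)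
    (a : ↥(s18dVal 𝔸 E)) :
    residue ↥(s18dVal 𝔸 E) (ssvmglBase 𝔸 E (φ.restrictNormal E)
      (ssvmgl_stab_of_dec 𝔸 E φ hφ.mem_decompositionSubgroup) a) =
      residue ↥(s18dVal 𝔸 E) a ^ q := by
  rw [← map_pow, ← sub_eq_zero, ← map_sub]
  refine (s18db_residue_eq_zero_iff (A := 𝔸) (E := E) _).mpr ?_
  rw [residue_eq_zero_iff, ← ValuationSubring.coe_mem_nonunits_iff]
  have h1 := guny_frob_congr 𝔸 φ q hφ (algebraMap E Qb (a : E)) a.2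
  have e : ((s18ddIncl 𝔸 E (ssvmglBase 𝔸 E (φ.restrictNormal E)
      (ssvmgl_stab_of_dec 𝔸 E φ hφ.mem_decompositionSubgroup) a - a ^ q) : ↥𝔸) : Qb) =
      φ (algebraMap E Qb (a : E)) - algebraMap E Qb (a : E) ^ q := by
    show algebraMap E Qb ((φ.restrictNormal E (a : E)) - (a : E) ^ q) = _
    rw [map_sub, map_pow, AlgEquiv.restrictNormal_commutes]
  rw [e]
  exact h1

/-- a Frobenius lift : `τ̄ x = x^q` -/
theorem ssvmgl_frob_res (φ : Qb ≃ₐ[ℚ] Qb) (hφ : 𝔸.IsFrobeniusAt φ q)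
    (x : ResidueField ↥(s18dVal 𝔸 E)) :
    ssvmglRes 𝔸 E (φ.restrictNormal E)
      (ssvmgl_stab_of_dec 𝔸 E φ hφ.mem_decompositionSubgroup) x = x ^ q := by
  obtain ⟨a, rfl⟩ := residue_surjective x
  rw [ssvmglRes_residue]
  exact ssvmgl_frob_residue 𝔸 E φ hφ a

/-- a Frobenius lift : `τ a ≡ a^q mod ϖ` on `𝔸 ∩ E` -/
theorem ssvmgl_frob_base (φ : Qb ≃ₐ[ℚ] Qb) (hφ : 𝔸.IsFrobeniusAt φ q)
    {ϖ : ↥(s18dVal 𝔸 E)} (hϖ : Irreducible ϖ) (a : ↥(s18dVal 𝔸 E)) :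
    ∃ b : ↥(s18dVal 𝔸 E), ssvmglBase 𝔸 E (φ.restrictNormal E)
      (ssvmgl_stab_of_dec 𝔸 E φ hφ.mem_decompositionSubgroup) a = a ^ q + ϖ * b := by
  have h1 := ssvmgl_frob_residue 𝔸 E φ hφ a
  rw [← map_pow, ← sub_eq_zero, ← map_sub, residue_eq_zero_iff, hϖ.maximalIdeal_eq,
    Ideal.mem_span_singleton] at h1
  obtain ⟨b, hb⟩ := h1
  exact ⟨b, by rw [← hb]; ring⟩

end Frob

/-! ### The Frobenius congruences for a Frobenius lift -/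

section FrobS

variable {q : ℕ} [Fact q.Prime] (𝔸 : ValuationSubring Qb) (E : IntermediateField ℚ Qb)
  [Normal ℚ E] [IsDiscreteValuationRing ↥(s18dVal 𝔸 E)] [CharZero ↥(s18dVal 𝔸 E)]
variable (M : ℕ) [NeZero M]

/-- for a Frobenius lift, `τ̄` is the Frobenius of the residue field -/
theorem ssvmgl_frob_res_eq [CharP (ResidueField ↥(s18dVal 𝔸 E)) q] (φ : Qb ≃ₐ[ℚ] Qb)
    (hφ : 𝔸.IsFrobeniusAt φ q) :
    (ssvmglRes 𝔸 E (φ.restrictNormal E)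
      (ssvmgl_stab_of_dec 𝔸 E φ hφ.mem_decompositionSubgroup) :
        ResidueField ↥(s18dVal 𝔸 E) →+* ResidueField ↥(s18dVal 𝔸 E)) =
      frobenius (ResidueField ↥(s18dVal 𝔸 E)) q := by
  ext x
  rw [frobenius_def]
  exact ssvmgl_frob_res 𝔸 E φ hφ x

/-- reduction of `s₀ g` for a Frobenius lift : `Fr (red g)` -/
theorem ssvmgl_frob_red [CharP (ResidueField ↥(s18dVal 𝔸 E)) q] (φ : Qb ≃ₐ[ℚ] Qb)
    (hφ : 𝔸.IsFrobeniusAt φ q) (g : modularFunctionFieldFullC E M)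
    (hg : g ∈ s18vO ↥(s18dVal 𝔸 E) (modularFunctionFieldFullC E M)) :
    ∃ h' : ssdAutRing E M (φ.restrictNormal E) g ∈
        s18vO ↥(s18dVal 𝔸 E) (modularFunctionFieldFullC E M),
      coeffMap (frobenius (ResidueField ↥(s18dVal 𝔸 E)) q)
        (s18vcRed (modularFunctionFieldFullC E M) ⟨g, hg⟩) =
      s18vcRed (modularFunctionFieldFullC E M) ⟨ssdAutRing E M (φ.restrictNormal E) g, h'⟩ := by
  obtain ⟨h', hr⟩ := ssvmgl_aut_mem 𝔸 E M (φ.restrictNormal E)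
    (ssvmgl_stab_of_dec 𝔸 E φ hφ.mem_decompositionSubgroup) g hg
  refine ⟨h', ?_⟩
  rw [hr, ssvmgl_frob_res_eq 𝔸 E φ hφ]

set_option maxHeartbeats 1000000 in
/-- **FROB-s** : for a Frobenius lift `s`, `φ (s₀ g) ≡ (α g)^q mod 𝔪_{V₁}` and
`α (s₀ g) ≡ (φ g)^q mod 𝔪_{V₂}` for `g` in the Gauss ring of `F_E(M)`. -/
theorem ssvmgl_frob_s [CharP (ResidueField ↥(s18dVal 𝔸 E)) q] (hA : 𝔸.LiesOverPrime q)
    (hqM : ¬ q ∣ M) {ϖ : ↥(s18dVal 𝔸 E)} (hϖ : Irreducible ϖ)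
    (Ξ G : haveI : NeZero q := ⟨(Fact.out : q.Prime).ne_zero⟩; (↥(ssvmmR 𝔸 E M q))[X])
    (h : haveI : NeZero q := ⟨(Fact.out : q.Prime).ne_zero⟩
      SsvAmb (ssvmmR 𝔸 E M q) (ssvmgRUnif (ssvmm_le E M q) ϖ) (ssvmmY E M q) Ξ
        (X - C (ssvmmJ 𝔸 E M q ^ q)) (X ^ q - C (ssvmmJ 𝔸 E M q)) G)
    (φ : Qb ≃ₐ[ℚ] Qb) (hφ : 𝔸.IsFrobeniusAt φ q) (g : modularFunctionFieldFullC E M)
    (hg : g ∈ s18vO ↥(s18dVal 𝔸 E) (modularFunctionFieldFullC E M)) :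
    haveI : NeZero q := ⟨(Fact.out : q.Prime).ne_zero⟩
    ssvmdIncl E M q g ^ q - ssvmfPhi E M q (ssdAutRing E M (φ.restrictNormal E) g) ∈
        h.V₁.nonunits ∧
      ssvmfPhi E M q g ^ q - ssvmdIncl E M q (ssdAutRing E M (φ.restrictNormal E) g) ∈
        h.V₂.nonunits := by
  have hq : q.Prime := Fact.out
  haveI : NeZero q := ⟨hq.ne_zero⟩
  obtain ⟨h', hfr⟩ := ssvmgl_frob_red 𝔸 E M φ hφ g hg
  exact ⟨ssvmar_frob₁ 𝔸 E M hA hqM hϖ Ξ G h _ g h' hg hfr,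
    ssvmf_frob₂ 𝔸 E M hA hqM hϖ Ξ G h _ g h' hg hfr⟩

end FrobS

end Fermat.Agent.SS
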